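/-
PROJECT D (S48), part B, block B3, brick E0a (helper3): THE CORRESPONDENCE OF AN AUTOMORPHISM.

`F / K` a function field, `δ : F ≃ₐ[K] F`.  The guarded correspondence `corrOp δ id = id_* ∘ δ^*` of
`Defs/Model` (the shape of `diamondPull1`) is the action of the semilinear automorphism
`SemilinearAut.ofAlgAut δ` on `Pic0`:

* `restrictAlong_algEquiv` : `w|_δ = δ⁻¹ • w` ; `ramificationIndexAlong_algEquiv` : `e = 1` ;
* `pullbackAlong_algEquiv` : `δ^* D = δ • D` ;
* `restrictAlong_id`, `inertiaDegAlong_id`, `pushforwardAlong_id` : `id_* = id` ;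
* `correspondence_algEquiv` : `Pic0.correspondence δ id .. x = ofAlgAut δ • x` ;
* `corrOp_algEquiv` : `corrOp δ id x = ofAlgAut δ • x` when `CorrInputs δ id`.

Mathlib + Prelude + main's `S30/Arith/CorrEquivariant` + `Defs/Model` (for `corrOp`).
-/
import Mathlib
import Fermat.Agent.S30.Arith.CorrEquivariant
import Fermat.Agent.S48.B.Defs.Model

set_option autoImplicit false
set_option linter.style.haveILetI false

noncomputable section

namespace Fermat.Agent.S48.B.Red.CorrAut

open AlgebraicCurve AlgebraicCurve.SemilinearAut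
open Fermat.Agent.S30.Arith.CorrEquivariant Fermat.Agent.S48.B.Defs.Model
open scoped Pointwise

variable {K F : Type*} [Field K] [Field F] [Algebra K F]

section Aut

variable (δ : F ≃ₐ[K] F) (hφ : δ.toAlgHom.toRingHom.IsIntegral)

/-- the restriction of a place along an automorphism -/
theorem restrictAlong_algEquiv (w : Place K F) :
    w.restrictAlong δ.toAlgHom hφ = (ofAlgAut δ)⁻¹ • w := by
  apply Place.ext
  ext x
  rw [mem_restrictAlong_iff, smul_toValuationSubring,
    ValuationSubring.mem_pointwise_smul_iff_inv_smul_mem, inv_inv, ofAlgAut_smul]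
  rfl

include hφ in
/-- an automorphism is unramified -/
theorem ramificationIndexAlong_algEquiv (w : Place K F) :
    Place.ramificationIndexAlong δ.toAlgHom w = 1 := by
  have h1 : ∀ f : F, w.ord (δ f) = ((ofAlgAut δ)⁻¹ • w).ord f := by
    intro f
    have h := ord_smul (ofAlgAut δ) ((ofAlgAut δ)⁻¹ • w) f
    rw [smul_inv_smul, ofAlgAut_smul] at h
    exact h
  obtain ⟨π, hπ⟩ := IsDiscreteValuationRing.exists_irreducible
    ((ofAlgAut δ)⁻¹ • w).toValuationSubring
  have h2 := Place.ord_restrictAlong δ.toAlgHom hφ w (π : F)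
  rw [restrictAlong_algEquiv δ hφ w, Place.ord_coe_irreducible _ hπ, mul_one] at h2
  have h3 : w.ord (δ.toAlgHom (π : F)) = 1 := by
    show w.ord (δ (π : F)) = 1
    rw [h1, Place.ord_coe_irreducible _ hπ]
  rw [h3] at h2
  exact_mod_cast h2.symm

/-- **`δ^* D = δ • D`** -/
theorem pullbackAlong_algEquiv [HasPrincipalDivisors K F] (D : Divisor K F) :
    Divisor.pullbackAlong δ.toAlgHom hφ D = ofAlgAut δ • D := by
  ext w
  rw [Divisor.pullbackAlong_apply, divisor_smul_apply, restrictAlong_algEquiv δ hφ w,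
    ramificationIndexAlong_algEquiv δ hφ w, Nat.cast_one, one_mul]

end Aut

section Id

variable (hψ : (AlgHom.id K F).toRingHom.IsIntegral)

theorem restrictAlong_id (w : Place K F) : w.restrictAlong (AlgHom.id K F) hψ = w := by
  apply Place.ext
  ext x
  rw [mem_restrictAlong_iff]
  rfl

theorem inertiaDegAlong_id (w : Place K F) : w.inertiaDegAlong (AlgHom.id K F) hψ = 1 := by
  letI := algebraAlong (AlgHom.id K F)
  haveI := isScalarTower_along (AlgHom.id K F)
  haveI := isIntegral_along (AlgHom.id K F) hψ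
  show Module.finrank (w.restrict F).ResidueField w.ResidueField = 1
  rw [finrank_eq_one_iff_of_nonzero' (1 : w.ResidueField) one_ne_zero]
  intro y
  obtain ⟨a, rfl⟩ := IsLocalRing.residue_surjective y
  have ha : (a : F) ∈ (w.restrict F).toValuationSubring := by
    rw [Place.mem_restrict_iff]
    exact a.2
  refine ⟨IsLocalRing.residue _ ⟨(a : F), ha⟩, ?_⟩
  rw [Algebra.smul_def, mul_one, Place.algebraMap_residueField_eq,
    Place.restrictResidueMap_residue]
  rfl

/-- **`id_* = id`** -/
theorem pushforwardAlong_id (E : Divisor K F) :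
    Divisor.pushforwardAlong (AlgHom.id K F) hψ E = E := by
  induction E using Finsupp.induction_linear with
  | zero => rw [map_zero]
  | add D E hD hE => rw [map_add, hD, hE]
  | single w n =>
    rw [Divisor.pushforwardAlong_single, restrictAlong_id hψ w, inertiaDegAlong_id hψ w,
      Nat.cast_one, mul_one]

end Id

section Corr

variable (δ : F ≃ₐ[K] F) [HasPrincipalDivisors K F]

/-- the correspondence `id_* ∘ δ^*` on divisors is the action of `δ` -/
theorem divisor_correspondence_algEquiv (hφ : δ.toAlgHom.toRingHom.IsIntegral)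
    (hψ : (AlgHom.id K F).toRingHom.IsIntegral) (D : Divisor K F) :
    Divisor.correspondence δ.toAlgHom (AlgHom.id K F) hφ hψ D = ofAlgAut δ • D := by
  rw [Divisor.correspondence_apply, pullbackAlong_algEquiv δ hφ D, pushforwardAlong_id hψ]

/-- **the correspondence `id_* ∘ δ^*` on `Pic0` is the action of `δ`** -/
theorem correspondence_algEquiv (hφ : δ.toAlgHom.toRingHom.IsIntegral)
    (hψ : (AlgHom.id K F).toRingHom.IsIntegral)
    (hFI : FundamentalIdentityAlong K δ.toAlgHom hφ) (hfin : FiniteAlong K (AlgHom.id K F))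
    (hN : NormFormulaAlong K (AlgHom.id K F) hfin) (x : Pic0 K F) :
    Pic0.correspondence δ.toAlgHom (AlgHom.id K F) hφ hψ hFI hfin hN x = ofAlgAut δ • x := by
  obtain ⟨D, rfl⟩ := Pic0.mk_surjective x
  rw [Pic0.correspondence_mk, pic0_smul_mk]
  refine congrArg Pic0.mk (Subtype.ext ?_)
  rw [Pic0.coe_degZeroCorrespondence, coe_degZeroSMulHom,
    divisor_correspondence_algEquiv δ hφ hψ]

end Corr

/-- **`corrOp δ id = δ • ·`** when the inputs are available -/
theorem corrOp_algEquiv (δ : F ≃ₐ[K] F) (h : CorrInputs δ.toAlgHom (AlgHom.id K F))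
    (x : Pic0 K F) : corrOp δ.toAlgHom (AlgHom.id K F) x = ofAlgAut δ • x := by
  obtain ⟨hφ, hψ, hP, hfin, hFI, hN⟩ := h
  rw [corrOp_eq hφ hψ hFI hfin hN]
  exact correspondence_algEquiv δ hφ hψ hFI hfin hN x

end Fermat.Agent.S48.B.Red.CorrAut

end
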