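/-
PROJECT D (S48), part B, block B3 (reduction of `X₁(M)`), shared definition file (helper11):
the action of a field automorphism `τ` of `k` on a coefficientwise stable subfield `Fk ⊆ k((q))`,
on its places, divisors and `Pic0`; the instance `Fk = F1C M k`; the Frobenius `frobPic0₁` of
`J1C M k` (the `Fb` of `Defs.Reduction.HasReduction1`).

Generic twin of main's `S37/Equivariance/CoeffAut` (helper3), with the pair
`modularFunctionFieldFullC k N` replaced by a variable `Fk` and a stability hypothesis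
`CoeffStable Fk`.
-/
import Mathlib
import Fermat.Prelude.Def_AlgebraicCurve_BaseChangeGalois
import Fermat.Agent.S37.Equivariance.CoeffAut
import Fermat.Agent.S48.B.Defs.Model

set_option autoImplicit false
set_option linter.unusedSectionVars false

noncomputable section

namespace Fermat.Agent.S48.B.Red.CoeffAut1

open AlgebraicCurve ModularCurve IntermediateField Fermat.Agent.S48.B.Defs.Model

/-! ### Generic part -/

section Generic

variable {k : Type*} [Field k] (Fk : IntermediateField k (LaurentSeries k))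

/-- `Fk` is stable under the coefficientwise action of every ring endomorphism of `k` -/
def CoeffStable : Prop :=
  ∀ (τ : k →+* k) (x : LaurentSeries k), x ∈ Fk → coeffMap τ x ∈ Fk

variable {Fk} (h : CoeffStable Fk)

/-- `τ` acting coefficientwise on `Fk`. -/
def coeffRingAut (τ : k ≃+* k) : Fk ≃+* Fk where
  toFun x := ⟨coeffMap (τ : k →+* k) (x : LaurentSeries k), h _ _ x.2⟩
  invFun x := ⟨coeffMap (τ.symm : k →+* k) (x : LaurentSeries k), h _ _ x.2⟩
  left_inv x := Subtype.ext <| by
    show coeffMap (τ.symm : k →+* k) (coeffMap (τ : k →+* k) (x : LaurentSeries k))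
      = (x : LaurentSeries k)
    rw [coeffMap_coeffMap,
      coeffMap_congr (g := RingHom.id k) (RingHom.ext fun a => τ.symm_apply_apply a)
        (x : LaurentSeries k),
      coeffMap_id]
  right_inv x := Subtype.ext <| by
    show coeffMap (τ : k →+* k) (coeffMap (τ.symm : k →+* k) (x : LaurentSeries k))
      = (x : LaurentSeries k)
    rw [coeffMap_coeffMap,
      coeffMap_congr (g := RingHom.id k) (RingHom.ext fun a => τ.apply_symm_apply a)
        (x : LaurentSeries k),
      coeffMap_id]
  map_mul' x y :=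
    Subtype.ext (map_mul (coeffMap (τ : k →+* k)) (x : LaurentSeries k) (y : LaurentSeries k))
  map_add' x y :=
    Subtype.ext (map_add (coeffMap (τ : k →+* k)) (x : LaurentSeries k) (y : LaurentSeries k))

@[simp]
theorem coe_coeffRingAut_apply (τ : k ≃+* k) (x : Fk) :
    (coeffRingAut h τ x : LaurentSeries k) = coeffMap (τ : k →+* k) (x : LaurentSeries k) :=
  rfl

theorem coeff_coeffRingAut_apply (τ : k ≃+* k) (x : Fk) (n : ℤ) :
    (coeffRingAut h τ x : LaurentSeries k).coeff n = τ ((x : LaurentSeries k).coeff n) :=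
  rfl

theorem coeffRingAut_algebraMap (τ : k ≃+* k) (a : k) :
    coeffRingAut h τ (algebraMap k Fk a) = algebraMap k Fk (τ a) :=
  Subtype.ext (coeffMap_algebraMap (τ : k →+* k) a)

/-- `RingAut k` acts on `Fk` by semilinear automorphisms. -/
def coeffAut : RingAut k →* SemilinearAut k Fk where
  toFun τ := ⟨(coeffRingAut h τ, τ), fun a => coeffRingAut_algebraMap h τ a⟩
  map_one' := by
    refine Subtype.ext (Prod.ext (RingEquiv.ext fun x => Subtype.ext ?_) rfl)
    show coeffMap ((1 : RingAut k) : k →+* k) (x : LaurentSeries k) = (x : LaurentSeries k)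
    rw [show ((1 : RingAut k) : k →+* k) = RingHom.id k from RingHom.ext fun _ => rfl,
      coeffMap_id]
  map_mul' σ τ := by
    refine Subtype.ext (Prod.ext (RingEquiv.ext fun x => Subtype.ext ?_) rfl)
    show coeffMap ((σ * τ : RingAut k) : k →+* k) (x : LaurentSeries k)
      = coeffMap (σ : k →+* k) (coeffMap (τ : k →+* k) (x : LaurentSeries k))
    rw [coeffMap_coeffMap]
    exact coeffMap_congr (RingHom.ext fun _ => rfl) _

@[simp]
theorem toRingAut_coeffAut (τ : RingAut k) :
    SemilinearAut.toRingAut (coeffAut h τ) = coeffRingAut h τ :=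
  rfl

@[simp]
theorem baseAut_coeffAut (τ : RingAut k) :
    SemilinearAut.baseAut (coeffAut h τ) = τ :=
  rfl

theorem coe_coeffAut_smul (τ : RingAut k) (x : Fk) :
    ((coeffAut h τ • x : Fk) : LaurentSeries k) = coeffMap (τ : k →+* k) (x : LaurentSeries k) :=
  rfl

/-- the action on places -/
def placeEquiv (τ : RingAut k) : Place k Fk ≃ Place k Fk :=
  MulAction.toPerm (coeffAut h τ)

theorem placeEquiv_apply (τ : RingAut k) (v : Place k Fk) :
    placeEquiv h τ v = coeffAut h τ • v := rfl

theorem ord_placeEquiv (τ : RingAut k) (v : Place k Fk) (f : Fk) :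
    (placeEquiv h τ v).ord (coeffRingAut h τ f) = v.ord f :=
  SemilinearAut.ord_smul (coeffAut h τ) v f

/-- the action on `Pic0 k Fk` as an additive automorphism -/
def pic0Equiv (τ : RingAut k) : Pic0 k Fk ≃+ Pic0 k Fk :=
  DistribMulAction.toAddEquiv (Pic0 k Fk) (coeffAut h τ)

theorem pic0Equiv_apply (τ : RingAut k) (x : Pic0 k Fk) :
    pic0Equiv h τ x = coeffAut h τ • x := rfl

theorem pic0Equiv_one (x : Pic0 k Fk) : pic0Equiv h 1 x = x := by
  rw [pic0Equiv_apply, map_one, one_smul]

theorem pic0Equiv_mul (σ τ : RingAut k) (x : Pic0 k Fk) :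
    pic0Equiv h (σ * τ) x = pic0Equiv h σ (pic0Equiv h τ x) := by
  rw [pic0Equiv_apply, pic0Equiv_apply, pic0Equiv_apply, map_mul, mul_smul]

theorem pic0Equiv_symm_apply (τ : RingAut k) (x : Pic0 k Fk) :
    (pic0Equiv h τ).symm x = pic0Equiv h τ⁻¹ x := by
  rw [AddEquiv.symm_apply_eq, ← pic0Equiv_mul, mul_inv_cancel, pic0Equiv_one]

theorem pic0Equiv_mk (τ : RingAut k) (D : Divisor.degZero (K := k) (F := Fk)) :
    pic0Equiv h τ (Pic0.mk D) = Pic0.mk (SemilinearAut.degZeroSMulHom (coeffAut h τ) D) :=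
  SemilinearAut.pic0_smul_mk (coeffAut h τ) D

end Generic

/-! ### The instance `F1C M k` -/

section X1

variable (M : ℕ) [NeZero M] (k : Type*) [Field k]

/-- `F1C M k` is coefficientwise stable: its generators have prime-ring coefficients. -/
theorem coeffStable_F1C : CoeffStable (F1C M k) := by
  intro τ x hx
  rw [F1C] at hx
  induction hx using IntermediateField.adjoin_induction with
  | mem y hy =>
      obtain ⟨z, hz, rfl⟩ := hy
      rw [coeffMap_coeffMap,
        coeffMap_congr (g := Int.castRingHom k) (RingHom.ext_int _ _) z]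
      exact coeffMap_mem_F1C M k hz
  | algebraMap a =>
      rw [coeffMap_algebraMap]
      exact (F1C M k).algebraMap_mem _
  | add x y _ _ hx hy => rw [map_add]; exact add_mem hx hy
  | inv x _ hx => rw [map_inv₀]; exact inv_mem hx
  | mul x y _ _ hx hy => rw [map_mul]; exact mul_mem hx hy

/-- `τ` acting coefficientwise on `k(X₁(M))` -/
abbrev coeffRingAut₁ (τ : k ≃+* k) : F1C M k ≃+* F1C M k :=
  coeffRingAut (coeffStable_F1C M k) τ

/-- `RingAut k` acting on `k(X₁(M))` by semilinear automorphisms -/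
abbrev coeffAut₁ : RingAut k →* SemilinearAut k (F1C M k) :=
  coeffAut (coeffStable_F1C M k)

/-- `RingAut k` acting on `J₁(M)(k)` -/
abbrev pic0Equiv₁ (τ : RingAut k) : J1C M k ≃+ J1C M k :=
  pic0Equiv (coeffStable_F1C M k) τ

variable (ℓ : ℕ) [Fact ℓ.Prime] [CharP k ℓ] [PerfectField k]

/-- **the Frobenius of `J1C M k`**: the `Fb` of `Defs.Reduction.HasReduction1`
(`frobAut` is main's `S37.Equivariance.CoeffAut.frobAut`). -/
def frobPic0₁ : J1C M k ≃+ J1C M k :=
  pic0Equiv₁ M k (Fermat.Agent.S37.Equivariance.CoeffAut.frobAut k ℓ)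

theorem frobPic0₁_apply (x : J1C M k) :
    frobPic0₁ M k ℓ x =
      coeffAut₁ M k (Fermat.Agent.S37.Equivariance.CoeffAut.frobAut k ℓ) • x := rfl

/-- Frobenius on functions: coefficientwise `ℓ`-th powers. -/
theorem coeff_frob_apply₁ (x : F1C M k) (n : ℤ) :
    (coeffRingAut₁ M k (Fermat.Agent.S37.Equivariance.CoeffAut.frobAut k ℓ) x :
        LaurentSeries k).coeff n = ((x : LaurentSeries k).coeff n) ^ ℓ := by
  rw [coeff_coeffRingAut_apply, Fermat.Agent.S37.Equivariance.CoeffAut.frobAut_apply]

/-- **the Verschiebung of `J1C M k`**: `V = ℓ ∘ Fb⁻¹` (so that `V ∘ Fb = ℓ`) -/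
def verPic0₁ : J1C M k →+ J1C M k :=
  ℓ • (frobPic0₁ M k ℓ).symm.toAddMonoidHom

theorem verPic0₁_apply (x : J1C M k) :
    verPic0₁ M k ℓ x = ℓ • (frobPic0₁ M k ℓ).symm x := rfl

theorem verPic0₁_frobPic0₁ (x : J1C M k) : verPic0₁ M k ℓ (frobPic0₁ M k ℓ x) = ℓ • x := by
  rw [verPic0₁_apply, AddEquiv.symm_apply_apply]

end X1

end Fermat.Agent.S48.B.Red.CoeffAut1

end
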