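/-
PROJECT D (S48), part B, block B3 = S37' minus [B-ES] : the reduction of `X₁(M)` at the primes
`ℓ ∤ M`.  THE TYPED SEAMS (helper11, leader B3; RULING D-2 / D-2 REV A of helper8, sub-cut B3-1).

Everything is a `def ... : Prop` (plus `jC`, the name of `j̄`).  `Kb = AlgebraicClosure ℚ`,
`κ(A) = IsLocalRing.ResidueField A`.

```
 INTO B3
  [B-igusa]  IgusaDeg M , IgusaSep M   (B2)  : [k(X₁(M)) : k(j̄)] = [ℚ̄(X₁(M)) : ℚ̄(j)], separable
  [B-ram]    Ram1 M                    (B1)  : e ≤ 3 over 0, e ≤ 2 over 1728, e = 1 elsewhere,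
                                               pole orders of j at most M
  [B-wild]   GenusLeWild1 M            (B3/W + B3/C + B4/K3) : gL ≤ gk in residue characteristic 2, 3
 OUT OF B3
  [B-red]    RedInputs1 M              : ReductionInputs1 A M at every A over every ℓ ∤ M
  (R1)       Inertia1 M                : reduction1 is invariant under inertia
  (R2)       Frobenius1 M              : reduction1 (σ • x) = frobPic0₁ (reduction1 x)
  (R0)       DiamondRed1 M             : reduction1 ∘ ⟨d⟩_* = Dm ∘ reduction1, Dm commutes with Frobenius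
```
-/
import Mathlib
import Fermat.Agent.S18.NonSpecial
import Fermat.Agent.S48.B.Defs.Model
import Fermat.Agent.S48.B.Defs.Reduction
import Fermat.Agent.S48.B.B1.Seams
import Fermat.Agent.S48.B.Red.CoeffAut1

set_option autoImplicit false

noncomputable section

namespace Fermat.Agent.S48.B.Red.Seams

open ModularCurve AlgebraicCurve IntermediateField IsLocalRing
open Fermat.Agent.S48.B.Defs.Model Fermat.Agent.S48.B.Defs.Reduction
open Fermat.Agent.S48.B.B1.Seams (jgen1)
open Fermat.Agent.S48.B.Red.CoeffAut1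
open Fermat.Agent.S18.NonSpecial (RiemannHyp)

local notation "Kb" => AlgebraicClosure ℚ

variable (M : ℕ) [NeZero M]

/-! ### `j̄` -/

theorem jqModC_mem_F1C (k : Type*) [Field k] : jqModC k ∈ F1C M k := by
  have h : coeffMap (Int.castRingHom ℚ) (jqModC ℤ) ∈ F1 M := by
    rw [coeffMap_jqModC, jqModC_rat, ← qExpand_one_apply jq]
    exact jqd_mem_F1 M (one_dvd M)
  have h' := coeffMap_mem_F1C M k h
  rwa [coeffMap_jqModC] at h'

/-- `j̄` as an element of `k(X₁(M))` -/
def jC (k : Type*) [Field k] : F1C M k := ⟨jqModC k, jqModC_mem_F1C M k⟩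

@[simp]
theorem coe_jC (k : Type*) [Field k] : ((jC M k : F1C M k) : LaurentSeries k) = jqModC k := rfl

/-! ### Seams into B3 -/

/-- **[B-igusa], degree** (block B2): for `ℓ ∤ M` and `A` over `ℓ`, `k = κ(A)`, the field
`F1C M k` generated by the reductions of the `ℤ`-integral elements of `F1 M` is finite over `k(j̄)`
of the same degree as `ℚ̄(X₁(M))` over `ℚ̄(j)`. -/
def IgusaDeg : Prop :=
  ∀ ℓ : ℕ, ℓ.Prime → ¬ ℓ ∣ M → ∀ A : ValuationSubring Kb, A.LiesOverPrime ℓ →
    FiniteDimensional ↥(ResidueField A)⟮jC M (ResidueField A)⟯ (F1C M (ResidueField A)) ∧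
      Module.finrank ↥(ResidueField A)⟮jC M (ResidueField A)⟯ (F1C M (ResidueField A)) =
        Module.finrank ↥Kb⟮jgen1 M⟯ (F1Bar M)

/-- **[B-igusa], separability** (block B2): `k(X₁(M)) / k(j̄)` is separable (it is a subextension of
the Galois extension `res(FF_M) / res(K₀)`). -/
def IgusaSep : Prop :=
  ∀ ℓ : ℕ, ℓ.Prime → ¬ ℓ ∣ M → ∀ A : ValuationSubring Kb, A.LiesOverPrime ℓ →
    Algebra.IsSeparable ↥(ResidueField A)⟮jC M (ResidueField A)⟯ (F1C M (ResidueField A))

/-- **[B-ram]** (block B1, the local form of `Places1`: `ord = card of the orbit`): the ramification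
of `j` on `X₁(M)` in characteristic zero, in the shape of the hypotheses of main's
`S37.Diff.OrdBounds.integral_of_mem_canDiv`. -/
def Ram1 : Prop :=
  (∀ v : Place Kb (F1Bar M), v.adicValuation (jgen1 M - algebraMap Kb _ 0) < 1 →
      v.ord (jgen1 M - algebraMap Kb _ 0) ≤ 3) ∧
    (∀ v : Place Kb (F1Bar M), v.adicValuation (jgen1 M - algebraMap Kb _ 1728) < 1 →
      v.ord (jgen1 M - algebraMap Kb _ 1728) ≤ 2) ∧
    (∀ a : Kb, a ≠ 0 → a ≠ 1728 → ∀ v : Place Kb (F1Bar M),
      v.adicValuation (jgen1 M - algebraMap Kb _ a) < 1 →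
        v.ord (jgen1 M - algebraMap Kb _ a) = 1) ∧
    ∀ v : Place Kb (F1Bar M), 1 < v.adicValuation (jgen1 M) → -v.ord (jgen1 M) ≤ (M : ℤ)

/-- the inequality of genera at `A` -/
def GenusLe1 (A : ValuationSubring Kb) : Prop :=
  ∀ gL gk : ℕ, RiemannHyp Kb (F1Bar M) gL →
    RiemannHyp (ResidueField A) (F1C M (ResidueField A)) gk → gL ≤ gk

/-- **[B-wild]** the inequality of genera in residue characteristic `2` and `3`
(bricks `Wild1`, `Cusp1/*` of B3 and the contract K3 for `X₁(M)` of B4). -/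
def GenusLeWild1 : Prop :=
  ∀ ℓ : ℕ, ℓ.Prime → ¬ ℓ ∣ M → (ℓ = 2 ∨ ℓ = 3) →
    ∀ A : ValuationSubring Kb, A.LiesOverPrime ℓ → GenusLe1 M A

/-! ### Seams out of B3 -/

/-- **[B-red]** the reduction inputs for `X₁(M)` at every valuation subring over every prime
`ℓ ∤ M` (including `2` and `3`) -/
def RedInputs1 : Prop :=
  ∀ ℓ : ℕ, ℓ.Prime → ¬ ℓ ∣ M → ∀ A : ValuationSubring Kb, A.LiesOverPrime ℓ →
    ReductionInputs1 A M

/-- `RedInputs1` away from `2` and `3` (intermediate target: does not need [B-wild]) -/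
def RedInputs1Tame : Prop :=
  ∀ ℓ : ℕ, ℓ.Prime → ¬ ℓ ∣ M → ℓ ≠ 2 → ℓ ≠ 3 →
    ∀ A : ValuationSubring Kb, A.LiesOverPrime ℓ → ReductionInputs1 A M

/-- **(R1)** `reduction1 A M` is invariant under the inertia subgroup at `A` -/
def Inertia1 : Prop :=
  ∀ ℓ : ℕ, ℓ.Prime → ¬ ℓ ∣ M → ∀ A : ValuationSubring Kb, A.LiesOverPrime ℓ →
    ∀ σ ∈ A.inertiaSubgroupIn ℚ, ∀ x : J1 M, reduction1 A M (σ • x) = reduction1 A M x

/-- **(R2)** `reduction1 A M` intertwines every Frobenius element at `A` with the coefficientwise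
Frobenius `frobPic0₁` of `J1C M κ(A)`.  (The instances are propositions or subsingletons, so any
terms may be used.) -/
def Frobenius1 : Prop :=
  ∀ (ℓ : ℕ) [Fact ℓ.Prime], ¬ ℓ ∣ M → ∀ A : ValuationSubring Kb, A.LiesOverPrime ℓ →
    ∀ [CharP (ResidueField A) ℓ] [PerfectField (ResidueField A)],
      ∀ σ : Kb ≃ₐ[ℚ] Kb, A.IsFrobeniusAt σ ℓ → ∀ x : J1 M,
        reduction1 A M (σ • x) = frobPic0₁ M (ResidueField A) ℓ (reduction1 A M x)

/-- **(R0)** the diamond operators reduce: for every `d` there is an additive endomorphism `Dm` of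
`J1C M κ(A)` with `reduction1 ∘ ⟨d⟩_* = Dm ∘ reduction1`, commuting with the Frobenius (hence with
the Verschiebung `verPic0₁ = ℓ ∘ Fb⁻¹`). -/
def DiamondRed1 : Prop :=
  ∀ (ℓ : ℕ) [Fact ℓ.Prime], ¬ ℓ ∣ M → ∀ A : ValuationSubring Kb, A.LiesOverPrime ℓ →
    ∀ [CharP (ResidueField A) ℓ] [PerfectField (ResidueField A)] (d : (ZMod M)ˣ),
      ∃ Dm : J1C M (ResidueField A) →+ J1C M (ResidueField A),
        (∀ x : J1 M, reduction1 A M (diamond1Bar M d x) = Dm (reduction1 A M x)) ∧
        ∀ y : J1C M (ResidueField A),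
          Dm (frobPic0₁ M (ResidueField A) ℓ y) = frobPic0₁ M (ResidueField A) ℓ (Dm y)

end Fermat.Agent.S48.B.Red.Seams

end
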