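/-
PROJECT D (S48), part B, block B3, brick G0 (helper11): THE GAUSS VALUATION STRUCTURE, GENERIC IN THE
PAIR OF FIELDS.

Twin of main's `S18/GaussFromH` (helper9) with the pair
`(modularFunctionFieldFull N, modularFunctionFieldFullC k N)` replaced by VARIABLES
`(F₀ : IntermediateField ℚ (LaurentSeries ℚ))`, `(Fk : IntermediateField k (LaurentSeries k))`, in the
language of `Defs/Reduction.lean` (`IsPlaceReductionAlongG`, `PrincipalGeneratedByIntegralG`).
Proofs are main's, verbatim, except the surjectivity of the reduction, where the explicit generators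
`j(q^d)` are replaced by the hypothesis `GeneratedByReductions A π F₀ Fk`
(`Fk` is generated over `k` by the reductions of the integral elements).

`L` a field over `ℚ`, `A : ValuationSubring L`, `π : A →+* k`,
`FL = laurentBaseChange L F₀ ⊆ L((q))`, `Fk ⊆ k((q))`.

* `intRing A π F₀ Fk : Subring (LaurentSeries A)` : the integral elements `y ∈ A((q))` whose image in
  `L((q))` lies in `FL` and whose reduction lies in `Fk`; `toFL`, `red` the two ring maps.
* `Ow A π F₀ Fk : Subring FL` : the fractions `a / b`, `a, b` integral, `red b ≠ 0`;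
  `redw : Ow →+* Fk`, `a / b ↦ red a / red b`.
* Under `HasRep` (every nonzero `f ∈ FL` is `c · a / b` with `c ∈ Lˣ`, `red a, red b ≠ 0`), `Ow` is a
  valuation subring `OwV` of `FL` extending `A`, the kernel of `redw` is its maximal ideal, and `redw`
  is onto when `π` is and `GeneratedByReductions` holds.
* `hasRep_of_gen` : `PrincipalGeneratedByIntegralG` gives `HasRep`.
* `mapDomain_div_eq`, `compat_units`, `redDatum`, `placeMap_surjective`.
-/
import Mathlib
import Fermat.Agent.S18.CoreDefs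
import Fermat.Agent.S24.Ord
import Fermat.Agent.S48.B.Defs.Reduction

set_option autoImplicit false
set_option linter.unusedSectionVars false
set_option linter.unusedVariables false

noncomputable section

namespace Fermat.Agent.S48.B.Red.GaussG

open HahnSeries IntermediateField AlgebraicCurve ModularCurve
open Fermat.Agent.S48.B.Defs.Reduction

section General

variable {L : Type*} [Field L] [Algebra ℚ L] (A : ValuationSubring L)
variable {k : Type*} [Field k] (π : A →+* k)
variable (F₀ : IntermediateField ℚ (LaurentSeries ℚ)) (Fk : IntermediateField k (LaurentSeries k))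

/-- The ring of integral elements: Laurent series over `A` which lie in `FL` and whose reduction
lies in `Fk`. -/
def intRing : Subring (LaurentSeries A) :=
  (laurentBaseChange L (F₀)).toSubalgebra.toSubring.comap
      (coeffMap A.subtype) ⊓
    (Fk).toSubalgebra.toSubring.comap (coeffMap π)

variable {A π F₀ Fk}

theorem mem_intRing {y : LaurentSeries A} :
    y ∈ intRing A π F₀ Fk ↔
      coeffMap A.subtype y ∈ laurentBaseChange L (F₀) ∧
        coeffMap π y ∈ Fk :=
  Iff.rfl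

variable (A π F₀ Fk)

/-- The characteristic-zero realisation of an integral element. -/
def toFL : ↥(intRing A π F₀ Fk) →+* ↥(laurentBaseChange L (F₀)) where
  toFun y := ⟨coeffMap A.subtype y.1, y.2.1⟩
  map_one' := Subtype.ext (map_one _)
  map_mul' x y := Subtype.ext (map_mul _ _ _)
  map_zero' := Subtype.ext (map_zero _)
  map_add' x y := Subtype.ext (map_add _ _ _)

/-- The reduction of an integral element. -/
def red : ↥(intRing A π F₀ Fk) →+* ↥(Fk) where
  toFun y := ⟨coeffMap π y.1, y.2.2⟩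
  map_one' := Subtype.ext (map_one _)
  map_mul' x y := Subtype.ext (map_mul _ _ _)
  map_zero' := Subtype.ext (map_zero _)
  map_add' x y := Subtype.ext (map_add _ _ _)

variable {A π F₀ Fk}

@[simp]
theorem coe_toFL (y : ↥(intRing A π F₀ Fk)) :
    ((toFL A π F₀ Fk y : ↥(laurentBaseChange L (F₀))) : LaurentSeries L) =
      coeffMap A.subtype y.1 :=
  rfl

@[simp]
theorem coe_red (y : ↥(intRing A π F₀ Fk)) :
    ((red A π F₀ Fk y : ↥(Fk)) : LaurentSeries k) = coeffMap π y.1 :=
  rfl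

theorem coeffMap_subtype_injective : Function.Injective (coeffMap (A.subtype)) := by
  intro x y h
  ext n
  have := congrArg (fun z => z.coeff n) h
  simp only [coeffMap_coeff] at this
  exact this

theorem toFL_injective : Function.Injective (toFL A π F₀ Fk) := by
  intro x y h
  apply Subtype.ext
  apply coeffMap_subtype_injective
  exact congrArg Subtype.val h

theorem toFL_ne_zero_of_red_ne_zero {a : ↥(intRing A π F₀ Fk)} (h : red A π F₀ Fk a ≠ 0) :
    toFL A π F₀ Fk a ≠ 0 := by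
  intro h0
  apply h
  have : a = 0 := toFL_injective (by rw [h0, map_zero])
  rw [this, map_zero]

/-- Constants of `A` are integral. -/
theorem C_mem_intRing (c : A) : (HahnSeries.single 0 c : LaurentSeries A) ∈ intRing A π F₀ Fk := by
  rw [mem_intRing, coeffMap_single, coeffMap_single]
  constructor
  · rw [← algebraMap_laurentSeries_eq_single]
    exact (laurentBaseChange L (F₀)).algebraMap_mem _
  · rw [← algebraMap_laurentSeries_eq_single]
    exact (Fk).algebraMap_mem _

/-- The constant `c ∈ A` as an integral element. -/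
def constI (c : A) : ↥(intRing A π F₀ Fk) := ⟨HahnSeries.single 0 c, C_mem_intRing c⟩

theorem toFL_constI (c : A) :
    toFL A π F₀ Fk (constI c) =
      algebraMap L ↥(laurentBaseChange L (F₀)) (c : L) := by
  apply Subtype.ext
  rw [coe_toFL]
  show coeffMap A.subtype (HahnSeries.single 0 c) = algebraMap L (LaurentSeries L) (c : L)
  rw [coeffMap_single, algebraMap_laurentSeries_eq_single]
  rfl

theorem red_constI (c : A) :
    red A π F₀ Fk (constI c) = algebraMap k ↥(Fk) (π c) := by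
  apply Subtype.ext
  rw [coe_red]
  show coeffMap π (HahnSeries.single 0 c) = algebraMap k (LaurentSeries k) (π c)
  rw [coeffMap_single, algebraMap_laurentSeries_eq_single]

/-! ### The ring `Ow` of fractions and its reduction -/

variable (A π F₀ Fk) in
/-- `f ∈ FL` is a fraction `a / b` of integral elements with `red b ≠ 0`. -/
def InOw (f : ↥(laurentBaseChange L (F₀))) : Prop :=
  ∃ a b : ↥(intRing A π F₀ Fk), red A π F₀ Fk b ≠ 0 ∧ f * toFL A π F₀ Fk b = toFL A π F₀ Fk a

theorem inOw_toFL (a : ↥(intRing A π F₀ Fk)) : InOw A π F₀ Fk (toFL A π F₀ Fk a) :=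
  ⟨a, 1, by rw [map_one]; exact one_ne_zero, by rw [map_one, mul_one]⟩

variable (A π F₀ Fk) in
/-- The subring of `FL` of fractions `a / b`, `a, b` integral, `red b ≠ 0`. -/
def Ow : Subring ↥(laurentBaseChange L (F₀)) where
  carrier := {f | InOw A π F₀ Fk f}
  zero_mem' := ⟨0, 1, by rw [map_one]; exact one_ne_zero, by rw [map_zero, zero_mul]⟩
  one_mem' := ⟨1, 1, by rw [map_one]; exact one_ne_zero, by rw [map_one, mul_one]⟩
  add_mem' := by
    rintro f g ⟨a, b, hb, hab⟩ ⟨a', b', hb', hab'⟩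
    refine ⟨a * b' + a' * b, b * b', ?_, ?_⟩
    · rw [map_mul]; exact mul_ne_zero hb hb'
    · rw [map_mul, map_add, map_mul, map_mul, ← hab, ← hab']; ring
  mul_mem' := by
    rintro f g ⟨a, b, hb, hab⟩ ⟨a', b', hb', hab'⟩
    refine ⟨a * a', b * b', ?_, ?_⟩
    · rw [map_mul]; exact mul_ne_zero hb hb'
    · rw [map_mul, map_mul, ← hab, ← hab']; ring
  neg_mem' := by
    rintro f ⟨a, b, hb, hab⟩
    exact ⟨-a, b, hb, by rw [map_neg, ← hab]; ring⟩

theorem mem_Ow {f : ↥(laurentBaseChange L (F₀))} :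
    f ∈ Ow A π F₀ Fk ↔ InOw A π F₀ Fk f :=
  Iff.rfl

theorem toFL_mem_Ow (a : ↥(intRing A π F₀ Fk)) : toFL A π F₀ Fk a ∈ Ow A π F₀ Fk := inOw_toFL a

/-- Two presentations of the same fraction have the same reduction. -/
theorem red_div_eq {f : ↥(laurentBaseChange L (F₀))}
    {a b a' b' : ↥(intRing A π F₀ Fk)} (hb : red A π F₀ Fk b ≠ 0) (hb' : red A π F₀ Fk b' ≠ 0)
    (h : f * toFL A π F₀ Fk b = toFL A π F₀ Fk a) (h' : f * toFL A π F₀ Fk b' = toFL A π F₀ Fk a') :
    red A π F₀ Fk a / red A π F₀ Fk b = red A π F₀ Fk a' / red A π F₀ Fk b' := by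
  have hI : a * b' = a' * b := by
    apply toFL_injective
    rw [map_mul, map_mul, ← h, ← h']; ring
  rw [div_eq_div_iff hb hb', ← map_mul, ← map_mul, hI]

variable (A π F₀ Fk) in
/-- The reduction map on `Ow` as a function. -/
def redwFun (f : ↥(Ow A π F₀ Fk)) : ↥(Fk) :=
  red A π F₀ Fk f.2.choose / red A π F₀ Fk f.2.choose_spec.choose

theorem redwFun_eq (f : ↥(Ow A π F₀ Fk)) {a b : ↥(intRing A π F₀ Fk)} (hb : red A π F₀ Fk b ≠ 0)
    (h : (f : ↥(laurentBaseChange L (F₀))) * toFL A π F₀ Fk b = toFL A π F₀ Fk a) :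
    redwFun A π F₀ Fk f = red A π F₀ Fk a / red A π F₀ Fk b :=
  red_div_eq f.2.choose_spec.choose_spec.1 hb f.2.choose_spec.choose_spec.2 h

variable (A π F₀ Fk) in
/-- **The reduction homomorphism** `Ow → Fk`, `a / b ↦ red a / red b`. -/
def redw : ↥(Ow A π F₀ Fk) →+* ↥(Fk) where
  toFun := redwFun A π F₀ Fk
  map_one' := by
    rw [redwFun_eq (1 : ↥(Ow A π F₀ Fk)) (a := 1) (b := 1) (by rw [map_one]; exact one_ne_zero)
      (by rw [map_one, mul_one]; rfl), map_one, div_one]
  map_zero' := by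
    rw [redwFun_eq (0 : ↥(Ow A π F₀ Fk)) (a := 0) (b := 1) (by rw [map_one]; exact one_ne_zero)
      (by rw [map_one, mul_one, map_zero]; rfl), map_zero, zero_div]
  map_mul' := by
    intro F G
    obtain ⟨a, b, hb, hab⟩ := F.2
    obtain ⟨a', b', hb', hab'⟩ := G.2
    rw [redwFun_eq F hb hab, redwFun_eq G hb' hab',
      redwFun_eq (F * G) (a := a * a') (b := b * b')
        (by rw [map_mul]; exact mul_ne_zero hb hb')
        (by
          show (F : ↥(laurentBaseChange L (F₀))) * G *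
            toFL A π F₀ Fk (b * b') = toFL A π F₀ Fk (a * a')
          rw [map_mul, map_mul, ← hab, ← hab']; ring),
      map_mul, map_mul, div_mul_div_comm]
  map_add' := by
    intro F G
    obtain ⟨a, b, hb, hab⟩ := F.2
    obtain ⟨a', b', hb', hab'⟩ := G.2
    rw [redwFun_eq F hb hab, redwFun_eq G hb' hab',
      redwFun_eq (F + G) (a := a * b' + a' * b) (b := b * b')
        (by rw [map_mul]; exact mul_ne_zero hb hb')
        (by
          show ((F : ↥(laurentBaseChange L (F₀))) + G) *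
            toFL A π F₀ Fk (b * b') = toFL A π F₀ Fk (a * b' + a' * b)
          rw [map_mul, map_add, map_mul, map_mul, ← hab, ← hab']; ring),
      map_mul, map_add, map_mul, map_mul, div_add_div _ _ hb hb', mul_comm (red A π F₀ Fk a')]

theorem redw_eq (f : ↥(Ow A π F₀ Fk)) {a b : ↥(intRing A π F₀ Fk)} (hb : red A π F₀ Fk b ≠ 0)
    (h : (f : ↥(laurentBaseChange L (F₀))) * toFL A π F₀ Fk b = toFL A π F₀ Fk a) :
    redw A π F₀ Fk f = red A π F₀ Fk a / red A π F₀ Fk b :=
  redwFun_eq f hb h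

theorem redw_toFL (a : ↥(intRing A π F₀ Fk)) :
    redw A π F₀ Fk ⟨toFL A π F₀ Fk a, toFL_mem_Ow a⟩ = red A π F₀ Fk a := by
  rw [redw_eq ⟨toFL A π F₀ Fk a, toFL_mem_Ow a⟩ (a := a) (b := 1) (by rw [map_one]; exact one_ne_zero)
    (by rw [map_one, mul_one]), map_one, div_one]

/-- Constants of `A` lie in `Ow`. -/
theorem algebraMap_mem_Ow (c : A) :
    algebraMap L ↥(laurentBaseChange L (F₀)) (c : L) ∈ Ow A π F₀ Fk := by
  rw [← toFL_constI (π := π) (F₀ := F₀) (Fk := Fk) c]
  exact toFL_mem_Ow _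

theorem redw_algebraMap (c : A) :
    redw A π F₀ Fk ⟨algebraMap L ↥(laurentBaseChange L (F₀)) (c : L),
      algebraMap_mem_Ow c⟩ = algebraMap k ↥(Fk) (π c) := by
  have h : (⟨algebraMap L ↥(laurentBaseChange L (F₀)) (c : L),
      algebraMap_mem_Ow c⟩ : ↥(Ow A π F₀ Fk)) = ⟨toFL A π F₀ Fk (constI c), toFL_mem_Ow _⟩ :=
    Subtype.ext (toFL_constI c).symm
  rw [h, redw_toFL, red_constI]

/-- An element of `Ow` with nonzero reduction is a unit of `Ow` (its inverse lies in `Ow`). -/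
theorem inv_mem_Ow_of_redw_ne_zero (f : ↥(Ow A π F₀ Fk)) (hf : redw A π F₀ Fk f ≠ 0) :
    (f : ↥(laurentBaseChange L (F₀)))⁻¹ ∈ Ow A π F₀ Fk := by
  obtain ⟨a, b, hb, hab⟩ := f.2
  have ha : red A π F₀ Fk a ≠ 0 := by
    intro h0
    apply hf
    rw [redw_eq f hb hab, h0, zero_div]
  have hb0 := toFL_ne_zero_of_red_ne_zero hb
  have ha0 := toFL_ne_zero_of_red_ne_zero ha
  have hf0 : (f : ↥(laurentBaseChange L (F₀))) ≠ 0 := by
    intro h0
    rw [h0, zero_mul] at hab
    exact ha0 hab.symm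
  refine ⟨b, a, ha, ?_⟩
  rw [← hab]
  field_simp

/-- A fraction with nonzero reduction has a presentation `a / b` with BOTH reductions nonzero. -/
theorem exists_rep_of_redw_ne_zero (f : ↥(Ow A π F₀ Fk)) (hf : redw A π F₀ Fk f ≠ 0) :
    ∃ a b : ↥(intRing A π F₀ Fk), red A π F₀ Fk a ≠ 0 ∧ red A π F₀ Fk b ≠ 0 ∧
      (f : ↥(laurentBaseChange L (F₀))) * toFL A π F₀ Fk b = toFL A π F₀ Fk a := by
  obtain ⟨a, b, hb, hab⟩ := f.2
  refine ⟨a, b, ?_, hb, hab⟩
  intro h0
  apply hf
  rw [redw_eq f hb hab, h0, zero_div]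

/-! ### Representations `f = c · a / b` and the valuation subring -/

variable (A π F₀ Fk) in
/-- Every nonzero `f ∈ FL` is `c · a / b` with `c ∈ Lˣ`, `a, b` integral with nonzero reduction.
This is what `PrincipalGeneratedByIntegral` provides (`hasRep_of_gen`). -/
def HasRep : Prop :=
  ∀ f : ↥(laurentBaseChange L (F₀)), f ≠ 0 →
    ∃ (c : L) (a b : ↥(intRing A π F₀ Fk)), c ≠ 0 ∧ red A π F₀ Fk a ≠ 0 ∧ red A π F₀ Fk b ≠ 0 ∧
      f * toFL A π F₀ Fk b =
        algebraMap L ↥(laurentBaseChange L (F₀)) c * toFL A π F₀ Fk a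

theorem mem_or_inv_mem_Ow (hrep : HasRep A π F₀ Fk)
    (f : ↥(laurentBaseChange L (F₀))) :
    f ∈ Ow A π F₀ Fk ∨ f⁻¹ ∈ Ow A π F₀ Fk := by
  rcases eq_or_ne f 0 with rfl | hf
  · exact Or.inl (Ow A π F₀ Fk).zero_mem
  obtain ⟨c, a, b, hc, ha, hb, h⟩ := hrep f hf
  rcases A.mem_or_inv_mem c with hcA | hcA
  · left
    refine ⟨constI ⟨c, hcA⟩ * a, b, hb, ?_⟩
    rw [map_mul, toFL_constI, h]
  · right
    have ha0 := toFL_ne_zero_of_red_ne_zero ha
    have hb0 := toFL_ne_zero_of_red_ne_zero hb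
    have hc0 : algebraMap L ↥(laurentBaseChange L (F₀)) c ≠ 0 := by
      rwa [Ne, map_eq_zero]
    refine ⟨constI ⟨c⁻¹, hcA⟩ * b, a, ha, ?_⟩
    rw [map_mul, toFL_constI]
    show f⁻¹ * toFL A π F₀ Fk a =
      algebraMap L ↥(laurentBaseChange L (F₀)) c⁻¹ * toFL A π F₀ Fk b
    rw [map_inv₀]
    have h2 : toFL A π F₀ Fk a =
        (algebraMap L ↥(laurentBaseChange L (F₀)) c)⁻¹ *
          (f * toFL A π F₀ Fk b) := by
      rw [h, ← mul_assoc, inv_mul_cancel₀ hc0, one_mul]
    rw [h2]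
    field_simp

variable (A π F₀ Fk) in
/-- **The Gauss valuation ring of `FL`.** -/
def OwV (hrep : HasRep A π F₀ Fk) :
    ValuationSubring ↥(laurentBaseChange L (F₀)) :=
  { Ow A π F₀ Fk with mem_or_inv_mem' := mem_or_inv_mem_Ow hrep }

theorem mem_OwV (hrep : HasRep A π F₀ Fk) {f : ↥(laurentBaseChange L (F₀))} :
    f ∈ OwV A π F₀ Fk hrep ↔ InOw A π F₀ Fk f :=
  Iff.rfl

theorem mem_OwV_iff_mem_Ow (hrep : HasRep A π F₀ Fk)
    {f : ↥(laurentBaseChange L (F₀))} :
    f ∈ OwV A π F₀ Fk hrep ↔ f ∈ Ow A π F₀ Fk :=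
  Iff.rfl

variable (A π F₀ Fk) in
/-- The reduction homomorphism on the Gauss valuation ring. -/
def redV (hrep : HasRep A π F₀ Fk) : ↥(OwV A π F₀ Fk hrep) →+* ↥(Fk) :=
  redw A π F₀ Fk

theorem redV_eq (hrep : HasRep A π F₀ Fk) (f : ↥(OwV A π F₀ Fk hrep)) {a b : ↥(intRing A π F₀ Fk)}
    (hb : red A π F₀ Fk b ≠ 0)
    (h : (f : ↥(laurentBaseChange L (F₀))) * toFL A π F₀ Fk b = toFL A π F₀ Fk a) :
    redV A π F₀ Fk hrep f = red A π F₀ Fk a / red A π F₀ Fk b :=
  redw_eq (A := A) (π := π) (F₀ := F₀) (Fk := Fk) ⟨f.1, f.2⟩ hb h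

theorem redV_eq_zero_iff (hrep : HasRep A π F₀ Fk) (u : ↥(OwV A π F₀ Fk hrep)) :
    redV A π F₀ Fk hrep u = 0 ↔ ¬ IsUnit u := by
  constructor
  · intro h0 hu
    obtain ⟨v, hv⟩ := hu.exists_right_inv
    have := congrArg (redV A π F₀ Fk hrep) hv
    rw [map_mul, h0, zero_mul, map_one] at this
    exact zero_ne_one this
  · intro hu
    by_contra h0
    apply hu
    have hinv := inv_mem_Ow_of_redw_ne_zero (A := A) (π := π) (F₀ := F₀) (Fk := Fk) ⟨u.1, u.2⟩ h0
    have hu0 : (u : ↥(laurentBaseChange L (F₀))) ≠ 0 := by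
      intro h
      apply h0
      have : u = 0 := Subtype.ext h
      rw [this, map_zero]
    refine IsUnit.of_mul_eq_one (⟨(u : ↥(laurentBaseChange L (F₀)))⁻¹,
      hinv⟩ : ↥(OwV A π F₀ Fk hrep)) ?_
    apply Subtype.ext
    show (u : ↥(laurentBaseChange L (F₀))) *
      (u : ↥(laurentBaseChange L (F₀)))⁻¹ = 1
    exact mul_inv_cancel₀ hu0

theorem algebraMap_mem_OwV (hrep : HasRep A π F₀ Fk) (c : A) :
    algebraMap L ↥(laurentBaseChange L (F₀)) (c : L) ∈ OwV A π F₀ Fk hrep :=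
  algebraMap_mem_Ow c

theorem redV_algebraMap (hrep : HasRep A π F₀ Fk) (c : A) :
    redV A π F₀ Fk hrep ⟨algebraMap L ↥(laurentBaseChange L (F₀)) (c : L),
      algebraMap_mem_OwV hrep c⟩ = algebraMap k ↥(Fk) (π c) :=
  redw_algebraMap c

/-- `Ow ∩ L = A`, provided `π` kills the maximal ideal of `A`. -/
theorem mem_of_algebraMap_mem_Ow (hπ : ∀ a : A, ¬ IsUnit a → π a = 0) (c : L)
    (h : algebraMap L ↥(laurentBaseChange L (F₀)) c ∈ Ow A π F₀ Fk) :
    c ∈ A := by
  by_contra hc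
  have hc0 : c ≠ 0 := fun h0 => hc (h0 ▸ A.zero_mem)
  have hci : c⁻¹ ∈ A := (A.mem_or_inv_mem c).resolve_left hc
  have hnu : ¬ IsUnit (⟨c⁻¹, hci⟩ : A) := by
    intro hu
    obtain ⟨v, hv⟩ := hu.exists_right_inv
    have hv' : c⁻¹ * (v : L) = 1 := congrArg Subtype.val hv
    apply hc
    have : (v : L) = c := by
      field_simp at hv'
      exact hv'
    rw [← this]
    exact v.2
  obtain ⟨a, b, hb, hab⟩ := h
  apply hb
  have hbI : b = constI ⟨c⁻¹, hci⟩ * a := by
    apply toFL_injective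
    rw [map_mul, toFL_constI, ← hab]
    show toFL A π F₀ Fk b =
      algebraMap L ↥(laurentBaseChange L (F₀)) c⁻¹ *
        (algebraMap L ↥(laurentBaseChange L (F₀)) c * toFL A π F₀ Fk b)
    rw [← mul_assoc, ← map_mul, inv_mul_cancel₀ hc0, map_one, one_mul]
  rw [hbI, map_mul, red_constI, hπ _ hnu, map_zero, zero_mul]

/-- Every nonzero function is a constant times a Gauss unit. -/
theorem exists_const_mul_unit (hrep : HasRep A π F₀ Fk)
    (f : ↥(laurentBaseChange L (F₀))) (hf : f ≠ 0) :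
    ∃ c : L, c ≠ 0 ∧ ∃ u : (↥(OwV A π F₀ Fk hrep))ˣ,
      f = algebraMap L ↥(laurentBaseChange L (F₀)) c *
        ((u : ↥(OwV A π F₀ Fk hrep)) : ↥(laurentBaseChange L (F₀))) := by
  obtain ⟨c, a, b, hc, ha, hb, h⟩ := hrep f hf
  have ha0 := toFL_ne_zero_of_red_ne_zero ha
  have hb0 := toFL_ne_zero_of_red_ne_zero hb
  refine ⟨c, hc, ?_⟩
  have h1 : toFL A π F₀ Fk a / toFL A π F₀ Fk b ∈ OwV A π F₀ Fk hrep :=
    ⟨a, b, hb, by field_simp⟩
  have h2 : toFL A π F₀ Fk b / toFL A π F₀ Fk a ∈ OwV A π F₀ Fk hrep :=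
    ⟨b, a, ha, by field_simp⟩
  refine ⟨⟨⟨_, h1⟩, ⟨_, h2⟩, ?_, ?_⟩, ?_⟩
  · apply Subtype.ext
    show toFL A π F₀ Fk a / toFL A π F₀ Fk b * (toFL A π F₀ Fk b / toFL A π F₀ Fk a) = 1
    field_simp
  · apply Subtype.ext
    show toFL A π F₀ Fk b / toFL A π F₀ Fk a * (toFL A π F₀ Fk a / toFL A π F₀ Fk b) = 1
    field_simp
  · show f = algebraMap L ↥(laurentBaseChange L (F₀)) c *
      (toFL A π F₀ Fk a / toFL A π F₀ Fk b)
    rw [mul_div_assoc', ← h]
    field_simp

/-! ### Representations from `PrincipalGeneratedByIntegral` -/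

/-- `PrincipalGeneratedByIntegral` gives the representation `f = c · a / b` of every nonzero
function, as soon as functions without zeros and poles are constant. -/
theorem hasRep_of_gen [HasPrincipalDivisors L ↥(laurentBaseChange L (F₀))]
    (hconst : ∀ g : ↥(laurentBaseChange L (F₀)), g ≠ 0 →
      (∀ P : Place L ↥(laurentBaseChange L (F₀)), P.ord g = 0) →
        ∃ c : L, g = algebraMap L ↥(laurentBaseChange L (F₀)) c)
    (hgen : PrincipalGeneratedByIntegralG A π F₀ Fk) : HasRep A π F₀ Fk := by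
  intro f hf
  obtain ⟨D, hD, -⟩ := HasPrincipalDivisors.exists_divisor (K := L) f hf
  have hDp : D ∈ Divisor.principal (K := L)
      (F := ↥(laurentBaseChange L (F₀))) := ⟨f, hf, hD⟩
  have key : ∀ E ∈ AddSubgroup.closure (integralPrincipalDivisorsG A π F₀ Fk),
      ∃ a b : ↥(intRing A π F₀ Fk), red A π F₀ Fk a ≠ 0 ∧ red A π F₀ Fk b ≠ 0 ∧
        ∀ P : Place L ↥(laurentBaseChange L (F₀)),
          E P = P.ord (toFL A π F₀ Fk a) - P.ord (toFL A π F₀ Fk b) := by
    intro E hE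
    induction hE using AddSubgroup.closure_induction with
    | mem E hE =>
      obtain ⟨y, hy, hyk, hne, hEy⟩ := hE
      refine ⟨⟨y, hy, hyk⟩, 1, ?_, ?_, fun P => ?_⟩
      · intro h0
        exact hne (congrArg Subtype.val h0)
      · rw [map_one]; exact one_ne_zero
      · rw [map_one, Place.ord_one, sub_zero, hEy P]
        rfl
    | zero =>
      refine ⟨1, 1, ?_, ?_, fun P => ?_⟩
      · rw [map_one]; exact one_ne_zero
      · rw [map_one]; exact one_ne_zero
      · rw [map_one, Place.ord_one, sub_zero]; rfl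
    | add E E' _ _ hE hE' =>
      obtain ⟨a, b, ha, hb, hab⟩ := hE
      obtain ⟨a', b', ha', hb', hab'⟩ := hE'
      refine ⟨a * a', b * b', ?_, ?_, fun P => ?_⟩
      · rw [map_mul]; exact mul_ne_zero ha ha'
      · rw [map_mul]; exact mul_ne_zero hb hb'
      · rw [Finsupp.add_apply, hab P, hab' P, map_mul, map_mul,
          P.ord_mul (toFL_ne_zero_of_red_ne_zero ha) (toFL_ne_zero_of_red_ne_zero ha'),
          P.ord_mul (toFL_ne_zero_of_red_ne_zero hb) (toFL_ne_zero_of_red_ne_zero hb')]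
        ring
    | neg E _ hE =>
      obtain ⟨a, b, ha, hb, hab⟩ := hE
      refine ⟨b, a, hb, ha, fun P => ?_⟩
      rw [Finsupp.neg_apply, hab P]
      ring
  obtain ⟨a, b, ha, hb, hab⟩ := key D (hgen hDp)
  have ha0 := toFL_ne_zero_of_red_ne_zero ha
  have hb0 := toFL_ne_zero_of_red_ne_zero hb
  have hg0 : f * toFL A π F₀ Fk b * (toFL A π F₀ Fk a)⁻¹ ≠ 0 :=
    mul_ne_zero (mul_ne_zero hf hb0) (inv_ne_zero ha0)
  obtain ⟨c, hc⟩ := hconst (f * toFL A π F₀ Fk b * (toFL A π F₀ Fk a)⁻¹) hg0 (fun P => by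
    rw [P.ord_mul (mul_ne_zero hf hb0) (inv_ne_zero ha0), P.ord_mul hf hb0, P.ord_inv, ← hD P,
      hab P]
    ring)
  refine ⟨c, a, b, ?_, ha, hb, ?_⟩
  · rintro rfl
    rw [map_zero] at hc
    exact hg0 hc
  · rw [← hc]
    field_simp

/-! ### Compatibility of the place map with divisors of Gauss units -/

/-- **`r_* div f = div (red f)`** for every `f ∈ Ow` with nonzero reduction. -/
theorem mapDomain_div_eq [HasPrincipalDivisors L ↥(laurentBaseChange L (F₀))]
    {r : Place L ↥(laurentBaseChange L (F₀)) →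
      Place k ↥(Fk)}
    (hr : IsPlaceReductionAlongG A π F₀ Fk r) (f : ↥(Ow A π F₀ Fk)) (hf : redw A π F₀ Fk f ≠ 0)
    (D : Divisor L ↥(laurentBaseChange L (F₀)))
    (hD : ∀ P : Place L ↥(laurentBaseChange L (F₀)),
      D P = P.ord (f : ↥(laurentBaseChange L (F₀))))
    (Q : Place k ↥(Fk)) :
    Finsupp.mapDomain r D Q = Q.ord (redw A π F₀ Fk f) := by
  obtain ⟨a, b, ha, hb, hab⟩ := exists_rep_of_redw_ne_zero f hf
  have ha0 := toFL_ne_zero_of_red_ne_zero ha
  have hb0 := toFL_ne_zero_of_red_ne_zero hb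
  have hf0 : (f : ↥(laurentBaseChange L (F₀))) ≠ 0 := by
    intro h0
    rw [h0, zero_mul] at hab
    exact ha0 hab.symm
  obtain ⟨Da, hDa, -⟩ := HasPrincipalDivisors.exists_divisor (K := L) _ ha0
  obtain ⟨Db, hDb, -⟩ := HasPrincipalDivisors.exists_divisor (K := L) _ hb0
  have hDab : D = Da - Db := by
    ext P
    rw [Finsupp.sub_apply, hD P, hDa P, hDb P, ← hab, P.ord_mul hf0 hb0]
    ring
  have h1 : Finsupp.mapDomain r Da Q = Q.ord (red A π F₀ Fk a) :=
    hr.2 a.1 a.2.1 a.2.2 (fun h0 => ha (Subtype.ext h0)) Da hDa Q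
  have h2 : Finsupp.mapDomain r Db Q = Q.ord (red A π F₀ Fk b) :=
    hr.2 b.1 b.2.1 b.2.2 (fun h0 => hb (Subtype.ext h0)) Db hDb Q
  have h3 : red A π F₀ Fk a = redw A π F₀ Fk f * red A π F₀ Fk b := by
    rw [redw_eq f hb hab]
    field_simp
  rw [hDab, Finsupp.mapDomain_sub, Finsupp.sub_apply, h1, h2, h3, Q.ord_mul hf hb]
  ring

/-! ### Surjectivity of the reduction -/

variable (A π F₀ Fk) in
/-- the reductions of the integral elements -/
def intReductions : Set (LaurentSeries k) :=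
  {x | ∃ a : ↥(intRing A π F₀ Fk), coeffMap π a.1 = x}

variable (A π F₀ Fk) in
/-- `Fk` is generated over `k` by the reductions of the integral elements (true for the pairs
`(modularFunctionFieldFull N, modularFunctionFieldFullC k N)` and `(F1 M, F1C M k)`: the generators
of `Fk` are reductions of `ℤ`-integral elements of `F₀`). -/
def GeneratedByReductions : Prop :=
  Fk ≤ IntermediateField.adjoin k (intReductions A π F₀ Fk)

/-- Every element of `Fk` is a quotient of reductions of integral elements (`π` onto). -/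
theorem exists_red_div (hπs : Function.Surjective π) (hgen : GeneratedByReductions A π F₀ Fk)
    {x : LaurentSeries k} (hx : x ∈ Fk) :
    ∃ a b : ↥(intRing A π F₀ Fk), red A π F₀ Fk b ≠ 0 ∧ x * coeffMap π b.1 = coeffMap π a.1 := by
  have hone : red A π F₀ Fk (1 : ↥(intRing A π F₀ Fk)) ≠ 0 := by rw [map_one]; exact one_ne_zero
  have hcoe1 : coeffMap π (1 : ↥(intRing A π F₀ Fk)).1 = 1 := map_one _
  have hx' := hgen hx
  clear hx
  induction hx' using IntermediateField.adjoin_induction with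
  | mem x hx =>
    obtain ⟨a, rfl⟩ := hx
    exact ⟨a, 1, hone, by rw [hcoe1, mul_one]⟩
  | algebraMap c =>
    obtain ⟨c', rfl⟩ := hπs c
    refine ⟨constI c', 1, hone, ?_⟩
    rw [hcoe1, mul_one]
    show _ = coeffMap π (HahnSeries.single 0 c')
    rw [coeffMap_single, algebraMap_laurentSeries_eq_single]
  | add x y _ _ hx hy =>
    obtain ⟨a, b, hb, hab⟩ := hx
    obtain ⟨a', b', hb', hab'⟩ := hy
    refine ⟨a * b' + a' * b, b * b', ?_, ?_⟩
    · rw [map_mul]; exact mul_ne_zero hb hb'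
    · show (x + y) * coeffMap π (b.1 * b'.1) = coeffMap π (a.1 * b'.1 + a'.1 * b.1)
      rw [map_mul, map_add, map_mul, map_mul, ← hab, ← hab']; ring
  | inv x _ hx =>
    obtain ⟨a, b, hb, hab⟩ := hx
    rcases eq_or_ne x 0 with rfl | hx0
    · exact ⟨0, 1, hone, by rw [inv_zero, zero_mul]; exact (map_zero _).symm⟩
    · have hb' : coeffMap π b.1 ≠ 0 := fun h0 => hb (Subtype.ext h0)
      have ha : red A π F₀ Fk a ≠ 0 := by
        intro h0
        have h0' : coeffMap π a.1 = 0 := congrArg Subtype.val h0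
        rw [h0'] at hab
        exact (mul_ne_zero hx0 hb') hab
      refine ⟨b, a, ha, ?_⟩
      rw [← hab, ← mul_assoc, inv_mul_cancel₀ hx0, one_mul]
  | mul x y _ _ hx hy =>
    obtain ⟨a, b, hb, hab⟩ := hx
    obtain ⟨a', b', hb', hab'⟩ := hy
    refine ⟨a * a', b * b', ?_, ?_⟩
    · rw [map_mul]; exact mul_ne_zero hb hb'
    · show (x * y) * coeffMap π (b.1 * b'.1) = coeffMap π (a.1 * a'.1)
      rw [map_mul, map_mul, ← hab, ← hab']; ring

/-- **The reduction `Ow → Fk` is onto** (when `π` is): the residue field of the Gauss valuation is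
exactly `Fk`. -/
theorem redw_surjective (hπs : Function.Surjective π) (hgen : GeneratedByReductions A π F₀ Fk) :
    Function.Surjective (redw A π F₀ Fk) := by
  intro g
  obtain ⟨a, b, hb, hab⟩ := exists_red_div (A := A) (F₀ := F₀) (Fk := Fk) hπs hgen g.2
  have hb0 := toFL_ne_zero_of_red_ne_zero hb
  have hmem : toFL A π F₀ Fk a / toFL A π F₀ Fk b ∈ Ow A π F₀ Fk := ⟨a, b, hb, by field_simp⟩
  refine ⟨⟨_, hmem⟩, ?_⟩
  rw [redw_eq ⟨_, hmem⟩ hb (by field_simp), div_eq_iff hb]
  exact Subtype.ext hab.symm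

/-! ### The reduction datum of block D, and surjectivity of the place map -/

theorem redV_surjective (hrep : HasRep A π F₀ Fk) (hπs : Function.Surjective π)
    (hgen : GeneratedByReductions A π F₀ Fk) :
    Function.Surjective (redV A π F₀ Fk hrep) :=
  redw_surjective hπs hgen

/-- **`r_* div u = div (red u)`** for Gauss units. -/
theorem compat_units [HasPrincipalDivisors L ↥(laurentBaseChange L (F₀))]
    {r : Place L ↥(laurentBaseChange L (F₀)) →
      Place k ↥(Fk)}
    (hr : IsPlaceReductionAlongG A π F₀ Fk r) (hrep : HasRep A π F₀ Fk) (u : (↥(OwV A π F₀ Fk hrep))ˣ)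
    (D : Divisor L ↥(laurentBaseChange L (F₀)))
    (hD : ∀ P : Place L ↥(laurentBaseChange L (F₀)),
      D P = P.ord (((u : ↥(OwV A π F₀ Fk hrep)) :
        ↥(laurentBaseChange L (F₀)))))
    (Q : Place k ↥(Fk)) :
    Finsupp.mapDomain r D Q = Q.ord (redV A π F₀ Fk hrep (u : ↥(OwV A π F₀ Fk hrep))) := by
  have hne : redV A π F₀ Fk hrep (u : ↥(OwV A π F₀ Fk hrep)) ≠ 0 := by
    intro h0
    exact (redV_eq_zero_iff hrep _).mp h0 u.isUnit
  exact mapDomain_div_eq hr ⟨(u : ↥(OwV A π F₀ Fk hrep)).1, (u : ↥(OwV A π F₀ Fk hrep)).2⟩ hne D hD Q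

variable (A π F₀ Fk) in
/-- **Block B deliverable**: the abstract reduction datum consumed by block D. -/
def redDatum [HasPrincipalDivisors L ↥(laurentBaseChange L (F₀))]
    {r : Place L ↥(laurentBaseChange L (F₀)) →
      Place k ↥(Fk)}
    (hr : IsPlaceReductionAlongG A π F₀ Fk r) (hrep : HasRep A π F₀ Fk)
    (hπ : ∀ a : A, ¬ IsUnit a → π a = 0) :
    Fermat.Agent.S18.CoreDefs.RedDatum (FL := ↥(laurentBaseChange L (F₀)))
      (Fk := ↥(Fk)) A π r where
  O := OwV A π F₀ Fk hrep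
  red := redV A π F₀ Fk hrep
  algebraMap_mem := algebraMap_mem_OwV hrep
  red_algebraMap := redV_algebraMap hrep
  red_eq_zero_iff := redV_eq_zero_iff hrep
  exists_const_mul_unit := exists_const_mul_unit hrep
  mem_of_algebraMap_mem := fun c hc => mem_of_algebraMap_mem_Ow hπ c hc
  compat := compat_units hr hrep

/-- **The place map is onto.** -/
theorem placeMap_surjective
    [HasPrincipalDivisors L ↥(laurentBaseChange L (F₀))]
    {r : Place L ↥(laurentBaseChange L (F₀)) →
      Place k ↥(Fk)}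
    (hr : IsPlaceReductionAlongG A π F₀ Fk r) (hπs : Function.Surjective π)
    (hgen : GeneratedByReductions A π F₀ Fk) :
    Function.Surjective r := by
  classical
  intro Q
  -- a function with a pole at `Q`
  obtain ⟨x, hx⟩ : ∃ x : ↥(Fk), x ∉ Q.toValuationSubring := by
    by_contra hall
    push Not at hall
    exact Q.ne_top' (SetLike.ext fun x => ⟨fun _ => ValuationSubring.mem_top x, fun _ => hall x⟩)
  have hx0 : x ≠ 0 := fun h0 => hx (h0 ▸ Q.toValuationSubring.zero_mem)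
  have hordx : Q.ord x < 0 := by
    rw [Fermat.Agent.S24.Ord.ord_neg_iff Q hx0, ← not_le, ← Fermat.Agent.S24.Ord.mem_iff]
    exact hx
  obtain ⟨f, rfl⟩ := redw_surjective (A := A) (F₀ := F₀) (Fk := Fk) hπs hgen x
  have hf0 : (f : ↥(laurentBaseChange L (F₀))) ≠ 0 := by
    intro h0
    apply hx0
    have : f = 0 := Subtype.ext h0
    rw [this, map_zero]
  obtain ⟨D, hD, -⟩ := HasPrincipalDivisors.exists_divisor (K := L) _ hf0
  have h := mapDomain_div_eq hr f hx0 D hD Q
  have hQ : Q ∈ (Finsupp.mapDomain r D).support := by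
    rw [Finsupp.mem_support_iff, h]
    exact hordx.ne
  obtain ⟨P, -, hP⟩ := Finset.mem_image.mp (Finsupp.mapDomain_support hQ)
  exact ⟨P, hP⟩

theorem toFL_mem_OwV (hrep : HasRep A π F₀ Fk) (a : ↥(intRing A π F₀ Fk)) :
    toFL A π F₀ Fk a ∈ OwV A π F₀ Fk hrep :=
  inOw_toFL a

theorem redV_toFL (hrep : HasRep A π F₀ Fk) (a : ↥(intRing A π F₀ Fk)) :
    redV A π F₀ Fk hrep ⟨toFL A π F₀ Fk a, toFL_mem_OwV hrep a⟩ = red A π F₀ Fk a :=
  redw_toFL a

end General

end Fermat.Agent.S48.B.Red.GaussG
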