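/-
PROJECT D (S48), part B, block B3, brick G1 (helper11): `ReductionInputsAlongG` FROM DEURING'S THEOREM,
GENERIC IN THE PAIR OF FIELDS.

Twin of main's `S37/ReductionInputs` (section `General`) with the pair
`(modularFunctionFieldFull N, modularFunctionFieldFullC k N)` replaced by variables `(F₀, Fk)`, on top
of `Red/GaussG` and of main's generic engine `S37/Deuring/{Core, FundIneq}` (imported untouched).

* `datumOfRep hrep hπs hπ : GaussDatum A π FL Fk`, `datumOfRep_red_surjective` (needs
  `GeneratedByReductions`);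
* `principalGeneratedByIntegralG_of_hasRep hrep : PrincipalGeneratedByIntegralG A π F₀ Fk`;
* `isPlaceReductionAlongG_of_hyp hrep G hO hred H : IsPlaceReductionAlongG A π F₀ Fk (placeMap H)`;
* `reductionInputsAlongG_of_hyp`, `reductionInputsAlongG_of_datum`, `reductionInputsAlongG_of_ob`
  (the last one discharges (FI) through `Deuring.FundIneq.fi`: only `HasRep`, Riemann's theorem on
  both sides, `gL ≤ gk` and (OB) remain).
-/
import Mathlib
import Fermat.Agent.S37.Deuring.Core
import Fermat.Agent.S37.Deuring.FundIneq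
import Fermat.Agent.S48.B.Red.GaussG

set_option autoImplicit false
set_option linter.unusedSectionVars false
set_option linter.style.haveILetI false

noncomputable section

namespace Fermat.Agent.S48.B.Red.DatumG

open HahnSeries IntermediateField AlgebraicCurve ModularCurve
open Fermat.Agent.S48.B.Red.GaussG Fermat.Agent.S18.NonSpecial Fermat.Agent.S37.Deuring.Core
open Fermat.Agent.S48.B.Defs.Reduction

section General

variable {L : Type*} [Field L] [Algebra ℚ L] {A : ValuationSubring L}
variable {k : Type*} [Field k] {π : A →+* k}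
variable {F₀ : IntermediateField ℚ (LaurentSeries ℚ)} {Fk : IntermediateField k (LaurentSeries k)}

/-! ### The canonical Gauss datum of a representation hypothesis -/

/-- The Gauss datum attached to `hrep : HasRep A π F₀ Fk`: valuation ring `OwV`, reduction `redV`. -/
def datumOfRep (hrep : HasRep A π F₀ Fk) (hπs : Function.Surjective π)
    (hπ : ∀ a : A, ¬ IsUnit a → π a = 0) :
    GaussDatum A π ↥(laurentBaseChange L (F₀))
      ↥(Fk) where
  O := OwV A π F₀ Fk hrep
  red := redV A π F₀ Fk hrep
  pi_surjective := hπs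
  algebraMap_mem := algebraMap_mem_OwV hrep
  red_algebraMap := redV_algebraMap hrep
  red_eq_zero_iff := redV_eq_zero_iff hrep
  exists_const_mul_unit := exists_const_mul_unit hrep
  mem_of_algebraMap_mem := fun c hc => mem_of_algebraMap_mem_Ow hπ c hc

@[simp] theorem datumOfRep_O (hrep : HasRep A π F₀ Fk) (hπs : Function.Surjective π)
    (hπ : ∀ a : A, ¬ IsUnit a → π a = 0) :
    (datumOfRep hrep hπs hπ).O = OwV A π F₀ Fk hrep := rfl

@[simp] theorem datumOfRep_red (hrep : HasRep A π F₀ Fk) (hπs : Function.Surjective π)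
    (hπ : ∀ a : A, ¬ IsUnit a → π a = 0) :
    (datumOfRep hrep hπs hπ).red = redV A π F₀ Fk hrep := rfl

theorem datumOfRep_red_surjective (hrep : HasRep A π F₀ Fk) (hπs : Function.Surjective π)
    (hπ : ∀ a : A, ¬ IsUnit a → π a = 0) (hgen : GeneratedByReductions A π F₀ Fk) :
    Function.Surjective (datumOfRep hrep hπs hπ).red :=
  redV_surjective hrep hπs hgen

/-! ### Principal divisors are generated by integral ones -/

/-- the divisor of an integral element with nonzero reduction is an integral principal divisor -/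
theorem mem_integralPrincipalDivisorsG {a : ↥(intRing A π F₀ Fk)} (ha : red A π F₀ Fk a ≠ 0)
    {D : Divisor L ↥(laurentBaseChange L (F₀))}
    (hD : ∀ P : Place L ↥(laurentBaseChange L (F₀)),
      D P = P.ord (toFL A π F₀ Fk a)) :
    D ∈ integralPrincipalDivisorsG A π F₀ Fk :=
  ⟨a.1, a.2.1, a.2.2, fun h0 => ha (Subtype.ext h0), hD⟩

/-- **`PrincipalGeneratedByIntegral` from `HasRep`** (the converse of `hasRep_of_gen`). -/
theorem principalGeneratedByIntegralG_of_hasRep
    [HasPrincipalDivisors L ↥(laurentBaseChange L (F₀))]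
    (hrep : HasRep A π F₀ Fk) : PrincipalGeneratedByIntegralG A π F₀ Fk := by
  rintro D ⟨f, hf, hD⟩
  obtain ⟨c, a, b, hc, ha, hb, h⟩ := hrep f hf
  have ha0 := toFL_ne_zero_of_red_ne_zero ha
  have hb0 := toFL_ne_zero_of_red_ne_zero hb
  have hc0 : algebraMap L ↥(laurentBaseChange L (F₀)) c ≠ 0 := by
    rwa [Ne, map_eq_zero]
  obtain ⟨Da, hDa, -⟩ := HasPrincipalDivisors.exists_divisor (K := L) _ ha0
  obtain ⟨Db, hDb, -⟩ := HasPrincipalDivisors.exists_divisor (K := L) _ hb0
  have hDab : D = Da - Db := by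
    ext P
    have h1 := congrArg P.ord h
    rw [P.ord_mul hf hb0, P.ord_mul hc0 ha0, Fermat.Agent.S24.Ord.ord_algebraMap, zero_add] at h1
    rw [Finsupp.sub_apply, hD P, hDa P, hDb P]
    linarith
  rw [hDab]
  exact AddSubgroup.sub_mem _
    (AddSubgroup.subset_closure (mem_integralPrincipalDivisorsG ha hDa))
    (AddSubgroup.subset_closure (mem_integralPrincipalDivisorsG hb hDb))

/-! ### The place map of Deuring's theorem is a place reduction -/

section Deuring

variable {gL gk : ℕ}
variable [HasPrincipalDivisors L ↥(laurentBaseChange L (F₀))]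
variable [HasPrincipalDivisors k ↥(Fk)] [Infinite k]

/-- **The place map of Deuring's theorem satisfies `IsPlaceReductionAlong`**, for any Gauss datum
whose valuation ring and reduction map are those of `hrep`. -/
theorem isPlaceReductionAlongG_of_hyp (hrep : HasRep A π F₀ Fk)
    (G : GaussDatum A π ↥(laurentBaseChange L (F₀))
      ↥(Fk))
    (hO : ∀ f : ↥(laurentBaseChange L (F₀)),
      f ∈ G.O ↔ f ∈ OwV A π F₀ Fk hrep)
    (hred : ∀ (f : ↥(laurentBaseChange L (F₀))) (h₁ : f ∈ G.O)
      (h₂ : f ∈ OwV A π F₀ Fk hrep), G.red ⟨f, h₁⟩ = redV A π F₀ Fk hrep ⟨f, h₂⟩)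
    (H : Hyp G gL gk) : IsPlaceReductionAlongG A π F₀ Fk (placeMap H) := by
  refine ⟨deg_placeMap H, ?_⟩
  intro y hy hyk hne D hD Q
  set a : ↥(intRing A π F₀ Fk) := ⟨y, hy, hyk⟩ with ha
  have haV : toFL A π F₀ Fk a ∈ OwV A π F₀ Fk hrep := toFL_mem_OwV hrep a
  have haO : toFL A π F₀ Fk a ∈ G.O := (hO _).mpr haV
  have hredu : G.red ⟨toFL A π F₀ Fk a, haO⟩ = red A π F₀ Fk a := by
    rw [hred _ haO haV, redV_toFL]
  have hne' : red A π F₀ Fk a ≠ 0 := fun h0 => hne (congrArg Subtype.val h0)
  have hunit : IsUnit (⟨toFL A π F₀ Fk a, haO⟩ : G.O) := by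
    by_contra hnu
    exact hne' (hredu ▸ (G.red_eq_zero_iff _).mpr hnu)
  obtain ⟨u, hu⟩ := hunit
  have h1 := mapDomain_placeMap_div H u D (fun P => by rw [hD P, hu]; rfl) Q
  rw [h1, hu, hredu]
  rfl

/-- **I-1Z, extensional form**: `ReductionInputsAlong` from `HasRep` and the hypotheses of
Deuring's theorem for any Gauss datum with the valuation ring and the reduction map of `hrep`. -/
theorem reductionInputsAlongG_of_hyp (hrep : HasRep A π F₀ Fk)
    (G : GaussDatum A π ↥(laurentBaseChange L (F₀))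
      ↥(Fk))
    (hO : ∀ f : ↥(laurentBaseChange L (F₀)),
      f ∈ G.O ↔ f ∈ OwV A π F₀ Fk hrep)
    (hred : ∀ (f : ↥(laurentBaseChange L (F₀))) (h₁ : f ∈ G.O)
      (h₂ : f ∈ OwV A π F₀ Fk hrep), G.red ⟨f, h₁⟩ = redV A π F₀ Fk hrep ⟨f, h₂⟩)
    (H : Hyp G gL gk) : ReductionInputsAlongG A π F₀ Fk :=
  ⟨placeMap H, isPlaceReductionAlongG_of_hyp hrep G hO hred H,
    principalGeneratedByIntegralG_of_hasRep hrep⟩

/-- **I-1Z for the canonical datum.** -/
theorem reductionInputsAlongG_of_datum (hrep : HasRep A π F₀ Fk) (hπs : Function.Surjective π)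
    (hπ : ∀ a : A, ¬ IsUnit a → π a = 0) (H : Hyp (datumOfRep hrep hπs hπ) gL gk) :
    ReductionInputsAlongG A π F₀ Fk :=
  reductionInputsAlongG_of_hyp hrep (datumOfRep hrep hπs hπ) (fun _ => Iff.rfl)
    (fun _ _ _ => rfl) H

/-- **I-1Z with (FI) discharged**: over an algebraically closed base of characteristic zero, the
fundamental inequality follows from the surjectivity of the reduction map
(`Deuring.FundIneq.fi`), so only Riemann's theorem on both sides, `gL ≤ gk` and (OB) remain. -/
theorem reductionInputsAlongG_of_ob [IsAlgClosed L] [CharZero L] (hrep : HasRep A π F₀ Fk)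
    (hπs : Function.Surjective π) (hπ : ∀ a : A, ¬ IsUnit a → π a = 0)
    (hgen : GeneratedByReductions A π F₀ Fk)
    {x0 : ↥(laurentBaseChange L (F₀))}
    (hx0 : Fermat.Agent.S24.FF.IsFF L x0)
    (HL : RiemannHyp L ↥(laurentBaseChange L (F₀)) gL)
    (HK : RiemannHyp k ↥(Fk) gk) (hg : gL ≤ gk)
    (hob : (datumOfRep hrep hπs hπ).OB) : ReductionInputsAlongG A π F₀ Fk :=
  reductionInputsAlongG_of_datum hrep hπs hπ
    ⟨HL, HK, hg, hob,
      Fermat.Agent.S37.Deuring.FundIneq.fi (datumOfRep hrep hπs hπ) hx0 HK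
        (datumOfRep_red_surjective hrep hπs hπ hgen)⟩

end Deuring

end General

end Fermat.Agent.S48.B.Red.DatumG

end
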