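/-
PROJECT D (S48), part B, block B3 (helper11): THE GAUSS STRUCTURE OF `X₁(M)`, the part which needs NO
input from [B-igusa].

`L` a field over `ℚ`, `A : ValuationSubring L`, `π : A →+* k`; the pair of fields is
`(F1 M, F1C M k)`; language of `Red/GaussG`.

* `intLift A π M y hy` : a `ℤ`-integral element `y` of `F1 M` as an element of
  `intRing A π (F1 M) (F1C M k)`; `coe_toFL_intLift`, `coe_red_intLift`;
* `generatedByReductions₁` : `GeneratedByReductions A π (F1 M) (F1C M k)` (so `redw`, `redV`
  are onto when `π` is);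
* `jI₁ A π M`, `toFL_jI₁ : toFL (jI₁ ..) = jgen1 M` (for `L = ℚ̄`), `red_jI₁ : red (jI₁ ..) = jC M k`;
* section `FromInputs` (generic twin of the `ModL` section of main's `S18/GaussFromHBar`, asked for by
  block B4): from `h : ReductionInputsAlongG A π F₀ Fk` and `IsFF L x`: `hasRep_of_inputs`,
  `redDatumG`, `redV_surjective_of_inputs`, `placeReduction_surjective`;
* section `X1` : `hasRep₁ h`, `redDatum₁ h`, `jgen1_mem_O`, `red_jgen1` for
  `h : ReductionInputs1 A M` (twins of `GaussFromHBar.{hasRepModL, redDatumModL, jgen_mem_O, red_jgen}`).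
-/
import Mathlib
import Fermat.Agent.S18.GaussFromHBar
import Fermat.Agent.S48.B.Red.GaussG
import Fermat.Agent.S48.B.Red.Seams

set_option autoImplicit false
set_option linter.unusedSectionVars false

noncomputable section

namespace Fermat.Agent.S48.B.Red.Gauss1

open HahnSeries IntermediateField AlgebraicCurve ModularCurve
open Fermat.Agent.S48.B.Defs.Model Fermat.Agent.S48.B.Defs.Reduction
open Fermat.Agent.S48.B.Red.GaussG Fermat.Agent.S48.B.Red.Seams
open Fermat.Agent.S48.B.B1.Seams (jgen1)

/-! ### Integral lifts of the `ℤ`-integral elements -/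

section Lift

variable {L : Type*} [Field L] [Algebra ℚ L] (A : ValuationSubring L)
variable {k : Type*} [Field k] (π : A →+* k) (M : ℕ) [NeZero M]

theorem coeffMap_subtype_intCast (y : LaurentSeries ℤ) :
    coeffMap A.subtype (coeffMap (Int.castRingHom A) y) =
      coeffEmb L (coeffMap (Int.castRingHom ℚ) y) := by
  rw [coeffEmb, coeffMap_coeffMap, coeffMap_coeffMap]
  exact coeffMap_congr (RingHom.ext_int _ _) y

theorem coeffMap_pi_intCast (y : LaurentSeries ℤ) :
    coeffMap π (coeffMap (Int.castRingHom A) y) = coeffMap (Int.castRingHom k) y := by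
  rw [coeffMap_coeffMap]
  exact coeffMap_congr (RingHom.ext_int _ _) y

theorem intCast_mem_intRing {y : LaurentSeries ℤ}
    (hy : coeffMap (Int.castRingHom ℚ) y ∈ F1 M) :
    coeffMap (Int.castRingHom A) y ∈ intRing A π (F1 M) (F1C M k) := by
  rw [mem_intRing, coeffMap_subtype_intCast, coeffMap_pi_intCast]
  exact ⟨coeffEmb_mem_laurentBaseChange L hy, coeffMap_mem_F1C M k hy⟩

/-- a `ℤ`-integral element of `F1 M` as an integral element over `A` -/
def intLift (y : LaurentSeries ℤ) (hy : coeffMap (Int.castRingHom ℚ) y ∈ F1 M) :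
    ↥(intRing A π (F1 M) (F1C M k)) :=
  ⟨coeffMap (Int.castRingHom A) y, intCast_mem_intRing A π M hy⟩

theorem coe_toFL_intLift (y : LaurentSeries ℤ) (hy : coeffMap (Int.castRingHom ℚ) y ∈ F1 M) :
    ((toFL A π (F1 M) (F1C M k) (intLift A π M y hy) : ↥(laurentBaseChange L (F1 M))) :
      LaurentSeries L) = coeffEmb L (coeffMap (Int.castRingHom ℚ) y) := by
  rw [coe_toFL]
  exact coeffMap_subtype_intCast A y

theorem coe_red_intLift (y : LaurentSeries ℤ) (hy : coeffMap (Int.castRingHom ℚ) y ∈ F1 M) :
    ((red A π (F1 M) (F1C M k) (intLift A π M y hy) : ↥(F1C M k)) : LaurentSeries k) =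
      coeffMap (Int.castRingHom k) y := by
  rw [coe_red]
  exact coeffMap_pi_intCast A π y

/-- **`F1C M k` is generated by the reductions of the integral elements.** -/
theorem generatedByReductions₁ : GeneratedByReductions A π (F1 M) (F1C M k) := by
  rw [GeneratedByReductions, F1C]
  refine IntermediateField.adjoin.mono k _ _ ?_
  rintro x ⟨y, hy, rfl⟩
  exact ⟨intLift A π M y hy, coeffMap_pi_intCast A π y⟩

/-! ### The integral element `j` -/

theorem coeffMap_intCast_jqModC_mem : coeffMap (Int.castRingHom ℚ) (jqModC ℤ) ∈ F1 M := by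
  rw [coeffMap_jqModC, jqModC_rat, ← qExpand_one_apply jq]
  exact jqd_mem_F1 M (one_dvd M)

/-- `j` as an integral element -/
def jI₁ : ↥(intRing A π (F1 M) (F1C M k)) :=
  intLift A π M (jqModC ℤ) (coeffMap_intCast_jqModC_mem M)

theorem coe_toFL_jI₁ :
    ((toFL A π (F1 M) (F1C M k) (jI₁ A π M) : ↥(laurentBaseChange L (F1 M))) :
      LaurentSeries L) = coeffEmb L jq := by
  rw [jI₁, coe_toFL_intLift, coeffMap_jqModC, jqModC_rat]

theorem red_jI₁ : red A π (F1 M) (F1C M k) (jI₁ A π M) = jC M k := by
  apply Subtype.ext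
  rw [jI₁, coe_red_intLift, coeffMap_jqModC, coe_jC]

end Lift

/-! ### From the reduction inputs (generic) -/

section FromInputs

variable {L : Type*} [Field L] [Algebra ℚ L] [IsAlgClosed L] [CharZero L]
variable {A : ValuationSubring L} {k : Type*} [Field k] {π : A →+* k}
variable {F₀ : IntermediateField ℚ (LaurentSeries ℚ)} {Fk : IntermediateField k (LaurentSeries k)}

open Fermat.Agent.S24.FF Fermat.Agent.S18.GaussFromHBar

/-- The representation `f = c · a / b` of every nonzero function, from the reduction inputs. -/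
theorem hasRep_of_inputs {x : ↥(laurentBaseChange L F₀)} (hx : IsFF L x)
    (h : ReductionInputsAlongG A π F₀ Fk) : HasRep A π F₀ Fk := by
  haveI := hasPrincipalDivisors_of_isFF hx
  exact hasRep_of_gen (fun g hg hord => const_of_ord_eq_zero hx g hg hord) h.choose_spec.2

/-- **the reduction datum of block D** from the reduction inputs (twin of
`GaussFromHBar.redDatumModL`) -/
def redDatumG {x : ↥(laurentBaseChange L F₀)} (hx : IsFF L x)
    (h : ReductionInputsAlongG A π F₀ Fk) (hπ : ∀ a : A, ¬ IsUnit a → π a = 0) :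
    Fermat.Agent.S18.CoreDefs.RedDatum (FL := ↥(laurentBaseChange L F₀)) (Fk := ↥Fk) A π
      h.choose :=
  haveI := hasPrincipalDivisors_of_isFF hx
  redDatum A π F₀ Fk h.choose_spec.1 (hasRep_of_inputs hx h) hπ

theorem redDatumG_O {x : ↥(laurentBaseChange L F₀)} (hx : IsFF L x)
    (h : ReductionInputsAlongG A π F₀ Fk) (hπ : ∀ a : A, ¬ IsUnit a → π a = 0) :
    (redDatumG hx h hπ).O = OwV A π F₀ Fk (hasRep_of_inputs hx h) := rfl

theorem redDatumG_red {x : ↥(laurentBaseChange L F₀)} (hx : IsFF L x)
    (h : ReductionInputsAlongG A π F₀ Fk) (hπ : ∀ a : A, ¬ IsUnit a → π a = 0) :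
    (redDatumG hx h hπ).red = redV A π F₀ Fk (hasRep_of_inputs hx h) := rfl

theorem redV_surjective_of_inputs {x : ↥(laurentBaseChange L F₀)} (hx : IsFF L x)
    (h : ReductionInputsAlongG A π F₀ Fk) (hπs : Function.Surjective π)
    (hgen : GeneratedByReductions A π F₀ Fk) :
    Function.Surjective (redV A π F₀ Fk (hasRep_of_inputs hx h)) :=
  redV_surjective (hasRep_of_inputs hx h) hπs hgen

/-- The place map of the inputs is onto. -/
theorem placeReduction_surjective {x : ↥(laurentBaseChange L F₀)} (hx : IsFF L x)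
    (h : ReductionInputsAlongG A π F₀ Fk) (hπs : Function.Surjective π)
    (hgen : GeneratedByReductions A π F₀ Fk) : Function.Surjective h.choose := by
  haveI := hasPrincipalDivisors_of_isFF hx
  exact placeMap_surjective h.choose_spec.1 hπs hgen

end FromInputs

/-! ### The instance `X₁(M)`, `L = ℚ̄`, `π = residue A` -/

section X1

local notation "Kb" => AlgebraicClosure ℚ

open Fermat.Agent.S24.FF Fermat.Agent.S18.GaussFromHBar

variable {A : ValuationSubring Kb} {M : ℕ} [NeZero M]

theorem toFL_jI₁ :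
    toFL A (IsLocalRing.residue A) (F1 M) (F1C M (IsLocalRing.ResidueField A))
      (jI₁ A (IsLocalRing.residue A) M) = jgen1 M := by
  apply Subtype.ext
  rw [coe_toFL_jI₁]
  exact (Fermat.Agent.S24.DegreeAlg.coe_jgen M).symm

/-- twin of `GaussFromHBar.hasRepModL` -/
theorem hasRep₁ (hx : IsFF Kb (jgen1 M)) (h : ReductionInputs1 A M) :
    HasRep A (IsLocalRing.residue A) (F1 M) (F1C M (IsLocalRing.ResidueField A)) :=
  hasRep_of_inputs hx h

/-- **the reduction datum of `X₁(M)`** (twin of `GaussFromHBar.redDatumModL`) -/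
def redDatum₁ (hx : IsFF Kb (jgen1 M)) (h : ReductionInputs1 A M) :
    Fermat.Agent.S18.CoreDefs.RedDatum (FL := ↥(F1Bar M))
      (Fk := ↥(F1C M (IsLocalRing.ResidueField A))) A (IsLocalRing.residue A) h.choose :=
  redDatumG hx h residue_eq_zero_of_not_isUnit

/-- `j` lies in the Gauss valuation ring (twin of `GaussFromHBar.jgen_mem_O`) -/
theorem jgen1_mem_O (hx : IsFF Kb (jgen1 M)) (h : ReductionInputs1 A M) :
    jgen1 M ∈ (redDatum₁ hx h).O := by
  rw [← toFL_jI₁ (A := A)]
  exact toFL_mem_OwV (hasRep₁ hx h) _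

/-- the reduction of `j` is `j̄` (twin of `GaussFromHBar.red_jgen`) -/
theorem red_jgen1 (hx : IsFF Kb (jgen1 M)) (h : ReductionInputs1 A M) :
    (redDatum₁ hx h).red ⟨jgen1 M, jgen1_mem_O hx h⟩ = jC M (IsLocalRing.ResidueField A) := by
  have h1 : (⟨jgen1 M, jgen1_mem_O hx h⟩ : ↥(redDatum₁ hx h).O) =
      ⟨toFL A (IsLocalRing.residue A) (F1 M) (F1C M (IsLocalRing.ResidueField A))
        (jI₁ A (IsLocalRing.residue A) M), toFL_mem_OwV (hasRep₁ hx h) _⟩ :=
    Subtype.ext toFL_jI₁.symm
  rw [h1]
  exact (redV_toFL (hasRep₁ hx h) _).trans (red_jI₁ A (IsLocalRing.residue A) M)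

theorem red_surjective₁ (hx : IsFF Kb (jgen1 M)) (h : ReductionInputs1 A M) :
    Function.Surjective (redDatum₁ hx h).red :=
  redV_surjective_of_inputs hx h IsLocalRing.residue_surjective
    (generatedByReductions₁ A (IsLocalRing.residue A) M)

/-- The place map of the inputs is onto. -/
theorem placeReduction_surjective₁ (hx : IsFF Kb (jgen1 M)) (h : ReductionInputs1 A M) :
    Function.Surjective h.choose :=
  placeReduction_surjective hx h IsLocalRing.residue_surjective
    (generatedByReductions₁ A (IsLocalRing.residue A) M)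

end X1

end Fermat.Agent.S48.B.Red.Gauss1

end
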