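import Mathlib
import Fermat.Agent.S37.Diff.Assembly
import Fermat.Agent.S37.Diff.IntegralGauss
import Fermat.Agent.S37.Diff.OrdBounds
import Fermat.Agent.S18.ResidueBasics
import Fermat.Agent.S48.B.Red.Seams

/-!
# PROJECT D (S48), part B, block B3, brick T: `g(X₁(M)/ℚ̄) ≤ g(X₁(M)/k)` when `1728 ≠ 0` in `k`

Twin of main's `S37/Diff/{RamX0, GenusX0}` for `X₁(M)`, HYPOTHESIS-FIRST: the Gauss datum
`R : GaussDatum A (residue A) (F1Bar M) (F1C M κ(A))` and the two `RatFunc`-structures are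
variables (their producer is brick `Bases1`); the characteristic-zero ramification of `j` on
`X₁(M)` is the seam `Seams.Ram1 M` (block B1).

* `integral_of_mem_canDiv_X1` : (D3-L) for `X₁(M)` from `Ram1 M`
  (main's `OrdBounds.integral_of_mem_canDiv`);
* `genusLe1_of_datum` : `GenusLe1 M A` from a Gauss datum when `1728 ≠ 0` in the residue field
  (main's `Diff.Assembly.genus_le` + `IntegralGauss.hpoly_fin / hpoly_inf`);
* `genusLe1_of_datum_tame` : the same for `ℓ ≠ 2, 3`.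
-/

set_option autoImplicit false
set_option linter.unusedSectionVars false
set_option linter.style.haveILetI false

noncomputable section

namespace Fermat.Agent.S48.B.Red.Tame1

open AlgebraicCurve ModularCurve IsLocalRing IntermediateField Polynomial
open Fermat.Agent.S24.FF
open Fermat.Agent.S18.A
open Fermat.Agent.S37.Deuring.Core
open Fermat.Agent.S37.Diff Fermat.Agent.S37.Diff.OrdBounds
open Fermat.Agent.S18.A.Chart (evalRat)
open Fermat.Agent.S48.B.Defs.Model Fermat.Agent.S48.B.Defs.Reduction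
open Fermat.Agent.S48.B.B1.Seams (jgen1)
open Fermat.Agent.S48.B.Red.Seams

local notation "Kb" => AlgebraicClosure ℚ

variable (M : ℕ) [NeZero M]

/-- **(D3-L) for `X₁(M)`**: for a regular differential `w dj`, the five elements of `OrdBounds`
are integral over `ℚ̄[j]` resp. `ℚ̄[1/j]`. -/
theorem integral_of_mem_canDiv_X1 (hRam : Ram1 M) (hxFF : IsFF Kb (jgen1 M))
    (hsep : Algebra.IsSeparable Kb⟮jgen1 M⟯ (F1Bar M)) (w : F1Bar M)
    (hw : w ∈ riemannRochSpace (canDiv hxFF hsep)) :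
    w * jgen1 M * (jgen1 M - algebraMap Kb _ 1728) ∈ FibreSep.intRing Kb (jgen1 M) ∧
    (w * jgen1 M * (jgen1 M - algebraMap Kb _ 1728)) ^ 3 / jgen1 M ∈
      FibreSep.intRing Kb (jgen1 M) ∧
    (w * jgen1 M * (jgen1 M - algebraMap Kb _ 1728)) ^ 2 / (jgen1 M - algebraMap Kb _ 1728) ∈
      FibreSep.intRing Kb (jgen1 M) ∧
    w * (jgen1 M - algebraMap Kb _ 1728) ∈ FibreSep.intRing Kb (jgen1 M)⁻¹ ∧
    (w * (jgen1 M - algebraMap Kb _ 1728)) ^ M * jgen1 M ∈ FibreSep.intRing Kb (jgen1 M)⁻¹ :=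
  OrdBounds.integral_of_mem_canDiv hxFF hsep (c := (1728 : Kb)) (by norm_num)
    hRam.1 hRam.2.1 (fun a h0 h1728 v hv => hRam.2.2.1 a h0 h1728 v hv)
    (Nat.pos_of_ne_zero (NeZero.ne M)) hRam.2.2.2 w hw

/-- `1728` as an element of `A` -/
def c1728 (A : ValuationSubring Kb) : ↥A := ⟨1728, by
  have : (1728 : Kb) = ((1728 : ℕ) : Kb) := by norm_num
  rw [this]
  exact natCast_mem A 1728⟩

theorem coe_c1728 (A : ValuationSubring Kb) : ((c1728 A : ↥A) : Kb) = 1728 := rfl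

theorem residue_c1728 (A : ValuationSubring Kb) :
    residue ↥A (c1728 A) = (1728 : ResidueField ↥A) := by
  have h : c1728 A = ((1728 : ℕ) : ↥A) := by
    apply Subtype.ext
    rw [coe_c1728]
    push_cast
    rfl
  rw [h, map_natCast]
  norm_num

section Datum

variable {M}
variable {A : ValuationSubring Kb}
variable [Algebra (RatFunc Kb) (F1Bar M)] [IsScalarTower Kb (RatFunc Kb) (F1Bar M)]
  [FiniteDimensional (RatFunc Kb) (F1Bar M)]
variable [Algebra (RatFunc (ResidueField ↥A)) (F1C M (ResidueField ↥A))]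
  [IsScalarTower (ResidueField ↥A) (RatFunc (ResidueField ↥A)) (F1C M (ResidueField ↥A))]

/-- **`gL ≤ gk` for `X₁(M)` when `1728 ≠ 0` in the residue field**, from a Gauss datum, by
reduction of regular differentials. -/
theorem genusLe1_of_datum (hRam : Ram1 M) [IsAlgClosed (ResidueField ↥A)]
    (h1728 : (1728 : ResidueField ↥A) ≠ 0)
    (R : GaussDatum A (residue ↥A) (F1Bar M) (F1C M (ResidueField ↥A)))
    (hx : algebraMap (RatFunc Kb) (F1Bar M) RatFunc.X ∈ R.O)
    (hrx : R.red ⟨_, hx⟩ =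
      algebraMap (RatFunc (ResidueField ↥A)) (F1C M (ResidueField ↥A)) RatFunc.X)
    (hxFF : IsFF Kb (jgen1 M)) (hsepL : Algebra.IsSeparable Kb⟮jgen1 M⟯ (F1Bar M))
    (halgL : ∀ a, algebraMap (RatFunc Kb) (F1Bar M) a = evalRat hxFF.transcendental a)
    (hxkFF : IsFF (ResidueField ↥A) (jC M (ResidueField ↥A)))
    (hsepk : Algebra.IsSeparable (ResidueField ↥A)⟮jC M (ResidueField ↥A)⟯
      (F1C M (ResidueField ↥A)))
    (hxkX : algebraMap (RatFunc (ResidueField ↥A)) (F1C M (ResidueField ↥A)) RatFunc.X =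
      jC M (ResidueField ↥A))
    (hsurj : Function.Surjective R.red)
    (hdim : Module.finrank (RatFunc Kb) (F1Bar M) ≤
      Module.finrank (RatFunc (ResidueField ↥A)) (F1C M (ResidueField ↥A))) :
    GenusLe1 M A := by
  intro gL gk HL Hk
  exact Assembly.genus_le R hx hrx (x := jgen1 M) hxFF hsepL halgL
    (xk := jC M (ResidueField ↥A)) hxkFF hsepk hxkX hsurj hdim
    (IntegralGauss.hpoly_fin R hx hrx) (IntegralGauss.hpoly_inf R hx hrx)
    (c1728 A) (by rw [residue_c1728]; exact h1728) M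
    (fun w hw => integral_of_mem_canDiv_X1 M hRam hxFF hsepL w hw) HL Hk

end Datum

/-- `1728 = 2^6 * 3^3` is nonzero in the residue field when `ℓ ≠ 2, 3`. -/
theorem ne_zero_1728 {ℓ : ℕ} [Fact ℓ.Prime] {A : ValuationSubring Kb} (hA : A.LiesOverPrime ℓ)
    (h2 : ℓ ≠ 2) (h3 : ℓ ≠ 3) : (1728 : ResidueField ↥A) ≠ 0 := by
  haveI : CharP (ResidueField ↥A) ℓ := Fermat.Agent.S18.ResidueBasics.charP_residueField A hA
  have hℓ : ℓ.Prime := Fact.out
  intro h0
  have h1 : ((1728 : ℕ) : ResidueField ↥A) = 0 := by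
    rw [← h0]
    norm_num
  rw [CharP.cast_eq_zero_iff (ResidueField ↥A) ℓ] at h1
  have h4 : (1728 : ℕ) = 2 ^ 6 * 3 ^ 3 := by norm_num
  rw [h4] at h1
  rcases (Nat.Prime.dvd_mul hℓ).mp h1 with h | h
  · exact h2 ((Nat.prime_dvd_prime_iff_eq hℓ Nat.prime_two).mp (hℓ.dvd_of_dvd_pow h))
  · exact h3 ((Nat.prime_dvd_prime_iff_eq hℓ Nat.prime_three).mp (hℓ.dvd_of_dvd_pow h))

section Tame

variable {M}
variable {A : ValuationSubring Kb}
variable [Algebra (RatFunc Kb) (F1Bar M)] [IsScalarTower Kb (RatFunc Kb) (F1Bar M)]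
  [FiniteDimensional (RatFunc Kb) (F1Bar M)]
variable [Algebra (RatFunc (ResidueField ↥A)) (F1C M (ResidueField ↥A))]
  [IsScalarTower (ResidueField ↥A) (RatFunc (ResidueField ↥A)) (F1C M (ResidueField ↥A))]

/-- **`gL ≤ gk` for `X₁(M)` at `ℓ ≠ 2, 3`**, from a Gauss datum. -/
theorem genusLe1_of_datum_tame (hRam : Ram1 M) {ℓ : ℕ} [Fact ℓ.Prime] (hA : A.LiesOverPrime ℓ)
    (h2 : ℓ ≠ 2) (h3 : ℓ ≠ 3)
    (R : GaussDatum A (residue ↥A) (F1Bar M) (F1C M (ResidueField ↥A)))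
    (hx : algebraMap (RatFunc Kb) (F1Bar M) RatFunc.X ∈ R.O)
    (hrx : R.red ⟨_, hx⟩ =
      algebraMap (RatFunc (ResidueField ↥A)) (F1C M (ResidueField ↥A)) RatFunc.X)
    (hxFF : IsFF Kb (jgen1 M)) (hsepL : Algebra.IsSeparable Kb⟮jgen1 M⟯ (F1Bar M))
    (halgL : ∀ a, algebraMap (RatFunc Kb) (F1Bar M) a = evalRat hxFF.transcendental a)
    (hxkFF : IsFF (ResidueField ↥A) (jC M (ResidueField ↥A)))
    (hsepk : Algebra.IsSeparable (ResidueField ↥A)⟮jC M (ResidueField ↥A)⟯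
      (F1C M (ResidueField ↥A)))
    (hxkX : algebraMap (RatFunc (ResidueField ↥A)) (F1C M (ResidueField ↥A)) RatFunc.X =
      jC M (ResidueField ↥A))
    (hsurj : Function.Surjective R.red)
    (hdim : Module.finrank (RatFunc Kb) (F1Bar M) ≤
      Module.finrank (RatFunc (ResidueField ↥A)) (F1C M (ResidueField ↥A))) :
    GenusLe1 M A := by
  haveI : IsAlgClosed (ResidueField ↥A) :=
    Fermat.Agent.S18.ResidueBasics.isAlgClosed_residueField A
  exact genusLe1_of_datum hRam (ne_zero_1728 hA h2 h3) R hx hrx hxFF hsepL halgL hxkFF hsepk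
    hxkX hsurj hdim

end Tame

end Fermat.Agent.S48.B.Red.Tame1
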