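/-
PROJECT D (S48), part B, block B3, brick I (helper11): THE ASSEMBLY `ReductionInputs1 A M`.

`A` a valuation subring of `ℚ̄` over a prime `ℓ ∤ M`, `κ = κ(A)`.  Inputs:

* `hdeg : Seams.IgusaDeg M` (B2), `hD : B1.Seams.Deg1 M` (B1), `hRam : Seams.Ram1 M` (B1);
* from brick B (`Bases1`): `hrep : HasRep A (residue A) (F1 M) (F1C M κ)` and
  `hob : (datum₁ hrep).OB`, where `datum₁ hrep` is the canonical Gauss datum
  `DatumG.datumOfRep hrep residue_surjective residue_eq_zero_of_not_isUnit`;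
* the inequality of genera `Seams.GenusLe1 M A`: PROVED here for `ℓ ≠ 2, 3` (`genusLe1_tame`, from
  helper4's `Tame1.genusLe1_of_datum_tame`), a hypothesis for `ℓ ∈ {2, 3}` ([B-wild]).

Outputs: `reductionInputs1_of_genusLe`, `reductionInputs1_tame`, `reductionInputs1`.
Riemann's theorem, principal divisors, separability on both sides: helper9's `Inj/Basics`.
-/
import Mathlib
import Fermat.Agent.S18.ResidueBasics
import Fermat.Agent.S18.C.BaseChangeR
import Fermat.Agent.S48.B.Inj.Basics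
import Fermat.Agent.S48.B.Red.DatumG
import Fermat.Agent.S48.B.Red.Gauss1
import Fermat.Agent.S48.B.Red.Tame1

set_option autoImplicit false
set_option linter.unusedSectionVars false
set_option linter.style.haveILetI false
set_option synthInstance.maxHeartbeats 400000

noncomputable section

namespace Fermat.Agent.S48.B.Red.Inputs1

open AlgebraicCurve ModularCurve IntermediateField IsLocalRing
open Fermat.Agent.S48.B.Defs.Model Fermat.Agent.S48.B.Defs.Reduction
open Fermat.Agent.S48.B.Red.GaussG Fermat.Agent.S48.B.Red.DatumG Fermat.Agent.S48.B.Red.Gauss1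
open Fermat.Agent.S48.B.Red.Seams
open Fermat.Agent.S48.B.B1.Seams (jgen1 Deg1)
open Fermat.Agent.S48.B.Inj
open Fermat.Agent.S24.FF Fermat.Agent.S18.A Fermat.Agent.S18.NonSpecial
open Fermat.Agent.S37.Deuring.Core
open Fermat.Agent.S18.GaussFromHBar (residue_eq_zero_of_not_isUnit)

local notation "Kb" => AlgebraicClosure ℚ

variable {M : ℕ} [NeZero M] {A : ValuationSubring Kb}

/-- the canonical Gauss datum of `X₁(M)` at `A` attached to a representation hypothesis -/
def datum₁ (hrep : HasRep A (residue A) (F1 M) (F1C M (ResidueField A))) :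
    GaussDatum A (residue A) (F1Bar M) (F1C M (ResidueField A)) :=
  datumOfRep hrep residue_surjective residue_eq_zero_of_not_isUnit

theorem datum₁_O (hrep : HasRep A (residue A) (F1 M) (F1C M (ResidueField A))) :
    (datum₁ hrep).O = OwV A (residue A) (F1 M) (F1C M (ResidueField A)) hrep := rfl

theorem datum₁_red (hrep : HasRep A (residue A) (F1 M) (F1C M (ResidueField A))) :
    (datum₁ hrep).red = redV A (residue A) (F1 M) (F1C M (ResidueField A)) hrep := rfl

theorem datum₁_red_surjective (hrep : HasRep A (residue A) (F1 M) (F1C M (ResidueField A))) :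
    Function.Surjective (datum₁ hrep).red :=
  datumOfRep_red_surjective hrep residue_surjective residue_eq_zero_of_not_isUnit
    (generatedByReductions₁ A (residue A) M)

/-- `j` lies in the Gauss valuation ring -/
theorem jgen1_mem_datum₁ (hrep : HasRep A (residue A) (F1 M) (F1C M (ResidueField A))) :
    jgen1 M ∈ (datum₁ hrep).O := by
  rw [← toFL_jI₁ (A := A)]
  exact toFL_mem_OwV hrep _

/-- the reduction of `j` is `j̄` -/
theorem red_jgen1_datum₁ (hrep : HasRep A (residue A) (F1 M) (F1C M (ResidueField A))) :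
    (datum₁ hrep).red ⟨jgen1 M, jgen1_mem_datum₁ hrep⟩ = jC M (ResidueField A) := by
  have h1 : (⟨jgen1 M, jgen1_mem_datum₁ hrep⟩ : ↥(datum₁ hrep).O) =
      ⟨toFL A (residue A) (F1 M) (F1C M (ResidueField A)) (jI₁ A (residue A) M),
        toFL_mem_OwV hrep _⟩ :=
    Subtype.ext toFL_jI₁.symm
  rw [h1]
  exact (redV_toFL hrep _).trans (red_jI₁ A (residue A) M)

/-! ### `ReductionInputs1` from the inequality of genera -/

/-- **`ReductionInputs1 A M` from `HasRep`, (OB) and the inequality of genera.** -/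
theorem reductionInputs1_of_genusLe (hdeg : IgusaDeg M) (hD : Deg1 M) {ℓ : ℕ} (hℓ : ℓ.Prime)
    (hℓM : ¬ ℓ ∣ M) (hA : A.LiesOverPrime ℓ)
    (hrep : HasRep A (residue A) (F1 M) (F1C M (ResidueField A)))
    (hob : (datum₁ hrep).OB) (hg : GenusLe1 M A) : ReductionInputs1 A M := by
  haveI : IsAlgClosed (ResidueField A) :=
    Fermat.Agent.S18.ResidueBasics.isAlgClosed_residueField A
  have hj : jqModC (ResidueField A) ∈ F1C M (ResidueField A) := jqModC_mem_F1C M _
  haveI : FiniteDimensional ↥(ResidueField A)⟮Basics.jC hj⟯ ↥(F1C M (ResidueField A)) :=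
    (hdeg ℓ hℓ hℓM A hA).1
  haveI := Basics.hasPrincipalDivisors_L hD.1
  haveI := Basics.hasPrincipalDivisors_k hj
  haveI : Infinite (ResidueField A) := IsAlgClosed.instInfinite
  obtain ⟨gL, HL, -⟩ := Basics.exists_genus_L hD.1
  obtain ⟨gk, HK, -⟩ := Basics.exists_genus_k hj
  exact reductionInputsAlongG_of_ob hrep residue_surjective residue_eq_zero_of_not_isUnit
    (generatedByReductions₁ A (residue A) M) hD.1 HL HK (hg gL gk HL HK) hob

/-! ### The inequality of genera away from `2` and `3` -/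

/-- **`gL ≤ gk` for `X₁(M)` at `ℓ ≠ 2, 3`** (helper4's `Tame1` at the canonical datum). -/
theorem genusLe1_tame (hdeg : IgusaDeg M) (hD : Deg1 M) (hRam : Ram1 M) {ℓ : ℕ} (hℓ : ℓ.Prime)
    (hℓM : ¬ ℓ ∣ M) (h2 : ℓ ≠ 2) (h3 : ℓ ≠ 3) (hA : A.LiesOverPrime ℓ)
    (hrep : HasRep A (residue A) (F1 M) (F1C M (ResidueField A))) : GenusLe1 M A := by
  haveI : Fact ℓ.Prime := ⟨hℓ⟩
  haveI : IsAlgClosed (ResidueField A) :=
    Fermat.Agent.S18.ResidueBasics.isAlgClosed_residueField A
  have hj : jqModC (ResidueField A) ∈ F1C M (ResidueField A) := jqModC_mem_F1C M _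
  haveI hfink : FiniteDimensional ↥(ResidueField A)⟮Basics.jC hj⟯ ↥(F1C M (ResidueField A)) :=
    (hdeg ℓ hℓ hℓM A hA).1
  haveI hfinL : FiniteDimensional ↥Kb⟮jgen1 M⟯ ↥(F1Bar M) := hD.1.finite
  have htL : Transcendental Kb (jgen1 M) := hD.1.transcendental
  have htk : Transcendental (ResidueField A) (Basics.jC hj) := Basics.transcendental_jC hj
  letI algL : Algebra (RatFunc Kb) ↥(F1Bar M) := Chart.ratAlgebra htL
  haveI : IsScalarTower Kb (RatFunc Kb) ↥(F1Bar M) := Chart.isScalarTower_ratAlgebra htL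
  letI algk : Algebra (RatFunc (ResidueField A)) ↥(F1C M (ResidueField A)) :=
    Chart.ratAlgebra htk
  haveI : IsScalarTower (ResidueField A) (RatFunc (ResidueField A)) ↥(F1C M (ResidueField A)) :=
    Chart.isScalarTower_ratAlgebra htk
  have hfL := Fermat.Agent.S18.C.BaseChangeR.finrank_ratAlgebra htL
  have hfk := Fermat.Agent.S18.C.BaseChangeR.finrank_ratAlgebra htk
  haveI : FiniteDimensional (RatFunc Kb) ↥(F1Bar M) := hfL.1
  have hXL : algebraMap (RatFunc Kb) ↥(F1Bar M) RatFunc.X = jgen1 M := Chart.evalRat_X htL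
  have hXk : algebraMap (RatFunc (ResidueField A)) ↥(F1C M (ResidueField A)) RatFunc.X =
      jC M (ResidueField A) := Chart.evalRat_X htk
  have hx : algebraMap (RatFunc Kb) ↥(F1Bar M) RatFunc.X ∈ (datum₁ hrep).O := by
    rw [hXL]
    exact jgen1_mem_datum₁ hrep
  have hrx : (datum₁ hrep).red ⟨_, hx⟩ =
      algebraMap (RatFunc (ResidueField A)) ↥(F1C M (ResidueField A)) RatFunc.X := by
    rw [hXk, ← red_jgen1_datum₁ hrep]
    congr 1
    exact Subtype.ext hXL
  have hdim : Module.finrank (RatFunc Kb) ↥(F1Bar M) ≤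
      Module.finrank (RatFunc (ResidueField A)) ↥(F1C M (ResidueField A)) := by
    rw [hfL.2, hfk.2]
    exact (hdeg ℓ hℓ hℓM A hA).2.ge
  exact Tame1.genusLe1_of_datum_tame hRam hA h2 h3 (datum₁ hrep) hx hrx hD.1
    (Basics.isSeparable_of_isFF hD.1) (fun _ => rfl) (Basics.isFF_jC hj)
    (Basics.isSeparable_jC hj) hXk (datum₁_red_surjective hrep) hdim

/-! ### The assembly -/

/-- what brick B (`Bases1`) delivers at `A` -/
structure BasesOut (M : ℕ) [NeZero M] (A : ValuationSubring Kb) : Prop where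
  exists_rep : ∃ hrep : HasRep A (residue A) (F1 M) (F1C M (ResidueField A)),
    (datum₁ hrep).OB

/-- **`ReductionInputs1 A M` at `ℓ ≠ 2, 3`.** -/
theorem reductionInputs1_tame (hdeg : IgusaDeg M) (hD : Deg1 M) (hRam : Ram1 M) {ℓ : ℕ}
    (hℓ : ℓ.Prime) (hℓM : ¬ ℓ ∣ M) (h2 : ℓ ≠ 2) (h3 : ℓ ≠ 3) (hA : A.LiesOverPrime ℓ)
    (hB : BasesOut M A) : ReductionInputs1 A M := by
  obtain ⟨hrep, hob⟩ := hB.exists_rep
  exact reductionInputs1_of_genusLe hdeg hD hℓ hℓM hA hrep hob
    (genusLe1_tame hdeg hD hRam hℓ hℓM h2 h3 hA hrep)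

/-- **[B-red], tame part.** -/
theorem redInputs1Tame (hdeg : IgusaDeg M) (hD : Deg1 M) (hRam : Ram1 M)
    (hB : ∀ ℓ : ℕ, ℓ.Prime → ¬ ℓ ∣ M → ∀ A : ValuationSubring Kb, A.LiesOverPrime ℓ →
      BasesOut M A) : RedInputs1Tame M :=
  fun ℓ hℓ hℓM h2 h3 A hA =>
    reductionInputs1_tame hdeg hD hRam hℓ hℓM h2 h3 hA (hB ℓ hℓ hℓM A hA)

/-- **[B-red]**: `ReductionInputs1 A M` at every `A` over every `ℓ ∤ M`. -/
theorem redInputs1 (hdeg : IgusaDeg M) (hD : Deg1 M) (hRam : Ram1 M) (hW : GenusLeWild1 M)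
    (hB : ∀ ℓ : ℕ, ℓ.Prime → ¬ ℓ ∣ M → ∀ A : ValuationSubring Kb, A.LiesOverPrime ℓ →
      BasesOut M A) : RedInputs1 M := by
  intro ℓ hℓ hℓM A hA
  obtain ⟨hrep, hob⟩ := (hB ℓ hℓ hℓM A hA).exists_rep
  refine reductionInputs1_of_genusLe hdeg hD hℓ hℓM hA hrep hob ?_
  by_cases h23 : ℓ = 2 ∨ ℓ = 3
  · exact hW ℓ hℓ hℓM h23 A hA
  · push Not at h23
    exact genusLe1_tame hdeg hD hRam hℓ hℓM h23.1 h23.2 hA hrep

end Fermat.Agent.S48.B.Red.Inputs1

end
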