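/-
PROJECT D (S48), part B, block B3, brick U (helper3): THE GAUSS VALUATION RING IS THE ONLY EXTENSION
OF ITS RESTRICTION TO `L(x)`, AND AUTOMORPHISMS FIXING `x` REDUCE.

Abstract setting of main's `S37/Deuring/Core`: a Gauss datum `G : GaussDatum A π FL Fk` (valuation
ring `G.O` of `FL` above `A`, reduction `G.red : G.O →+* Fk`), `x : G.O` with `x̄ = G.red x`
transcendental over `k`.

* `red_eq_zero_iff_valuation` : `G.red u = 0 ↔ G.O.valuation u < 1`.
* `red_mem_adjoin` : the reduction of an element of `L(x) ∩ O` lies in `k(x̄)` (Gauss' lemma).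
* `resIndep_of_red` : a family of `O` whose reductions are `k(x̄)`-independent is residually
  independent over `L(x)` (`Val.Unique.ResIndep`).
* `eq_of_basis` : **uniqueness**: if `[FL : L(x)] = n` and there are `n` elements of `O` with
  `k(x̄)`-independent reductions, then `G.O` is the only valuation subring of `FL` over `G.O ∩ L(x)`.
* `smul_eq_of_fix` : then every `L`-automorphism `δ` of `FL` with `δ x = x` satisfies `δ • G.O = G.O`.
* `redAut hsurj δ hδ` : an automorphism with `δ • G.O = G.O` induces, when `G.red` is onto,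
  `δ̄ : Fk ≃ₐ[k] Fk` with `δ̄ (red f) = red (δ f)` (`redAut_red`), multiplicative in `δ`
  (`redAut_mul`, `redAut_one`).

Mathlib + main's `S37/Deuring/{Core, GaussLemmas}` + `S48/B/Val/{Unique, Decomp}`.
-/
import Mathlib
import Fermat.Agent.S37.Deuring.GaussLemmas
import Fermat.Agent.S48.B.Val.Decomp

set_option autoImplicit false
set_option linter.unusedSectionVars false

noncomputable section

namespace Fermat.Agent.S48.B.Red.Unique1

open Polynomial IntermediateField
open Fermat.Agent.S37.Deuring.Core Fermat.Agent.S37.Deuring.GaussLemmas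
open Fermat.Agent.S48.B.Val
open scoped Pointwise

/-! ### A general form of the lifting lemma of `Val/Residue` -/

section Lift

variable {K₁ K' : Type*} [Field K₁] [Field K'] [Algebra K₁ K'] (A' : ValuationSubring K')
variable {R : Type*} [CommRing R] (ρ : A' →+* R)
variable {S : Type*} [Field S] [Algebra S R]

/-- If `ρ : A' → R` has the maximal ideal as kernel and sends `A' ∩ K₁` into the image of `S`,
a family of `A'` whose images are `S`-independent is residually independent over `K₁`. -/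
theorem resIndep_of_map (hρ : ∀ a : A', ρ a = 0 ↔ A'.valuation (a : K') < 1)
    (hS : ∀ (c : K₁) (hc : algebraMap K₁ K' c ∈ A'), ∃ s : S, algebraMap S R s = ρ ⟨_, hc⟩)
    {ι : Type*} (a : ι → A') (h : LinearIndependent S (fun i => ρ (a i))) :
    Unique.ResIndep (K := K₁) A' (fun i => (a i : K')) := by
  classical
  refine ⟨fun i => (a i).2, fun s c hc hlt i hi => ?_⟩
  set c' : ι → A' := fun j =>
    if hj : algebraMap K₁ K' (c j) ∈ A' then ⟨_, hj⟩ else 0 with hc'
  have hc'coe : ∀ j ∈ s, ((c' j : A') : K') = algebraMap K₁ K' (c j) := by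
    intro j hj
    rw [hc']
    simp only
    rw [dif_pos (hc j hj)]
  have hsum : ((∑ j ∈ s, c' j * a j : A') : K')
      = ∑ j ∈ s, algebraMap K₁ K' (c j) * (a j : K') := by
    rw [AddSubmonoidClass.coe_finsetSum]
    refine Finset.sum_congr rfl fun j hj => ?_
    rw [MulMemClass.coe_mul, hc'coe j hj]
  have hres : ρ (∑ j ∈ s, c' j * a j) = 0 := by
    rw [hρ, hsum]
    exact hlt
  rw [map_sum] at hres
  have hex : ∀ j, ∃ t : S, algebraMap S R t = ρ (c' j) := by
    intro j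
    by_cases hj : algebraMap K₁ K' (c j) ∈ A'
    · obtain ⟨t, ht⟩ := hS (c j) hj
      refine ⟨t, ?_⟩
      rw [ht, hc']
      simp only
      rw [dif_pos hj]
    · refine ⟨0, ?_⟩
      rw [hc']
      simp only
      rw [dif_neg hj, map_zero, map_zero]
  choose t ht using hex
  have hrel : ∑ j ∈ s, t j • ρ (a j) = 0 := by
    rw [← hres]
    refine Finset.sum_congr rfl fun j _ => ?_
    rw [Algebra.smul_def, ht, map_mul]
  have h0 := (linearIndependent_iff'.1 h) s t hrel i hi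
  have h1 : ρ (c' i) = 0 := by rw [← ht, h0, map_zero]
  rw [hρ, hc'coe i hi] at h1
  exact h1

end Lift

/-! ### Gauss data -/

variable {L : Type*} [Field L] {k : Type*} [Field k]
variable {A : ValuationSubring L} {π : A →+* k}
variable {FL : Type*} [Field FL] [Algebra L FL] {Fk : Type*} [Field Fk] [Algebra k Fk]
variable (G : GaussDatum A π FL Fk)

theorem red_eq_zero_iff_valuation (u : G.O) : G.red u = 0 ↔ G.O.valuation (u : FL) < 1 := by
  rw [G.red_eq_zero_iff, ← G.O.valuation_lt_one_iff, IsLocalRing.mem_maximalIdeal,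
    mem_nonunits_iff]

theorem isUnit_of_red_ne_zero {u : G.O} (h : G.red u ≠ 0) : IsUnit u := by
  by_contra hu
  exact h ((G.red_eq_zero_iff u).2 hu)

/-- a polynomial over `L` whose value at `x` lies in `O` has coefficients in `A` -/
theorem exists_map_eq_of_aeval_mem (x : G.O) (hx : Transcendental k (G.red x)) (p : L[X])
    (hp : aeval (x : FL) p ∈ G.O) : ∃ P : A[X], P.map A.subtype = p := by
  by_cases hp0 : p = 0
  · exact ⟨0, by rw [hp0, Polynomial.map_zero]⟩
  obtain ⟨c, hc, P, hP, hPπ⟩ := exists_scale_one (A := A) (π := π) p hp0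
  -- `P(x)` is a unit of `O`
  have hredP : G.red (evalO G x P) ≠ 0 := by
    rw [red_evalO]
    exact fun h0 => hPπ ((transcendental_iff.1 hx) _ h0)
  obtain ⟨u, hu⟩ := isUnit_of_red_ne_zero G hredP
  have hcoe : ((evalO G x P : G.O) : FL) = algebraMap L FL c * aeval (x : FL) p := by
    rw [coe_evalO, hP, map_mul, aeval_C]
  -- `c⁻¹ ∈ O ∩ L = A`
  have hcinv : algebraMap L FL c⁻¹ ∈ G.O := by
    have h1 : algebraMap L FL c⁻¹ = aeval (x : FL) p * ((u⁻¹ : G.Oˣ) : G.O) := by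
      have h2 : ((u : G.O) : FL) * (((u⁻¹ : G.Oˣ) : G.O) : FL) = 1 := by
        rw [← MulMemClass.coe_mul, u.mul_inv]
        rfl
      rw [hu, hcoe] at h2
      rw [map_inv₀]
      exact inv_eq_of_mul_eq_one_right (by rw [← mul_assoc]; exact h2)
    rw [h1]
    exact G.O.mul_mem _ _ hp (SetLike.coe_mem _)
  have hcA : c⁻¹ ∈ A := G.mem_of_algebraMap_mem _ hcinv
  refine ⟨C (⟨c⁻¹, hcA⟩ : A) * P, ?_⟩
  rw [Polynomial.map_mul, Polynomial.map_C, hP, ← mul_assoc, ← C_mul]
  have : A.subtype ⟨c⁻¹, hcA⟩ * c = 1 := inv_mul_cancel₀ hc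
  rw [this, C_1, one_mul]

/-- **Gauss' lemma**: the reduction of an element of `L(x) ∩ O` lies in `k(x̄)`. -/
theorem red_mem_adjoin (x : G.O) (hx : Transcendental k (G.red x)) (c : L⟮(x : FL)⟯)
    (hc : (c : FL) ∈ G.O) : G.red ⟨(c : FL), hc⟩ ∈ k⟮G.red x⟯ := by
  obtain ⟨p, q, hpq⟩ := (mem_adjoin_simple_iff L (c : FL)).1 c.2
  by_cases hq0 : aeval (x : FL) q = 0
  · have h0 : (⟨(c : FL), hc⟩ : G.O) = 0 := by
      apply Subtype.ext
      rw [hpq, hq0, div_zero]
      rfl
    rw [h0, map_zero]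
    exact zero_mem _
  have hq : q ≠ 0 := by
    rintro rfl
    exact hq0 (map_zero _)
  obtain ⟨c₀, hc₀, Q, hQ, hQπ⟩ := exists_scale_one (A := A) (π := π) q hq
  have hredQ : G.red (evalO G x Q) ≠ 0 := by
    rw [red_evalO]
    exact fun h0 => hQπ ((transcendental_iff.1 hx) _ h0)
  have hcoeQ : ((evalO G x Q : G.O) : FL) = algebraMap L FL c₀ * aeval (x : FL) q := by
    rw [coe_evalO, hQ, map_mul, aeval_C]
  -- numerator: `(c₀ p)(x) = c * Q(x) ∈ O`
  have hnum : aeval (x : FL) (C c₀ * p) = (c : FL) * ((evalO G x Q : G.O) : FL) := by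
    rw [hcoeQ, hpq, map_mul, aeval_C]
    field_simp
  have hnum_mem : aeval (x : FL) (C c₀ * p) ∈ G.O := by
    rw [hnum]
    exact G.O.mul_mem _ _ hc (SetLike.coe_mem _)
  obtain ⟨P, hP⟩ := exists_map_eq_of_aeval_mem G x hx (C c₀ * p) hnum_mem
  have hPQ : (⟨(c : FL), hc⟩ : G.O) * evalO G x Q = evalO G x P := by
    apply Subtype.ext
    rw [MulMemClass.coe_mul, coe_evalO G x P, hP, hnum]
  have hred : G.red ⟨(c : FL), hc⟩ = G.red (evalO G x P) / G.red (evalO G x Q) := by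
    rw [eq_div_iff hredQ, ← map_mul, hPQ]
  rw [hred, red_evalO, red_evalO]
  refine div_mem ?_ ?_
  · exact (Algebra.adjoin_le_iff.2 (fun y hy => by
      rw [Set.mem_singleton_iff.1 hy]; exact mem_adjoin_simple_self k _)
      : Algebra.adjoin k {G.red x} ≤ k⟮G.red x⟯.toSubalgebra)
      (Algebra.adjoin_singleton_eq_range_aeval k (G.red x) ▸ ⟨_, rfl⟩)
  · exact (Algebra.adjoin_le_iff.2 (fun y hy => by
      rw [Set.mem_singleton_iff.1 hy]; exact mem_adjoin_simple_self k _)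
      : Algebra.adjoin k {G.red x} ≤ k⟮G.red x⟯.toSubalgebra)
      (Algebra.adjoin_singleton_eq_range_aeval k (G.red x) ▸ ⟨_, rfl⟩)

/-- a family of `O` with `k(x̄)`-independent reductions is residually independent over `L(x)` -/
theorem resIndep_of_red (x : G.O) (hx : Transcendental k (G.red x)) {ι : Type*} (t : ι → G.O)
    (ht : LinearIndependent k⟮G.red x⟯ (fun i => G.red (t i))) :
    Unique.ResIndep (K := L⟮(x : FL)⟯) G.O (fun i => (t i : FL)) :=
  resIndep_of_map (K₁ := L⟮(x : FL)⟯) (S := k⟮G.red x⟯) G.O G.red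
    (red_eq_zero_iff_valuation G)
    (fun c hc => ⟨⟨_, red_mem_adjoin G x hx c hc⟩, rfl⟩) t ht

/-- **Uniqueness of the Gauss valuation ring** over its restriction to `L(x)`. -/
theorem eq_of_basis (x : G.O) (hx : Transcendental k (G.red x))
    [FiniteDimensional L⟮(x : FL)⟯ FL] {ι : Type*} [Fintype ι] (t : ι → G.O)
    (hcard : Fintype.card ι = Module.finrank L⟮(x : FL)⟯ FL)
    (ht : LinearIndependent k⟮G.red x⟯ (fun i => G.red (t i)))
    (O' : ValuationSubring FL)
    (h : O'.comap (algebraMap L⟮(x : FL)⟯ FL) = G.O.comap (algebraMap L⟮(x : FL)⟯ FL)) :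
    O' = G.O :=
  Unique.eq_of_resIndep h (resIndep_of_red G x hx t ht) hcard

/-! ### Automorphisms fixing `x` -/

/-- an `L`-automorphism fixing `x` fixes `L(x)` pointwise -/
theorem apply_eq_of_mem_adjoin (δ : FL ≃ₐ[L] FL) (x : FL) (hδ : δ x = x) {c : FL}
    (hc : c ∈ L⟮x⟯) : δ c = c := by
  obtain ⟨p, q, rfl⟩ := (mem_adjoin_simple_iff L c).1 hc
  rw [map_div₀, ← AlgEquiv.coe_toAlgHom, ← aeval_algHom_apply, ← aeval_algHom_apply,
    AlgEquiv.coe_toAlgHom, hδ]

/-- the contraction to `L(x)` is not changed by an automorphism fixing `x` -/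
theorem comap_smul_of_fix (O : ValuationSubring FL) (δ : FL ≃ₐ[L] FL) (x : FL) (hδ : δ x = x) :
    (δ • O).comap (algebraMap L⟮x⟯ FL) = O.comap (algebraMap L⟮x⟯ FL) := by
  ext c
  rw [ValuationSubring.mem_comap, ValuationSubring.mem_comap,
    ValuationSubring.mem_pointwise_smul_iff_inv_smul_mem, AlgEquiv.smul_def]
  have h1 : δ⁻¹ (algebraMap L⟮x⟯ FL c) = algebraMap L⟮x⟯ FL c := by
    have h2 := apply_eq_of_mem_adjoin δ x hδ c.2
    have h3 : δ⁻¹ (δ (c : FL)) = (c : FL) := by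
      rw [← AlgEquiv.mul_apply, inv_mul_cancel, AlgEquiv.one_apply]
    rw [h2] at h3
    exact h3
  rw [h1]

/-- **automorphisms fixing `x` preserve the Gauss valuation ring** -/
theorem smul_eq_of_fix (x : G.O) (hx : Transcendental k (G.red x))
    [FiniteDimensional L⟮(x : FL)⟯ FL] {ι : Type*} [Fintype ι] (t : ι → G.O)
    (hcard : Fintype.card ι = Module.finrank L⟮(x : FL)⟯ FL)
    (ht : LinearIndependent k⟮G.red x⟯ (fun i => G.red (t i)))
    (δ : FL ≃ₐ[L] FL) (hδ : δ (x : FL) = x) : δ • G.O = G.O :=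
  eq_of_basis G x hx t hcard ht _ (comap_smul_of_fix G.O δ _ hδ)

/-! ### The induced automorphism of the residue function field -/

section RedAut

theorem apply_mem_iff {O : ValuationSubring FL} {δ : FL ≃ₐ[L] FL} (hδ : δ • O = O) (f : FL) :
    δ f ∈ O ↔ f ∈ O := by
  conv_lhs => rw [← hδ]
  rw [ValuationSubring.mem_pointwise_smul_iff_inv_smul_mem, AlgEquiv.smul_def,
    ← AlgEquiv.mul_apply, inv_mul_cancel, AlgEquiv.one_apply]

theorem inv_smul_eq {O : ValuationSubring FL} {δ : FL ≃ₐ[L] FL} (hδ : δ • O = O) :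
    δ⁻¹ • O = O := by
  conv_lhs => rw [← hδ]
  rw [inv_smul_smul]

theorem valuation_apply_lt_one_iff {O : ValuationSubring FL} {δ : FL ≃ₐ[L] FL}
    (hδ : δ • O = O) (f : FL) : O.valuation (δ f) < 1 ↔ O.valuation f < 1 := by
  rw [Unique.valuation_lt_one_iff, Unique.valuation_lt_one_iff, ← map_inv₀, apply_mem_iff hδ,
    EmbeddingLike.map_eq_zero_iff]

variable {G}

/-- `δ` restricted to the Gauss valuation ring -/
def mapO (δ : FL ≃ₐ[L] FL) (hδ : δ • G.O = G.O) : G.O →+* G.O where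
  toFun f := ⟨δ (f : FL), (apply_mem_iff hδ _).2 f.2⟩
  map_one' := Subtype.ext (map_one δ)
  map_mul' _ _ := Subtype.ext (map_mul δ _ _)
  map_zero' := Subtype.ext (map_zero δ)
  map_add' _ _ := Subtype.ext (map_add δ _ _)

@[simp]
theorem coe_mapO (δ : FL ≃ₐ[L] FL) (hδ : δ • G.O = G.O) (f : G.O) :
    ((mapO δ hδ f : G.O) : FL) = δ (f : FL) := rfl

theorem ker_red_le (δ : FL ≃ₐ[L] FL) (hδ : δ • G.O = G.O) :
    RingHom.ker G.red ≤ RingHom.ker (G.red.comp (mapO δ hδ)) := by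
  intro f hf
  rw [RingHom.mem_ker] at hf ⊢
  rw [RingHom.comp_apply, red_eq_zero_iff_valuation, coe_mapO, valuation_apply_lt_one_iff hδ,
    ← red_eq_zero_iff_valuation]
  exact hf

variable (hsurj : Function.Surjective G.red)

/-- the ring endomorphism of `Fk` induced by `δ` -/
def redRingHom (δ : FL ≃ₐ[L] FL) (hδ : δ • G.O = G.O) : Fk →+* Fk :=
  G.red.liftOfRightInverse (Function.surjInv hsurj) (Function.rightInverse_surjInv hsurj)
    ⟨G.red.comp (mapO δ hδ), ker_red_le δ hδ⟩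

theorem redRingHom_red (δ : FL ≃ₐ[L] FL) (hδ : δ • G.O = G.O) (f : G.O) :
    redRingHom hsurj δ hδ (G.red f) = G.red (mapO δ hδ f) :=
  G.red.liftOfRightInverse_comp_apply _ _ ⟨G.red.comp (mapO δ hδ), ker_red_le δ hδ⟩ f

/-- the `k`-algebra endomorphism of `Fk` induced by `δ` -/
def redHom (δ : FL ≃ₐ[L] FL) (hδ : δ • G.O = G.O) : Fk →ₐ[k] Fk :=
  { redRingHom hsurj δ hδ with
    commutes' := fun c => by
      obtain ⟨a, rfl⟩ := G.pi_surjective c
      show redRingHom hsurj δ hδ (algebraMap k Fk (π a)) = algebraMap k Fk (π a)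
      rw [← G.red_const, redRingHom_red]
      congr 1
      apply Subtype.ext
      rw [coe_mapO, GaussDatum.coe_const, AlgEquiv.commutes] }

theorem redHom_red (δ : FL ≃ₐ[L] FL) (hδ : δ • G.O = G.O) (f : G.O) :
    redHom hsurj δ hδ (G.red f) = G.red (mapO δ hδ f) :=
  redRingHom_red hsurj δ hδ f

theorem redHom_comp_inv (δ : FL ≃ₐ[L] FL) (hδ : δ • G.O = G.O) :
    (redHom hsurj δ hδ).comp (redHom hsurj δ⁻¹ (inv_smul_eq hδ)) = AlgHom.id k Fk := by
  ext y
  obtain ⟨f, rfl⟩ := hsurj y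
  rw [AlgHom.comp_apply, redHom_red, redHom_red, AlgHom.id_apply]
  congr 1
  apply Subtype.ext
  rw [coe_mapO, coe_mapO, ← AlgEquiv.mul_apply, mul_inv_cancel, AlgEquiv.one_apply]

theorem redHom_inv_comp (δ : FL ≃ₐ[L] FL) (hδ : δ • G.O = G.O) :
    (redHom hsurj δ⁻¹ (inv_smul_eq hδ)).comp (redHom hsurj δ hδ) = AlgHom.id k Fk := by
  ext y
  obtain ⟨f, rfl⟩ := hsurj y
  rw [AlgHom.comp_apply, redHom_red, redHom_red, AlgHom.id_apply]
  congr 1
  apply Subtype.ext
  rw [coe_mapO, coe_mapO, ← AlgEquiv.mul_apply, inv_mul_cancel, AlgEquiv.one_apply]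

/-- **the `k`-automorphism `δ̄` of `Fk` induced by an automorphism `δ` preserving the Gauss
valuation ring** -/
def redAut (δ : FL ≃ₐ[L] FL) (hδ : δ • G.O = G.O) : Fk ≃ₐ[k] Fk :=
  AlgEquiv.ofAlgHom (redHom hsurj δ hδ) (redHom hsurj δ⁻¹ (inv_smul_eq hδ))
    (redHom_comp_inv hsurj δ hδ) (redHom_inv_comp hsurj δ hδ)

/-- `δ̄ (red f) = red (δ f)` -/
theorem redAut_red (δ : FL ≃ₐ[L] FL) (hδ : δ • G.O = G.O) (f : G.O) :
    redAut hsurj δ hδ (G.red f) = G.red (mapO δ hδ f) :=
  redHom_red hsurj δ hδ f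

theorem redAut_one : redAut hsurj (1 : FL ≃ₐ[L] FL) (one_smul _ G.O) = 1 := by
  ext y
  obtain ⟨f, rfl⟩ := hsurj y
  rw [redAut_red, AlgEquiv.one_apply]
  congr 1

theorem redAut_mul (δ₁ δ₂ : FL ≃ₐ[L] FL) (h₁ : δ₁ • G.O = G.O) (h₂ : δ₂ • G.O = G.O) :
    redAut hsurj (δ₁ * δ₂) (by rw [mul_smul, h₂, h₁]) =
      redAut hsurj δ₁ h₁ * redAut hsurj δ₂ h₂ := by
  ext y
  obtain ⟨f, rfl⟩ := hsurj y
  rw [AlgEquiv.mul_apply, redAut_red, redAut_red, redAut_red]
  congr 1

end RedAut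

end Fermat.Agent.S48.B.Red.Unique1

end
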