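/-
PROJECT D (S48), part B, block B3, brick E0 (helper3): THE DIAMOND OPERATORS REDUCE:
(R0) = `Seams.DiamondRed1`.

GENERIC (`F₀`, `Fk`, `hrep : HasRep A π F₀ Fk`): an `L`-automorphism `δ` of `FL` preserving the Gauss
valuation ring `OwV`, with induced automorphism `δk` of `Fk` (`δk (redV f) = redV (δ f)`), satisfies
`Core.EquivOnIntegral` for the pair `(ofAlgAut δ, ofAlgAut δk)` and every place reduction `r`
(`equivOnIntegral_of_aut`: helper11's `GaussG.mapDomain_div_eq` on the Gauss unit `δ y`).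

`X₁(M)`: for `δ` fixing `j` and preserving the Gauss ring of `datum₁ hrep` (by brick U), with
`δk = Unique1.redAut`: `reduction1 (δ • x) = δk • reduction1 x` (`reduction1_smul_aut`).  The
diamond operator `diamond1Bar M d` is the action of `ofAlgAut (diamondAut M ℚ̄ d⁻¹)` when its
`CorrInputs` hold (`Red/CorrAut`) and zero otherwise; commutation of `Dm` with the Frobenius is
derived on `Pic0` from (R2), the surjectivity of `reduction1`, the existence of Frobenius elements
(main's `Lib/FrobeniusExists`) and helper8's `DiamondUnique.isDiamondAut_coeffMap_comm`.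

`diamondRed1_of : DiamondExists M → Deg1 M → (∀ ℓ A .., FibreHyp1 M A) → (∀ ℓ A .., StableHyp1 M A) →
  Seams.DiamondRed1 M`.
-/
import Mathlib
import Fermat.Agent.Lib.FrobeniusExists
import Fermat.Agent.S48.B.ES.DiamondUnique
import Fermat.Agent.S48.B.Red.Inputs1
import Fermat.Agent.S48.B.Red.Unique1
import Fermat.Agent.S48.B.Red.CorrAut
import Fermat.Agent.S48.B.Red.Equiv1.PlaceEquiv1

set_option autoImplicit false
set_option linter.unusedSectionVars false
set_option linter.style.haveILetI false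
set_option synthInstance.maxHeartbeats 400000

noncomputable section

namespace Fermat.Agent.S48.B.Red.Diamond1

open HahnSeries IntermediateField AlgebraicCurve AlgebraicCurve.SemilinearAut ModularCurve
  IsLocalRing
open Fermat.Agent.S48.B.Defs.Model Fermat.Agent.S48.B.Defs.Reduction
open Fermat.Agent.S48.B.Red.GaussG Fermat.Agent.S48.B.Red.Equiv1.Core
open Fermat.Agent.S18.NonSpecial (RiemannHyp)
open scoped Pointwise

/-! ### Generic part -/

section Generic

variable {L : Type*} [Field L] [Algebra ℚ L] {A : ValuationSubring L}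
variable {k : Type*} [Field k] {π : A →+* k}
variable {F₀ : IntermediateField ℚ (LaurentSeries ℚ)} {Fk : IntermediateField k (LaurentSeries k)}
variable {r : Place L (laurentBaseChange L F₀) → Place k Fk}

/-- **automorphisms preserving the Gauss valuation ring are equivariant on the integral principal
divisors** -/
theorem equivOnIntegral_of_aut [HasPrincipalDivisors L (laurentBaseChange L F₀)]
    (hrep : HasRep A π F₀ Fk)
    (δ : laurentBaseChange L F₀ ≃ₐ[L] laurentBaseChange L F₀) (δk : Fk ≃ₐ[k] Fk)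
    (hδ : ∀ f : laurentBaseChange L F₀, f ∈ OwV A π F₀ Fk hrep → δ f ∈ OwV A π F₀ Fk hrep)
    (hδk : ∀ (f : laurentBaseChange L F₀) (hf : f ∈ OwV A π F₀ Fk hrep),
      δk (redV A π F₀ Fk hrep ⟨f, hf⟩) = redV A π F₀ Fk hrep ⟨δ f, hδ f hf⟩)
    (hr : IsPlaceReductionAlongG A π F₀ Fk r) :
    EquivOnIntegral A π F₀ Fk r (ofAlgAut δ) (ofAlgAut δk) := by
  rintro D ⟨y, hy, hyk, hne, hDy⟩
  set a : ↥(intRing A π F₀ Fk) := ⟨y, hy, hyk⟩ with ha
  have haV : toFL A π F₀ Fk a ∈ OwV A π F₀ Fk hrep := toFL_mem_OwV hrep a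
  have hred : redV A π F₀ Fk hrep ⟨δ (toFL A π F₀ Fk a), hδ _ haV⟩ = δk (red A π F₀ Fk a) := by
    rw [← hδk _ haV, redV_toFL]
  have hne' : red A π F₀ Fk a ≠ 0 := fun h0 => hne (congrArg Subtype.val h0)
  have hne'' : redw A π F₀ Fk ⟨δ (toFL A π F₀ Fk a), hδ _ haV⟩ ≠ 0 := by
    have h1 : redw A π F₀ Fk ⟨δ (toFL A π F₀ Fk a), hδ _ haV⟩ = δk (red A π F₀ Fk a) := hred
    rw [h1]
    exact (map_ne_zero_iff _ δk.injective).mpr hne'
  ext Q
  have hL := mapDomain_div_eq hr ⟨δ (toFL A π F₀ Fk a), hδ _ haV⟩ hne'' (ofAlgAut δ • D)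
    (fun P => by
      rw [divisor_smul_apply, hDy]
      have h1 := ord_smul (ofAlgAut δ) ((ofAlgAut δ)⁻¹ • P)
        (⟨coeffMap A.subtype y, hy⟩ : laurentBaseChange L F₀)
      rw [smul_inv_smul, ofAlgAut_smul] at h1
      exact h1.symm) Q
  have hred' : redw A π F₀ Fk ⟨δ (toFL A π F₀ Fk a), hδ _ haV⟩ = δk (red A π F₀ Fk a) := hred
  rw [hL, hred', divisor_smul_apply, hr.2 y hy hyk hne D hDy ((ofAlgAut δk)⁻¹ • Q)]
  have h2 := ord_smul (ofAlgAut δk) ((ofAlgAut δk)⁻¹ • Q) (⟨coeffMap π y, hyk⟩ : Fk)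
  rw [smul_inv_smul, ofAlgAut_smul] at h2
  exact h2

end Generic

/-! ### `X₁(M)` -/

section X1

open Fermat.Agent.S48.B.B1.Seams (jgen1 Deg1 DiamondExists)
open Fermat.Agent.S48.B.Red.Seams (jC coe_jC)
open Fermat.Agent.S48.B.Red.Inputs1 Fermat.Agent.S48.B.Red.CoeffAut1
open Fermat.Agent.S48.B.Red.Equiv1.PlaceEquiv1
open Fermat.Agent.S48.B.ES.DiamondUnique
open Fermat.Agent.S48.B.Red.CorrAut
open Fermat.Agent.S24.FF (IsFF)

local notation "Kb" => AlgebraicClosure ℚ

variable {M : ℕ} [NeZero M] {A : ValuationSubring Kb}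

/-- instance shortcut (as in main's `S18/B/FibreX0Id`) -/
noncomputable local instance algShortcut :
    Algebra (ResidueField A) ↥(F1C M (ResidueField A)) :=
  SubalgebraClass.toAlgebra (F1C M (ResidueField A))

/-- **what brick U delivers at `A`**: a representation hypothesis such that every automorphism of
`ℚ̄(X₁(M))` fixing `j` preserves the Gauss valuation ring of its canonical datum. -/
structure StableHyp1 (M : ℕ) [NeZero M] (A : ValuationSubring Kb) : Prop where
  exists_rep : ∃ hrep : HasRep A (residue A) (F1 M) (F1C M (ResidueField A)),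
    ∀ δ : F1Bar M ≃ₐ[Kb] F1Bar M, δ (jgen1 M) = jgen1 M →
      δ • (datum₁ hrep).O = (datum₁ hrep).O

/-- `StableHyp1` from a family of `[ℚ̄(X₁(M)) : ℚ̄(j)]` Gauss-integral elements with
`κ(j̄)`-independent reductions (brick U = `Unique1.smul_eq_of_fix`). -/
theorem stableHyp1_of_basis (hD : Deg1 M)
    (hrep : HasRep A (residue A) (F1 M) (F1C M (ResidueField A)))
    {ι : Type*} [Fintype ι] (t : ι → (datum₁ hrep).O)
    (hcard : Fintype.card ι = Module.finrank Kb⟮jgen1 M⟯ (F1Bar M))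
    (ht : LinearIndependent (ResidueField A)⟮jC M (ResidueField A)⟯
      (fun i => (datum₁ hrep).red (t i))) : StableHyp1 M A := by
  refine ⟨hrep, fun δ hδ => ?_⟩
  haveI : FiniteDimensional Kb⟮jgen1 M⟯ (F1Bar M) := hD.1.finite
  have hx : Transcendental (ResidueField A)
      ((datum₁ hrep).red ⟨jgen1 M, jgen1_mem_datum₁ hrep⟩) := by
    rw [red_jgen1_datum₁ hrep]
    exact Fermat.Agent.S48.B.Inj.Basics.transcendental_jC
      (Fermat.Agent.S48.B.Red.Seams.jqModC_mem_F1C M (ResidueField A))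
  have ht' : LinearIndependent
      (ResidueField A)⟮(datum₁ hrep).red ⟨jgen1 M, jgen1_mem_datum₁ hrep⟩⟯
      (fun i => (datum₁ hrep).red (t i)) := by
    rw [red_jgen1_datum₁ hrep]
    exact ht
  exact Unique1.smul_eq_of_fix (datum₁ hrep) ⟨jgen1 M, jgen1_mem_datum₁ hrep⟩ hx t hcard ht' δ hδ

section Aut

variable (hrep : HasRep A (residue A) (F1 M) (F1C M (ResidueField A)))
variable (δ : F1Bar M ≃ₐ[Kb] F1Bar M) (hδO : δ • (datum₁ hrep).O = (datum₁ hrep).O)

/-- the automorphism of `κ(X₁(M))` induced by `δ` -/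
def redAut₁ : F1C M (ResidueField A) ≃ₐ[ResidueField A] F1C M (ResidueField A) :=
  Unique1.redAut (datum₁_red_surjective hrep) δ hδO

theorem redAut₁_red (f : (datum₁ hrep).O) :
    redAut₁ hrep δ hδO ((datum₁ hrep).red f) = (datum₁ hrep).red (Unique1.mapO δ hδO f) :=
  Unique1.redAut_red (datum₁_red_surjective hrep) δ hδO f

/-- `δ̄` fixes `j̄` when `δ` fixes `j` -/
theorem redAut₁_jC (hδj : δ (jgen1 M) = jgen1 M) :
    redAut₁ hrep δ hδO (jC M (ResidueField A)) = jC M (ResidueField A) := by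
  rw [← red_jgen1_datum₁ hrep, redAut₁_red]
  congr 1
  exact Subtype.ext hδj

/-- **every place reduction of `X₁(M)` is equivariant for `(δ, δ̄)`** -/
theorem placeMap_smul_aut (hF : FibreHyp1 M A) (hδj : δ (jgen1 M) = jgen1 M)
    {r : Place Kb (F1Bar M) → Place (ResidueField A) (F1C M (ResidueField A))}
    (hr : IsPlaceReductionAlongG A (residue A) (F1 M) (F1C M (ResidueField A)) r)
    (hgen : PrincipalGeneratedByIntegralG A (residue A) (F1 M) (F1C M (ResidueField A)))
    (P : Place Kb (F1Bar M)) :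
    r (ofAlgAut δ • P) = ofAlgAut (redAut₁ hrep δ hδO) • r P := by
  obtain ⟨gL, hR⟩ := hF.riemann
  have hpd := hF.pd
  have hδ' : ∀ f : F1Bar M, f ∈ OwV A (residue A) (F1 M) (F1C M (ResidueField A)) hrep →
      δ f ∈ OwV A (residue A) (F1 M) (F1C M (ResidueField A)) hrep :=
    fun f hf => (Unique1.apply_mem_iff hδO f).2 hf
  refine Fermat.Agent.S48.B.Red.Equiv1.Core.placeMap_smul hR
    (equivOnIntegral_of_aut hrep δ (redAut₁ hrep δ hδO) hδ'
      (fun f hf => redAut₁_red hrep δ hδO ⟨f, hf⟩) hr) hgen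
    (exists_sep (jgen1 M) (jC M (ResidueField A)) ?_ ?_
      hF.ex0 hF.ex1 (hF.map0 r hr) (hF.map1 r hr)) P
  · rw [ofAlgAut_smul, hδj]
  · rw [ofAlgAut_smul, redAut₁_jC hrep δ hδO hδj]

/-- **`reduction1 (δ • x) = δ̄ • reduction1 x`** -/
theorem reduction1_smul_aut (hF : FibreHyp1 M A) (hδj : δ (jgen1 M) = jgen1 M) (x : J1 M) :
    reduction1 A M (ofAlgAut δ • x) = ofAlgAut (redAut₁ hrep δ hδO) • reduction1 A M x :=
  reductionAlongG_smul (fun _ hr hgen P => placeMap_smul_aut hrep δ hδO hF hδj hr hgen P) x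

end Aut

/-! ### The diamond automorphisms -/

theorem jgen1_eq_jGen : jgen1 M = jGen M Kb 1 (one_dvd M) := by
  apply Subtype.ext
  rw [coe_jgen1]
  show coeffEmb Kb jq = coeffEmb Kb (qExpand ℚ 1 jq)
  rw [qExpand_one_apply]

theorem diamondAut_jgen1 (hDia : DiamondExists M) (d : (ZMod M)ˣ) :
    diamondAut M Kb d (jgen1 M) = jgen1 M := by
  rw [jgen1_eq_jGen]
  exact apply_jGen (isDiamondAut_diamondAut M Kb (hDia Kb d)) 1 (one_dvd M)

/-- the diamond automorphisms commute with the Galois action on functions -/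
theorem arithmeticGalois_mul_ofAlgAut (hDia : DiamondExists M) (d : (ZMod M)ˣ)
    (σ : Kb ≃ₐ[ℚ] Kb) :
    arithmeticGalois (F1 M) σ * ofAlgAut (diamondAut M Kb d)
      = ofAlgAut (diamondAut M Kb d) * arithmeticGalois (F1 M) σ := by
  have h := isDiamondAut_diamondAut M Kb (hDia Kb d)
  refine Subtype.ext (Prod.ext (RingEquiv.ext fun y => ?_) ?_)
  · have h1 := isDiamondAut_coeffMap_comm (σ : Kb →+* Kb) h h y
    exact h1
  · show σ.toRingEquiv * 1 = 1 * σ.toRingEquiv
    rw [mul_one, one_mul]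

/-- the diamond automorphisms commute with the Galois action on `J₁(M)` -/
theorem galois_smul_ofAlgAut_comm (hDia : DiamondExists M) (d : (ZMod M)ˣ) (σ : Kb ≃ₐ[ℚ] Kb)
    (x : J1 M) :
    σ • (ofAlgAut (diamondAut M Kb d) • x) = ofAlgAut (diamondAut M Kb d) • (σ • x) := by
  rw [galois_smul_pic0_def, galois_smul_pic0_def, ← mul_smul, ← mul_smul,
    arithmeticGalois_mul_ofAlgAut hDia d σ]

/-- the reduction map is onto when the inputs are available -/
theorem reduction1_surjective (hx : IsFF Kb (jgen1 M)) (h : ReductionInputs1 A M) :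
    Function.Surjective (reduction1 A M) := by
  intro y
  obtain ⟨E, rfl⟩ := Pic0.mk_surjective y
  have hs := Fermat.Agent.S48.B.Red.Gauss1.placeReduction_surjective₁ hx h
  set s := Function.surjInv hs with hsdef
  have hrs : h.choose ∘ s = id := funext (Function.rightInverse_surjInv hs)
  set D : Divisor Kb (F1Bar M) := Finsupp.mapDomain s (E : Divisor _ _) with hDdef
  have hmap : Finsupp.mapDomain h.choose D = (E : Divisor _ _) := by
    rw [hDdef, ← Finsupp.mapDomain_comp, hrs, Finsupp.mapDomain_id]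
  have hD0 : D ∈ Divisor.degZero (K := Kb) (F := F1Bar M) := by
    rw [Divisor.mem_degZero, ← degree_mapDomain_of_deg_eqG h.choose_spec.1.1 D, hmap]
    exact Divisor.mem_degZero.1 E.2
  refine ⟨Pic0.mk ⟨D, hD0⟩, ?_⟩
  rw [reductionAlongG_mk h]
  exact congrArg Pic0.mk (Subtype.ext hmap)

/-- the diamond operator, unfolded -/
theorem diamond1Bar_apply (d : (ZMod M)ˣ) (x : J1 M) :
    diamond1Bar M d x
      = corrOp (diamondAut M Kb d⁻¹).toAlgHom (AlgHom.id Kb (F1Bar M)) x := rfl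

/-- the diamond operator is the action of the diamond automorphism, or zero -/
theorem diamond1Bar_eq_smul (d : (ZMod M)ˣ)
    (h : CorrInputs (diamondAut M Kb d⁻¹).toAlgHom (AlgHom.id Kb (F1Bar M))) (x : J1 M) :
    diamond1Bar M d x = ofAlgAut (diamondAut M Kb d⁻¹) • x := by
  rw [diamond1Bar_apply]
  exact corrOp_algEquiv _ h x

theorem diamond1Bar_eq_zero (d : (ZMod M)ˣ)
    (h : ¬ CorrInputs (diamondAut M Kb d⁻¹).toAlgHom (AlgHom.id Kb (F1Bar M))) (x : J1 M) :
    diamond1Bar M d x = 0 := by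
  rw [diamond1Bar_apply, corrOp_of_not h, AddMonoidHom.zero_apply]

/-- Frobenius commutes with the reduction of an automorphism commuting with the Galois action -/
theorem smul_frobPic0₁_comm (hFA : FibreHyp1 M A)
    (hrep : HasRep A (residue A) (F1 M) (F1C M (ResidueField A)))
    (δ : F1Bar M ≃ₐ[Kb] F1Bar M) (hδO : δ • (datum₁ hrep).O = (datum₁ hrep).O)
    (hδj : δ (jgen1 M) = jgen1 M) (ℓ : ℕ) [Fact ℓ.Prime]
    [CharP (ResidueField A) ℓ] [PerfectField (ResidueField A)]
    {σ : Kb ≃ₐ[ℚ] Kb} (hσ : A.IsFrobeniusAt σ ℓ)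
    (hcomm : ∀ x : J1 M, σ • (ofAlgAut δ • x) = ofAlgAut δ • (σ • x)) (x : J1 M) :
    ofAlgAut (redAut₁ hrep δ hδO) • frobPic0₁ M (ResidueField A) ℓ (reduction1 A M x)
      = frobPic0₁ M (ResidueField A) ℓ (ofAlgAut (redAut₁ hrep δ hδO) • reduction1 A M x) := by
  have e1 := reduction1_smul_frobenius hFA ℓ hσ x
  have e2 := reduction1_smul_aut hrep δ hδO hFA hδj (σ • x)
  have e3 := reduction1_smul_aut hrep δ hδO hFA hδj x
  have e4 := reduction1_smul_frobenius hFA ℓ hσ (ofAlgAut δ • x)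
  have e5 : reduction1 A M (ofAlgAut δ • (σ • x)) = reduction1 A M (σ • (ofAlgAut δ • x)) :=
    congrArg (reduction1 A M) (hcomm x).symm
  exact ((congrArg (fun z => ofAlgAut (redAut₁ hrep δ hδO) • z) e1).symm.trans
    (e2.symm.trans (e5.trans e4))).trans
      (congrArg (fun z => frobPic0₁ M (ResidueField A) ℓ z) e3)

/-- the reduced diamond automorphism commutes with the Frobenius on `Pic⁰` (term-mode on purpose:
`obtain` is slow in this context) -/
theorem redDiamond_frob_comm (hDia : DiamondExists M) (hD : Deg1 M) {ℓ : ℕ} [hℓ : Fact ℓ.Prime]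
    (hA : A.LiesOverPrime ℓ) (hFA : FibreHyp1 M A)
    (hrep : HasRep A (residue A) (F1 M) (F1C M (ResidueField A)))
    (d : (ZMod M)ˣ)
    (hδO : diamondAut M Kb d • (datum₁ hrep).O = (datum₁ hrep).O)
    (hR : ReductionInputs1 A M)
    [CharP (ResidueField A) ℓ] [PerfectField (ResidueField A)]
    (y : J1C M (ResidueField A)) :
    ofAlgAut (redAut₁ hrep (diamondAut M Kb d) hδO) • frobPic0₁ M (ResidueField A) ℓ y
      = frobPic0₁ M (ResidueField A) ℓ (ofAlgAut (redAut₁ hrep (diamondAut M Kb d) hδO) • y) := by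
  have key : ∀ x : J1 M,
      ofAlgAut (redAut₁ hrep (diamondAut M Kb d) hδO) •
          frobPic0₁ M (ResidueField A) ℓ (reduction1 A M x)
        = frobPic0₁ M (ResidueField A) ℓ
          (ofAlgAut (redAut₁ hrep (diamondAut M Kb d) hδO) • reduction1 A M x) :=
    Exists.elim
      (Fermat.Agent.Lib.FrobeniusExists.exists_isFrobeniusAt_algebraicClosure A hℓ.out hA)
      fun σ hσ x => smul_frobPic0₁_comm hFA hrep _ hδO (diamondAut_jgen1 hDia d) ℓ hσ
        (fun x => galois_smul_ofAlgAut_comm hDia d σ x) x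
  exact Exists.elim (reduction1_surjective hD.1 hR y) fun x hx =>
    (congrArg (fun z : J1C M (ResidueField A) =>
      ofAlgAut (redAut₁ hrep (diamondAut M Kb d) hδO) • frobPic0₁ M (ResidueField A) ℓ z) hx).symm.trans
    ((key x).trans (congrArg (fun z : J1C M (ResidueField A) =>
      frobPic0₁ M (ResidueField A) ℓ (ofAlgAut (redAut₁ hrep (diamondAut M Kb d) hδO) • z)) hx))

/-- the local form of (R0) at one `A`, when all the inputs are available -/
theorem exists_dm_of_inputs (hDia : DiamondExists M) (hD : Deg1 M) {ℓ : ℕ} [hℓ : Fact ℓ.Prime]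
    (hA : A.LiesOverPrime ℓ) (hFA : FibreHyp1 M A)
    (hrep : HasRep A (residue A) (F1 M) (F1C M (ResidueField A)))
    (d : (ZMod M)ˣ)
    (hδO : diamondAut M Kb d⁻¹ • (datum₁ hrep).O = (datum₁ hrep).O)
    (hC : CorrInputs (diamondAut M Kb d⁻¹).toAlgHom (AlgHom.id Kb (F1Bar M)))
    (hR : ReductionInputs1 A M)
    [CharP (ResidueField A) ℓ] [PerfectField (ResidueField A)] :
    ∃ Dm : J1C M (ResidueField A) →+ J1C M (ResidueField A),
      (∀ x : J1 M, reduction1 A M (diamond1Bar M d x) = Dm (reduction1 A M x)) ∧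
      ∀ y : J1C M (ResidueField A),
        Dm (frobPic0₁ M (ResidueField A) ℓ y) = frobPic0₁ M (ResidueField A) ℓ (Dm y) :=
  ⟨DistribSMul.toAddMonoidHom (J1C M (ResidueField A))
      (ofAlgAut (redAut₁ hrep (diamondAut M Kb d⁻¹) hδO)),
    fun x => (congrArg (reduction1 A M) (diamond1Bar_eq_smul d hC x)).trans
      (reduction1_smul_aut hrep _ hδO hFA (diamondAut_jgen1 hDia d⁻¹) x),
    fun y => redDiamond_frob_comm hDia hD hA hFA hrep d⁻¹ hδO hR y⟩

/-- the local form of (R0) at one `A`, when some input is missing (all maps are zero) -/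
theorem exists_dm_of_not {ℓ : ℕ} [hℓ : Fact ℓ.Prime]
    (d : (ZMod M)ˣ)
    (hC : ¬ (CorrInputs (diamondAut M Kb d⁻¹).toAlgHom (AlgHom.id Kb (F1Bar M)) ∧
      ReductionInputs1 A M))
    [CharP (ResidueField A) ℓ] [PerfectField (ResidueField A)] :
    ∃ Dm : J1C M (ResidueField A) →+ J1C M (ResidueField A),
      (∀ x : J1 M, reduction1 A M (diamond1Bar M d x) = Dm (reduction1 A M x)) ∧
      ∀ y : J1C M (ResidueField A),
        Dm (frobPic0₁ M (ResidueField A) ℓ y) = frobPic0₁ M (ResidueField A) ℓ (Dm y) := by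
  refine ⟨0, fun x => ?_, fun y => ?_⟩
  · rw [AddMonoidHom.zero_apply]
    rcases not_and_or.1 hC with h1 | h2
    · exact (congrArg (reduction1 A M) (diamond1Bar_eq_zero d h1 x)).trans (map_zero _)
    · have h3 : reduction1 A M = 0 := reductionAlongG_of_not h2
      exact congrFun (congrArg DFunLike.coe h3) _
  · rw [AddMonoidHom.zero_apply, AddMonoidHom.zero_apply, map_zero]

/-- the local form of (R0) at one `A` -/
theorem exists_dm (hDia : DiamondExists M) (hD : Deg1 M) {ℓ : ℕ} [hℓ : Fact ℓ.Prime]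
    (hA : A.LiesOverPrime ℓ) (hFA : FibreHyp1 M A) (hU : StableHyp1 M A)
    [CharP (ResidueField A) ℓ] [PerfectField (ResidueField A)] (d : (ZMod M)ˣ) :
    ∃ Dm : J1C M (ResidueField A) →+ J1C M (ResidueField A),
      (∀ x : J1 M, reduction1 A M (diamond1Bar M d x) = Dm (reduction1 A M x)) ∧
      ∀ y : J1C M (ResidueField A),
        Dm (frobPic0₁ M (ResidueField A) ℓ y) = frobPic0₁ M (ResidueField A) ℓ (Dm y) :=
  Exists.elim hU.exists_rep fun hrep hst =>
    (em (CorrInputs (diamondAut M Kb d⁻¹).toAlgHom (AlgHom.id Kb (F1Bar M)) ∧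
      ReductionInputs1 A M)).elim
      (fun hC => exists_dm_of_inputs hDia hD hA hFA hrep d
        (hst (diamondAut M Kb d⁻¹) (diamondAut_jgen1 hDia d⁻¹)) hC.1 hC.2)
      (fun hC => exists_dm_of_not d hC)

variable (M)

/-- **(R0) = `Seams.DiamondRed1`**: the diamond operators reduce, and their reductions commute with
the Frobenius. -/
theorem diamondRed1_of (hDia : DiamondExists M) (hD : Deg1 M)
    (hF : ∀ ℓ : ℕ, ℓ.Prime → ¬ ℓ ∣ M → ∀ A : ValuationSubring Kb, A.LiesOverPrime ℓ →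
      FibreHyp1 M A)
    (hU : ∀ ℓ : ℕ, ℓ.Prime → ¬ ℓ ∣ M → ∀ A : ValuationSubring Kb, A.LiesOverPrime ℓ →
      StableHyp1 M A) : Fermat.Agent.S48.B.Red.Seams.DiamondRed1 M :=
  fun ℓ hℓ hℓM A hA _ _ d =>
    exists_dm hDia hD hA (hF ℓ hℓ.out hℓM A hA) (hU ℓ hℓ.out hℓM A hA) d

end X1

end Fermat.Agent.S48.B.Red.Diamond1

end
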