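/-
PROJECT D (S48), part B, block B3 (helper11): THE GLUE `HasReduction1All M p` FROM THE SEAMS OF THE
GEOMETRIC BLOCKS (twin of main's `S37/Glue.hasReduction_of_reductionInputs`).

`red = reduction1 A M`, `Fb = frobPic0₁ M κ(A) ℓ`, `V = verPic0₁ M κ(A) ℓ = ℓ ∘ Fb⁻¹`, `Dm` = the
endomorphism of `Seams.DiamondRed1` for `d = ℓ`.

* `Seams.Inertia1 M` (R1), `Seams.Frobenius1 M` (R2), `Seams.DiamondRed1 M` (R0): block B3;
* `ES1 M` (R3'): **the Eichler-Shimura relation in a form which does not mention `Dm`**: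
  `red (T_ℓ x) = Fb (red x) + V (red (⟨ℓ⟩_* x))` (block [B-ES]);
* `Inj1 M p` (R4): `red` is injective on `p`-power torsion, `ℓ ≠ p` (block B4).
-/
import Mathlib
import Fermat.Agent.S18.ResidueBasics
import Fermat.Agent.S48.B.Red.Seams

set_option autoImplicit false
set_option linter.style.haveILetI false

noncomputable section

namespace Fermat.Agent.S48.B.Red.Glue1

open ModularCurve AlgebraicCurve IsLocalRing
open Fermat.Agent.S48.B.Defs.Model Fermat.Agent.S48.B.Defs.Reduction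
open Fermat.Agent.S48.B.Red.Seams Fermat.Agent.S48.B.Red.CoeffAut1

local notation "Kb" => AlgebraicClosure ℚ

variable (M : ℕ) [NeZero M]

/-- **(R3')**, seam of block [B-ES]: the Eichler-Shimura relation
`red (T_ℓ x) = Fb (red x) + V (red (⟨ℓ⟩_* x))`, `T_ℓ = hecke1Bar M ℓ` the standard operator. -/
def ES1 : Prop :=
  ∀ (ℓ : ℕ) [hℓ : Fact ℓ.Prime] (hℓM : ℓ.Coprime M) (A : ValuationSubring Kb),
    A.LiesOverPrime ℓ → ∀ [CharP (ResidueField A) ℓ] [PerfectField (ResidueField A)] (x : J1 M),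
      reduction1 A M (hecke1Bar M ⟨ℓ, hℓ.out⟩ x) =
        frobPic0₁ M (ResidueField A) ℓ (reduction1 A M x) +
          verPic0₁ M (ResidueField A) ℓ
            (reduction1 A M (diamond1Bar M (ZMod.unitOfCoprime ℓ hℓM) x))

/-- **(R4)**, seam of block B4: `reduction1 A M` is injective on `p`-power torsion, `ℓ ≠ p`. -/
def Inj1 (p : ℕ) : Prop :=
  ∀ ℓ : ℕ, ℓ.Prime → ¬ ℓ ∣ M → ℓ ≠ p → ∀ A : ValuationSubring Kb, A.LiesOverPrime ℓ →
    ∀ x : J1 M, (∃ n : ℕ, p ^ n • x = 0) → reduction1 A M x = 0 → x = 0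

variable {M}

/-- an additive endomorphism commuting with an additive automorphism commutes with its inverse -/
theorem comm_symm {X : Type*} [AddCommGroup X] (Fb : X ≃+ X) (Dm : X →+ X)
    (h : ∀ y, Dm (Fb y) = Fb (Dm y)) (y : X) : Dm (Fb.symm y) = Fb.symm (Dm y) := by
  apply Fb.injective
  rw [← h, AddEquiv.apply_symm_apply, AddEquiv.apply_symm_apply]

/-- **The glue**: `HasReduction1All M p` from the seams of the geometric blocks. -/
theorem hasReduction1All_of {p : ℕ} (hI : Inertia1 M) (hF : Frobenius1 M) (hD : DiamondRed1 M)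
    (hES : ES1 M) (hInj : Inj1 M p) : HasReduction1All M p := by
  intro ℓ hℓ hℓM hℓp A hA
  haveI : Fact ℓ.Prime := ⟨hℓ⟩
  have hndvd : ¬ ℓ ∣ M := fun h => hℓ.ne_one (Nat.Coprime.eq_one_of_dvd hℓM h)
  haveI : CharP (ResidueField A) ℓ := Fermat.Agent.S18.ResidueBasics.charP_residueField A hA
  haveI : IsAlgClosed (ResidueField A) :=
    Fermat.Agent.S18.ResidueBasics.isAlgClosed_residueField A
  haveI : PerfectField (ResidueField A) := inferInstance
  obtain ⟨Dm, hR0, hDF⟩ := hD ℓ hndvd A hA (ZMod.unitOfCoprime ℓ hℓM)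
  refine ⟨J1C M (ResidueField A), inferInstance, reduction1 A M,
    (frobPic0₁ M (ResidueField A) ℓ).toAddMonoidHom, verPic0₁ M (ResidueField A) ℓ, Dm,
    ?_, ?_, ?_, hR0, hI ℓ hℓ hndvd A hA, ?_, ?_, hInj ℓ hℓ hndvd hℓp A hA⟩
  · intro y
    exact verPic0₁_frobPic0₁ M (ResidueField A) ℓ y
  · intro y
    exact hDF y
  · intro y
    rw [verPic0₁_apply, verPic0₁_apply, map_nsmul,
      comm_symm (frobPic0₁ M (ResidueField A) ℓ) Dm hDF]
  · intro σ hσ x
    exact hF ℓ hndvd A hA σ hσ x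
  · intro x
    rw [hES ℓ hℓM A hA x, hR0]
    rfl

end Fermat.Agent.S48.B.Red.Glue1

end
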