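import Mathlib
import Fermat.Agent.S18.C.GaussA
import Fermat.Agent.S18.ResidueBasics
import Fermat.Agent.S37.Deuring.OrthoBasis
import Fermat.Agent.S48.B.Red.GaussG
import Fermat.Agent.S48.B.Red.DatumG
import Fermat.Agent.S48.B.Red.Gauss1
import Fermat.Agent.S48.B.Red.Bases1.Core

/-!
# PROJECT D (S48), part B, block B3 (reduction of `X₁(M)`), brick B (helper1)

From the degree equality `[F1C M k : k(j̄)] = [F1Bar M : ℚ̄(j)]` (the seam `IgusaDeg` of block B2):

* `hasRep_of_deg` : `GaussG.HasRep A π (F1 M) (F1C M k)` (every nonzero function is `c · a / b`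
  with `a, b` integral of nonzero reduction);
* `gaussDatumOfDeg` : the Gauss datum `DatumG.datumOfRep` of `(F1Bar M, F1C M k)`;
  `red_surjective_of_deg`, `jgen1_mem_O_of_deg`, `red_jgen1_of_deg`;
* `exists_basis_O_of_deg`, `ob_of_deg : (gaussDatumOfDeg ..).OB`;
* the same at `k = ResidueField A`, `π = residue A` from `Seams.IgusaDeg M`: `hasRep_of_igusa`,
  `gaussDatumIgusa`, `red_surjective_igusa`, `jgen1_mem_O_igusa`, `red_jgen1_igusa`, `ob_igusa`,
  `finrank_eq_igusa`.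
-/

set_option autoImplicit false
set_option linter.unusedSectionVars false

noncomputable section

namespace Fermat.Agent.S48.B.Red.Bases1

open HahnSeries ModularCurve IntermediateField Polynomial IsLocalRing
open Fermat.Agent.S48.B.Defs.Model Fermat.Agent.S48.B.B1.Seams
open Fermat.Agent.S48.B.Red.Seams (jC coe_jC IgusaDeg)
open Fermat.Agent.S48.B.Red.GaussG Fermat.Agent.S48.B.Red.DatumG
open Fermat.Agent.S48.B.Red.Gauss1 (intLift coe_toFL_intLift coe_red_intLift generatedByReductions₁)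
open Fermat.Agent.S37.Deuring.Core (GaussDatum)
open Fermat.Agent.S48.B.Red.Bases1.Core

local notation "Kb" => AlgebraicClosure ℚ

variable (M : ℕ) [NeZero M] {k : Type*} [Field k] (A : ValuationSubring Kb) (π : ↥A →+* k)

/-! ### integral polynomials in `j`, integral lifts -/

theorem evJ_mem_intRing (Q : (↥A)[X]) : evJ ↥A Q ∈ intRing A π (F1 M) (F1C M k) := by
  rw [mem_intRing, coeffMap_evJ, coeffMap_evJ]
  constructor
  · rw [← coe_aeval_jgen1 M]
    exact SetLike.coe_mem _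
  · rw [← coe_aeval_jC M]
    exact SetLike.coe_mem _

/-- `Q(j)` as an integral element -/
def evI (Q : (↥A)[X]) : ↥(intRing A π (F1 M) (F1C M k)) := ⟨evJ ↥A Q, evJ_mem_intRing M A π Q⟩

theorem toFL_evI (Q : (↥A)[X]) :
    toFL A π (F1 M) (F1C M k) (evI M A π Q) = aeval (jgen1 M) (Q.map A.subtype) :=
  Subtype.ext (by rw [coe_toFL, coe_aeval_jgen1]; exact coeffMap_evJ _ _)

theorem red_evI (Q : (↥A)[X]) :
    red A π (F1 M) (F1C M k) (evI M A π Q) = aeval (jC M k) (Q.map π) :=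
  Subtype.ext (by rw [coe_red, coe_aeval_jC]; exact coeffMap_evJ _ _)

/-- a `ℤ`-integral element as an integral element over `A` -/
def liftI (y : ↥(intZ M)) : ↥(intRing A π (F1 M) (F1C M k)) := intLift A π M y.1 y.2

theorem toFL_liftI (y : ↥(intZ M)) : toFL A π (F1 M) (F1C M k) (liftI M A π y) = toL M Kb y :=
  Subtype.ext (by
    rw [liftI, coe_toFL_intLift, coe_toL]
    exact (coeffMap_intCast_eq Kb _).symm)

theorem red_liftI (y : ↥(intZ M)) : red A π (F1 M) (F1C M k) (liftI M A π y) = redZ M k y :=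
  Subtype.ext (by rw [liftI, coe_red_intLift, coe_redZ])

/-! ### `HasRep` from the compatible bases -/

theorem aeval_jgen1_scale (c : Kb) (q : (↥A)[X]) :
    aeval (jgen1 M) (Polynomial.C c * q.map A.subtype) =
      algebraMap Kb ↥(F1Bar M) c * toFL A π (F1 M) (F1C M k) (evI M A π q) := by
  rw [map_mul, Polynomial.aeval_C, toFL_evI]

/-- **`HasRep` for `(F1 M, F1C M k)`**, from the degree equality. -/
theorem hasRep_of_deg [FiniteDimensional ↥k⟮jC M k⟯ ↥(F1C M k)]
    (hdeg : Module.finrank ↥k⟮jC M k⟯ ↥(F1C M k) = Module.finrank ↥Kb⟮jgen1 M⟯ ↥(F1Bar M)) :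
    HasRep A π (F1 M) (F1C M k) := by
  classical
  intro f hf
  obtain ⟨n, t, bL, bk, hbL, hbk⟩ := exists_bases M A π hdeg
  -- numerators and denominators of the coordinates
  have hrep : ∀ i, ∃ r s : Kb[X], aeval (jgen1 M) s ≠ 0 ∧
      ((bL.repr f i : ↥Kb⟮jgen1 M⟯) : ↥(F1Bar M)) * aeval (jgen1 M) s = aeval (jgen1 M) r := by
    intro i
    obtain ⟨r, s, hrs⟩ := (IntermediateField.mem_adjoin_simple_iff Kb _).1 (bL.repr f i).2
    by_cases hs : aeval (jgen1 M) s = 0
    · refine ⟨0, 1, ?_, ?_⟩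
      · rw [map_one]
        exact one_ne_zero
      · rw [hrs, hs, div_zero, zero_mul, map_zero]
    · exact ⟨r, s, hs, by rw [hrs, div_mul_cancel₀ _ hs]⟩
  choose r s hs hrs using hrep
  set S : Kb[X] := ∏ i, s i with hSdef
  set P : Fin n → Kb[X] := fun i => r i * ∏ m ∈ Finset.univ.erase i, s m with hPdef
  have hS : aeval (jgen1 M) S ≠ 0 := by
    rw [hSdef, map_prod]
    exact Finset.prod_ne_zero_iff.2 fun i _ => hs i
  have hS0 : S ≠ 0 := by
    intro h0
    rw [h0, map_zero] at hS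
    exact hS rfl
  have hcP : ∀ i, ((bL.repr f i : ↥Kb⟮jgen1 M⟯) : ↥(F1Bar M)) * aeval (jgen1 M) S =
      aeval (jgen1 M) (P i) := by
    intro i
    have h1 : S = s i * ∏ m ∈ Finset.univ.erase i, s m :=
      (Finset.mul_prod_erase _ _ (Finset.mem_univ i)).symm
    rw [h1, map_mul, ← mul_assoc, hrs i, ← map_mul]
  have hf_sum : f = ∑ i, ((bL.repr f i : ↥Kb⟮jgen1 M⟯) : ↥(F1Bar M)) * toL M Kb (t i) := by
    conv_lhs => rw [← bL.sum_repr f]
    refine Finset.sum_congr rfl fun i _ => ?_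
    rw [Algebra.smul_def, hbL]
    rfl
  have hF4 : f * aeval (jgen1 M) S = ∑ i, aeval (jgen1 M) (P i) * toL M Kb (t i) := by
    conv_lhs => rw [hf_sum]
    rw [Finset.sum_mul]
    refine Finset.sum_congr rfl fun i _ => ?_
    rw [← hcP i]
    ring
  have hPne : ∃ i, P i ≠ 0 := by
    by_contra hall
    have hall' : ∀ i, P i = 0 := fun i => by
      by_contra h
      exact hall ⟨i, h⟩
    apply hf
    have h1 : f * aeval (jgen1 M) S = 0 := by
      rw [hF4]
      refine Finset.sum_eq_zero fun i _ => ?_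
      rw [hall' i, map_zero, zero_mul]
    exact (mul_eq_zero.1 h1).resolve_right hS
  obtain ⟨cP, Q, hcP0, ⟨i0, hQi0⟩, hPQ⟩ :=
    Fermat.Agent.S37.Gauss.HasRep.exists_scale_family π P hPne
  obtain ⟨cs, s0, hcs0, hs0π, hss0⟩ := Fermat.Agent.S18.C.GaussA.exists_scale_poly π S hS0
  refine ⟨cP / cs, ∑ i, evI M A π (Q i) * liftI M A π (t i), evI M A π s0,
    div_ne_zero hcP0 hcs0, ?_, ?_, ?_⟩
  · -- the reduction of the numerator
    have h1 : red A π (F1 M) (F1C M k) (∑ i, evI M A π (Q i) * liftI M A π (t i)) =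
        ∑ i, (aeval (AdjoinSimple.gen k (jC M k)) ((Q i).map π) : ↥k⟮jC M k⟯) • bk i := by
      rw [map_sum]
      refine Finset.sum_congr rfl fun i _ => ?_
      rw [map_mul, red_evI, red_liftI, Algebra.smul_def, hbk]
      congr 1
      exact (AdjoinSimple.coe_aeval_gen_apply k (jC M k) _).symm
    rw [h1]
    intro h0
    have h2 := Fintype.linearIndependent_iff.1 bk.linearIndependent _ h0 i0
    have h3 : aeval (jC M k) ((Q i0).map π) = 0 := by
      rw [← AdjoinSimple.coe_aeval_gen_apply, h2]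
      rfl
    exact hQi0 (transcendental_iff.1 (transcendental_jC M k) _ h3)
  · rw [red_evI]
    intro h0
    exact hs0π (transcendental_iff.1 (transcendental_jC M k) _ h0)
  · -- the identity
    have hF1 : aeval (jgen1 M) S =
        algebraMap Kb ↥(F1Bar M) cs * toFL A π (F1 M) (F1C M k) (evI M A π s0) := by
      rw [hss0, aeval_jgen1_scale M A π]
    have hF2 : ∀ i, aeval (jgen1 M) (P i) =
        algebraMap Kb ↥(F1Bar M) cP * toFL A π (F1 M) (F1C M k) (evI M A π (Q i)) := by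
      intro i
      rw [hPQ i, aeval_jgen1_scale M A π]
    have hcs' : algebraMap Kb ↥(F1Bar M) cs ≠ 0 :=
      (map_ne_zero_iff _ (algebraMap Kb ↥(F1Bar M)).injective).mpr hcs0
    have key : f * toFL A π (F1 M) (F1C M k) (evI M A π s0) * algebraMap Kb ↥(F1Bar M) cs =
        algebraMap Kb ↥(F1Bar M) cP *
          toFL A π (F1 M) (F1C M k) (∑ i, evI M A π (Q i) * liftI M A π (t i)) := by
      have e1 : f * toFL A π (F1 M) (F1C M k) (evI M A π s0) * algebraMap Kb ↥(F1Bar M) cs =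
          f * aeval (jgen1 M) S := by
        rw [hF1]
        ring
      rw [e1, hF4, map_sum, Finset.mul_sum]
      refine Finset.sum_congr rfl fun i _ => ?_
      rw [hF2 i, map_mul, toFL_liftI]
      ring
    rw [map_div₀, div_mul_eq_mul_div, eq_div_iff hcs']
    exact key

/-! ### the Gauss datum, `j`, the orthonormal basis -/

section Datum

variable [FiniteDimensional ↥k⟮jC M k⟯ ↥(F1C M k)]
  (hdeg : Module.finrank ↥k⟮jC M k⟯ ↥(F1C M k) = Module.finrank ↥Kb⟮jgen1 M⟯ ↥(F1Bar M))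
  (hπs : Function.Surjective π) (hπ : ∀ a : ↥A, ¬ IsUnit a → π a = 0)

/-- **The Gauss datum of `(F1Bar M, F1C M k)`**, from the degree equality. -/
def gaussDatumOfDeg : GaussDatum A π ↥(F1Bar M) ↥(F1C M k) :=
  datumOfRep (hasRep_of_deg M A π hdeg) hπs hπ

theorem gaussDatumOfDeg_O :
    (gaussDatumOfDeg M A π hdeg hπs hπ).O = OwV A π (F1 M) (F1C M k) (hasRep_of_deg M A π hdeg) :=
  rfl

theorem gaussDatumOfDeg_red :
    (gaussDatumOfDeg M A π hdeg hπs hπ).red =
      redV A π (F1 M) (F1C M k) (hasRep_of_deg M A π hdeg) := rfl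

theorem red_surjective_of_deg : Function.Surjective (gaussDatumOfDeg M A π hdeg hπs hπ).red :=
  datumOfRep_red_surjective (hasRep_of_deg M A π hdeg) hπs hπ (generatedByReductions₁ A π M)

/-- integral elements lie in the Gauss valuation ring -/
theorem toFL_mem_O_of_deg (a : ↥(intRing A π (F1 M) (F1C M k))) :
    toFL A π (F1 M) (F1C M k) a ∈ (gaussDatumOfDeg M A π hdeg hπs hπ).O :=
  toFL_mem_OwV (hasRep_of_deg M A π hdeg) a

/-- on integral elements the reduction is the coefficientwise reduction -/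
theorem red_toFL_of_deg (a : ↥(intRing A π (F1 M) (F1C M k))) :
    (gaussDatumOfDeg M A π hdeg hπs hπ).red
        ⟨toFL A π (F1 M) (F1C M k) a, toFL_mem_O_of_deg M A π hdeg hπs hπ a⟩ =
      red A π (F1 M) (F1C M k) a :=
  redV_toFL (hasRep_of_deg M A π hdeg) a

/-- `ℤ`-integral elements of `F1 M` lie in the Gauss valuation ring -/
theorem toL_mem_O_of_deg (y : ↥(intZ M)) :
    toL M Kb y ∈ (gaussDatumOfDeg M A π hdeg hπs hπ).O := by
  rw [← toFL_liftI M A π y]
  exact toFL_mem_O_of_deg M A π hdeg hπs hπ _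

/-- their reduction is the reduction of the coefficients -/
theorem red_toL_of_deg (y : ↥(intZ M)) :
    (gaussDatumOfDeg M A π hdeg hπs hπ).red ⟨toL M Kb y, toL_mem_O_of_deg M A π hdeg hπs hπ y⟩ =
      redZ M k y := by
  have h1 : (⟨toL M Kb y, toL_mem_O_of_deg M A π hdeg hπs hπ y⟩ :
      ↥(gaussDatumOfDeg M A π hdeg hπs hπ).O) =
      ⟨toFL A π (F1 M) (F1C M k) (liftI M A π y), toFL_mem_O_of_deg M A π hdeg hπs hπ _⟩ :=
    Subtype.ext (toFL_liftI M A π y).symm
  rw [h1, red_toFL_of_deg, red_liftI]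

/-- `j` lies in the Gauss valuation ring -/
theorem jgen1_mem_O_of_deg : jgen1 M ∈ (gaussDatumOfDeg M A π hdeg hπs hπ).O := by
  rw [← toL_jZ M]
  exact toL_mem_O_of_deg M A π hdeg hπs hπ _

/-- **`red j = j̄`** -/
theorem red_jgen1_of_deg :
    (gaussDatumOfDeg M A π hdeg hπs hπ).red ⟨jgen1 M, jgen1_mem_O_of_deg M A π hdeg hπs hπ⟩ =
      jC M k := by
  have h1 : (⟨jgen1 M, jgen1_mem_O_of_deg M A π hdeg hπs hπ⟩ :
      ↥(gaussDatumOfDeg M A π hdeg hπs hπ).O) =
      ⟨toL M Kb (jZ M), toL_mem_O_of_deg M A π hdeg hπs hπ _⟩ :=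
    Subtype.ext (toL_jZ M).symm
  rw [h1, red_toL_of_deg, redZ_jZ]

/-- **The orthonormal basis**: a family in the Gauss valuation ring which is a `ℚ̄(j)`-basis of
`F1Bar M` and whose reduction is a `k(j̄)`-basis of `F1C M k`. -/
theorem exists_basis_O_of_deg :
    ∃ (n : ℕ) (u : Fin n → ↥(gaussDatumOfDeg M A π hdeg hπs hπ).O)
      (bL : Module.Basis (Fin n) ↥Kb⟮jgen1 M⟯ ↥(F1Bar M))
      (bk : Module.Basis (Fin n) ↥k⟮jC M k⟯ ↥(F1C M k)),
      (∀ i, bL i = ((u i : ↥(gaussDatumOfDeg M A π hdeg hπs hπ).O) : ↥(F1Bar M))) ∧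
      (∀ i, bk i = (gaussDatumOfDeg M A π hdeg hπs hπ).red (u i)) := by
  obtain ⟨n, t, bL, bk, hbL, hbk⟩ := exists_bases M A π hdeg
  refine ⟨n, fun i => ⟨toL M Kb (t i), toL_mem_O_of_deg M A π hdeg hπs hπ (t i)⟩, bL, bk,
    fun i => hbL i, fun i => ?_⟩
  rw [hbk i, red_toL_of_deg]

theorem linearIndependent_adjoin_congr {K F : Type*} [Field K] [Field F] [Algebra K F] {x y : F}
    (h : x = y) {ι : Type*} (v : ι → F) (hv : LinearIndependent ↥K⟮x⟯ v) :
    LinearIndependent ↥K⟮y⟯ v := by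
  subst h
  exact hv

/-- **(OB) for the Gauss datum of `X₁(M)`**, from the degree equality. -/
theorem ob_of_deg : (gaussDatumOfDeg M A π hdeg hπs hπ).OB := by
  obtain ⟨n, u, bL, bk, hbL, hbk⟩ := exists_basis_O_of_deg M A π hdeg hπs hπ
  have hx := red_jgen1_of_deg M A π hdeg hπs hπ
  refine Fermat.Agent.S37.Deuring.OrthoBasis.ob_of_basis (gaussDatumOfDeg M A π hdeg hπs hπ)
    ⟨jgen1 M, jgen1_mem_O_of_deg M A π hdeg hπs hπ⟩ u ?_ ?_ ?_
  · rw [hx]
    exact transcendental_jC M k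
  · have h2 : (fun i => (gaussDatumOfDeg M A π hdeg hπs hπ).red (u i)) = ⇑bk :=
      funext fun i => (hbk i).symm
    rw [h2]
    exact linearIndependent_adjoin_congr hx.symm _ bk.linearIndependent
  · have h2 : (fun i => ((u i : ↥(gaussDatumOfDeg M A π hdeg hπs hπ).O) : ↥(F1Bar M))) = ⇑bL :=
      funext fun i => (hbL i).symm
    rw [h2]
    exact bL.span_eq.ge

end Datum

/-! ### at the residue field of `A`, from `IgusaDeg M` -/

section Igusa

variable {M} {A}
variable {ℓ : ℕ} (h : IgusaDeg M) (hℓ : ℓ.Prime) (hℓM : ¬ ℓ ∣ M) (hA : A.LiesOverPrime ℓ)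

theorem residue_eq_zero_of_not_isUnit (a : ↥A) (ha : ¬ IsUnit a) : residue ↥A a = 0 := by
  rw [residue_eq_zero_iff]
  exact (mem_maximalIdeal a).mpr ha

include h hℓ hℓM hA in
theorem finiteDimensional_igusa :
    FiniteDimensional ↥(ResidueField ↥A)⟮jC M (ResidueField ↥A)⟯ ↥(F1C M (ResidueField ↥A)) :=
  (h ℓ hℓ hℓM A hA).1

include h hℓ hℓM hA in
/-- the degree equality of `IgusaDeg` -/
theorem finrank_eq_igusa :
    Module.finrank ↥(ResidueField ↥A)⟮jC M (ResidueField ↥A)⟯ ↥(F1C M (ResidueField ↥A)) =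
      Module.finrank ↥Kb⟮jgen1 M⟯ ↥(F1Bar M) :=
  (h ℓ hℓ hℓM A hA).2

include h hℓ hℓM hA in
/-- **`HasRep` for `X₁(M)` at `A`** (`ℓ ∤ M`), from `IgusaDeg M`. -/
theorem hasRep_of_igusa : HasRep A (residue ↥A) (F1 M) (F1C M (ResidueField ↥A)) :=
  haveI := finiteDimensional_igusa h hℓ hℓM hA
  hasRep_of_deg M A (residue ↥A) (finrank_eq_igusa h hℓ hℓM hA)

/-- **The Gauss datum of `ℚ̄(X₁(M))` at `A`** (`ℓ ∤ M`), from `IgusaDeg M`. -/
def gaussDatumIgusa :
    GaussDatum A (residue ↥A) ↥(F1Bar M) ↥(F1C M (ResidueField ↥A)) :=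
  haveI := finiteDimensional_igusa h hℓ hℓM hA
  gaussDatumOfDeg M A (residue ↥A) (finrank_eq_igusa h hℓ hℓM hA) residue_surjective
    residue_eq_zero_of_not_isUnit

theorem gaussDatumIgusa_eq :
    gaussDatumIgusa h hℓ hℓM hA =
      datumOfRep (hasRep_of_igusa h hℓ hℓM hA) residue_surjective residue_eq_zero_of_not_isUnit :=
  rfl

theorem red_surjective_igusa : Function.Surjective (gaussDatumIgusa h hℓ hℓM hA).red :=
  haveI := finiteDimensional_igusa h hℓ hℓM hA
  red_surjective_of_deg M A (residue ↥A) (finrank_eq_igusa h hℓ hℓM hA) residue_surjective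
    residue_eq_zero_of_not_isUnit

theorem jgen1_mem_O_igusa : jgen1 M ∈ (gaussDatumIgusa h hℓ hℓM hA).O :=
  haveI := finiteDimensional_igusa h hℓ hℓM hA
  jgen1_mem_O_of_deg M A (residue ↥A) (finrank_eq_igusa h hℓ hℓM hA) residue_surjective
    residue_eq_zero_of_not_isUnit

theorem red_jgen1_igusa :
    (gaussDatumIgusa h hℓ hℓM hA).red ⟨jgen1 M, jgen1_mem_O_igusa h hℓ hℓM hA⟩ =
      jC M (ResidueField ↥A) :=
  haveI := finiteDimensional_igusa h hℓ hℓM hA
  red_jgen1_of_deg M A (residue ↥A) (finrank_eq_igusa h hℓ hℓM hA) residue_surjective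
    residue_eq_zero_of_not_isUnit

/-- the orthonormal basis at `A` -/
theorem exists_basis_O_igusa :
    ∃ (n : ℕ) (u : Fin n → ↥(gaussDatumIgusa h hℓ hℓM hA).O)
      (bL : Module.Basis (Fin n) ↥Kb⟮jgen1 M⟯ ↥(F1Bar M))
      (bk : Module.Basis (Fin n) ↥(ResidueField ↥A)⟮jC M (ResidueField ↥A)⟯
        ↥(F1C M (ResidueField ↥A))),
      (∀ i, bL i = ((u i : ↥(gaussDatumIgusa h hℓ hℓM hA).O) : ↥(F1Bar M))) ∧
      (∀ i, bk i = (gaussDatumIgusa h hℓ hℓM hA).red (u i)) :=
  haveI := finiteDimensional_igusa h hℓ hℓM hA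
  exists_basis_O_of_deg M A (residue ↥A) (finrank_eq_igusa h hℓ hℓM hA) residue_surjective
    residue_eq_zero_of_not_isUnit

/-- **(OB) for the Gauss datum of `X₁(M)` at `A`**, from `IgusaDeg M`. -/
theorem ob_igusa : (gaussDatumIgusa h hℓ hℓM hA).OB :=
  haveI := finiteDimensional_igusa h hℓ hℓM hA
  ob_of_deg M A (residue ↥A) (finrank_eq_igusa h hℓ hℓM hA) residue_surjective
    residue_eq_zero_of_not_isUnit

/-- (OB) in the spelling `datumOfRep` of the datum (the shape of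
`DatumG.reductionInputsAlongG_of_ob`) -/
theorem ob_datumOfRep_igusa :
    (datumOfRep (hasRep_of_igusa h hℓ hℓM hA) residue_surjective
      (residue_eq_zero_of_not_isUnit (A := A))).OB :=
  ob_igusa h hℓ hℓM hA

end Igusa

end Fermat.Agent.S48.B.Red.Bases1
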