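/-
PROJECT D (S48), part B, block B3, brick F (helper11): THE FIBRE HYPOTHESIS OF helper3's `Equiv1`
IS A THEOREM ON `IgusaDeg M` + `Deg1 M`, hence so are (R1) `Seams.Inertia1 M` and (R2)
`Seams.Frobenius1 M`.

Twin of main's `S18/B/{IntegralJ, FibreX0Id}` for `X₁(M)`: for `c ∈ A` the series `J - c` has
coefficients in `A`, its image in `ℚ̄((q))` is `jgen1 M - c` and its reduction is `jC M κ - c̄`, so the
second clause of `IsPlaceReductionAlongG` is main's `FibreGeneric.MapHyp`; with the equality of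
degrees (`IgusaDeg`) main's generic fibre identity gives: every place reduction maps the zeros of
`j - c` to zeros of `j̄ - c̄`, poles to poles, surjectively, and `#poles(j̄) ≤ #poles(j)` as soon as a
place reduction exists.

* `mapHyp₁`, `ord_pos_map₁`, `ord_neg_map₁`, `exists_ord_neg₁`;
* `fibreHyp1_of : IgusaDeg M → Deg1 M → FibreHyp1 M A` (at `A` over `ℓ ∤ M`);
* `inertia1 : IgusaDeg M → Deg1 M → Seams.Inertia1 M`, `frobenius1 : … → Seams.Frobenius1 M`.
-/
import Mathlib
import Fermat.Agent.S18.ResidueBasics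
import Fermat.Agent.S18.B.FibreGeneric
import Fermat.Agent.S18.B.IntegralJ
import Fermat.Agent.S48.B.Inj.Basics
import Fermat.Agent.S48.B.Red.Seams
import Fermat.Agent.S48.B.Red.Equiv1.PlaceEquiv1

set_option autoImplicit false
set_option linter.unusedSectionVars false
set_option linter.style.haveILetI false
set_option synthInstance.maxHeartbeats 400000

noncomputable section

namespace Fermat.Agent.S48.B.Red.Fibre1

open AlgebraicCurve ModularCurve IntermediateField IsLocalRing HahnSeries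
open Fermat.Agent.S48.B.Defs.Model Fermat.Agent.S48.B.Defs.Reduction
open Fermat.Agent.S48.B.Red.Seams
open Fermat.Agent.S48.B.B1.Seams (jgen1 Deg1)
open Fermat.Agent.S48.B.Inj
open Fermat.Agent.S24.FF Fermat.Agent.S18.A.FibreSep Fermat.Agent.S18.B.FibreGeneric
open Fermat.Agent.S18.B.IntegralJ (jSub coeffMap_subtype_jSub coeffMap_residue_jSub
  jqModC_sub_C_ne_zero)
open Fermat.Agent.S18.B.Basic (coeffEmb_jq algebraMap_eq_C)
open Fermat.Agent.S48.B.Red.Equiv1.PlaceEquiv1 (FibreHyp1 coe_jgen1)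

local notation "Kb" => AlgebraicClosure ℚ

variable (A : ValuationSubring Kb) (M : ℕ) [NeZero M]

/-- instance shortcut (as in main's `S18/B/FibreX0Id` and helper3's `PlaceEquiv1`) -/
noncomputable local instance algShortcut :
    Algebra (ResidueField A) ↥(F1C M (ResidueField A)) :=
  SubalgebraClass.toAlgebra (F1C M (ResidueField A))

/-! ### the integral functions `j - c` -/

theorem coe_jgen1_sub (c : Kb) :
    ((jgen1 M - algebraMap Kb ↥(F1Bar M) c : ↥(F1Bar M)) : LaurentSeries Kb)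
      = jqModC Kb - HahnSeries.C c := by
  rw [AddSubgroupClass.coe_sub, coe_jgen1, coeffEmb_jq, ← algebraMap_eq_C]
  rfl

theorem coe_jC_sub {k : Type*} [Field k] (c : k) :
    ((jC M k - algebraMap k ↥(F1C M k) c : ↥(F1C M k)) : LaurentSeries k)
      = jqModC k - HahnSeries.C c := by
  rw [AddSubgroupClass.coe_sub, coe_jC, ← algebraMap_eq_C]
  rfl

theorem coeffMap_subtype_jSub_mem (c : A) :
    coeffMap A.subtype (jSub A c) ∈ F1Bar M := by
  rw [coeffMap_subtype_jSub, ← coe_jgen1_sub M (c : Kb)]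
  exact SetLike.coe_mem _

theorem coeffMap_residue_jSub_mem (c : A) :
    coeffMap (residue A) (jSub A c) ∈ F1C M (ResidueField A) := by
  rw [coeffMap_residue_jSub, ← coe_jC_sub M (residue A c)]
  exact SetLike.coe_mem _

variable {A M}
variable {r : Place Kb ↥(F1Bar M) → Place (ResidueField A) ↥(F1C M (ResidueField A))}

/-- **`r_* div (j - c) = div (j̄ - c̄)`** for every `c ∈ A` and every place reduction `r`
(twin of `S18/B/IntegralJ.reduction_div_jSub`). -/
theorem mapHyp₁ (hr : IsPlaceReductionAlongG A (residue A) (F1 M) (F1C M (ResidueField A)) r)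
    (c : A) :
    MapHyp (jgen1 M - algebraMap Kb ↥(F1Bar M) (c : Kb))
      (jC M (ResidueField A) - algebraMap (ResidueField A) ↥(F1C M (ResidueField A))
        (residue A c)) r := by
  intro D hD Q
  have hne : coeffMap (residue A) (jSub A c) ≠ 0 := by
    rw [coeffMap_residue_jSub]
    exact jqModC_sub_C_ne_zero _
  have h1 : (⟨coeffMap A.subtype (jSub A c), coeffMap_subtype_jSub_mem A M c⟩ : ↥(F1Bar M))
      = jgen1 M - algebraMap Kb _ (c : Kb) :=
    Subtype.ext ((coeffMap_subtype_jSub A c).trans (coe_jgen1_sub M (c : Kb)).symm)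
  have h2 : (⟨coeffMap (residue A) (jSub A c), coeffMap_residue_jSub_mem A M c⟩ :
      ↥(F1C M (ResidueField A)))
        = jC M (ResidueField A) - algebraMap _ _ (residue A c) :=
    Subtype.ext ((coeffMap_residue_jSub A c).trans (coe_jC_sub M (residue A c)).symm)
  have := hr.2 (jSub A c) (coeffMap_subtype_jSub_mem A M c) (coeffMap_residue_jSub_mem A M c) hne D
    (fun P => by rw [hD P, h1]) Q
  rw [this, h2]

/-! ### the two function fields at `A` -/

section Fields

variable {ℓ : ℕ} (hdeg : IgusaDeg M) (hD : Deg1 M) (hℓ : ℓ.Prime) (hℓM : ¬ ℓ ∣ M)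
  (hA : A.LiesOverPrime ℓ)

include hdeg hℓ hℓM hA in
/-- `j̄` is a function-field generator of `κ(A)(X₁(M))` -/
theorem isFF_jC₁ : IsFF (ResidueField A) (jC M (ResidueField A)) := by
  haveI : FiniteDimensional ↥(ResidueField A)⟮Basics.jC (jqModC_mem_F1C M (ResidueField A))⟯
      ↥(F1C M (ResidueField A)) := (hdeg ℓ hℓ hℓM A hA).1
  exact Basics.isFF_jC (jqModC_mem_F1C M (ResidueField A))

include hdeg hℓ hℓM hA in
/-- `κ(A)(X₁(M)) / κ(A)(j̄)` is separable -/
theorem isSeparable_jC₁ :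
    Algebra.IsSeparable ↥(ResidueField A)⟮jC M (ResidueField A)⟯ ↥(F1C M (ResidueField A)) := by
  haveI : IsAlgClosed (ResidueField A) :=
    Fermat.Agent.S18.ResidueBasics.isAlgClosed_residueField A
  haveI : FiniteDimensional ↥(ResidueField A)⟮Basics.jC (jqModC_mem_F1C M (ResidueField A))⟯
      ↥(F1C M (ResidueField A)) := (hdeg ℓ hℓ hℓM A hA).1
  exact Basics.isSeparable_jC (jqModC_mem_F1C M (ResidueField A))

include hdeg hℓ hℓM hA in
theorem finrank_le₁ :
    Module.finrank ↥Kb⟮jgen1 M⟯ ↥(F1Bar M) ≤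
      Module.finrank ↥(ResidueField A)⟮jC M (ResidueField A)⟯ ↥(F1C M (ResidueField A)) :=
  (hdeg ℓ hℓ hℓM A hA).2.ge

variable (hr : IsPlaceReductionAlongG A (residue A) (F1 M) (F1C M (ResidueField A)) r)

include hdeg hD hℓ hℓM hA hr in
/-- every place reduction maps the zeros of `j - c` to zeros of `j̄ - c̄` -/
theorem ord_pos_map₁ (c : A) {P : Place Kb ↥(F1Bar M)}
    (hP : 0 < P.ord (jgen1 M - algebraMap Kb ↥(F1Bar M) (c : Kb))) :
    0 < (r P).ord (jC M (ResidueField A) - algebraMap (ResidueField A)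
      ↥(F1C M (ResidueField A)) (residue A c)) := by
  haveI : IsAlgClosed (ResidueField A) :=
    Fermat.Agent.S18.ResidueBasics.isAlgClosed_residueField A
  have h₁ := hD.1
  have s₁ := Basics.isSeparable_of_isFF hD.1
  have h₂ := isFF_jC₁ hdeg hℓ hℓM hA
  have s₂ := isSeparable_jC₁ hdeg hℓ hℓM hA
  exact ord_pos_map (h₁.sub_algebraMap (c : Kb)) (isSeparable_sub s₁ (c : Kb))
    (h₂.sub_algebraMap (residue A c)) (isSeparable_sub s₂ (residue A c)) (mapHyp₁ hr c)
    (by rw [finrank_sub_eq, finrank_sub_eq]; exact finrank_le₁ hdeg hℓ hℓM hA) hP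

include hdeg hD hℓ hℓM hA hr in
/-- every place reduction maps the poles of `j` to poles of `j̄` -/
theorem ord_neg_map₁ {P : Place Kb ↥(F1Bar M)} (hP : P.ord (jgen1 M) < 0) :
    (r P).ord (jC M (ResidueField A)) < 0 := by
  haveI : IsAlgClosed (ResidueField A) :=
    Fermat.Agent.S18.ResidueBasics.isAlgClosed_residueField A
  have h₁ := hD.1
  have s₁ := Basics.isSeparable_of_isFF hD.1
  have h₂ := isFF_jC₁ hdeg hℓ hℓM hA
  have s₂ := isSeparable_jC₁ hdeg hℓ hℓM hA
  have h := mem_poles_map h₁ s₁ h₂ s₂ ((0 : A) : Kb) (residue A 0) (mapHyp₁ hr 0)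
    (finrank_le₁ hdeg hℓ hℓM hA) ((mem_poles_iff_ord_neg h₁ s₁ P).mpr hP)
  exact (mem_poles_iff_ord_neg h₂ s₂ (r P)).mp h

include hdeg hD hℓ hℓM hA hr in
/-- every pole of `j̄` is the image of a pole of `j` under every place reduction -/
theorem exists_ord_neg₁ {Q : Place (ResidueField A) ↥(F1C M (ResidueField A))}
    (hQ : Q.ord (jC M (ResidueField A)) < 0) :
    ∃ P : Place Kb ↥(F1Bar M), P.ord (jgen1 M) < 0 ∧ r P = Q := by
  haveI : IsAlgClosed (ResidueField A) :=
    Fermat.Agent.S18.ResidueBasics.isAlgClosed_residueField A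
  have h₁ := hD.1
  have s₁ := Basics.isSeparable_of_isFF hD.1
  have h₂ := isFF_jC₁ hdeg hℓ hℓM hA
  have s₂ := isSeparable_jC₁ hdeg hℓ hℓM hA
  obtain ⟨P, hP, hPQ⟩ := exists_mem_poles h₁ s₁ h₂ s₂ ((0 : A) : Kb) (residue A 0)
    (mapHyp₁ hr 0) (finrank_le₁ hdeg hℓ hℓM hA) ((mem_poles_iff_ord_neg h₂ s₂ Q).mpr hQ)
  exact ⟨P, (mem_poles_iff_ord_neg h₁ s₁ P).mp hP, hPQ⟩

end Fields

/-! ### existence of zeros in characteristic zero -/

theorem exists_ord_pos_sub (hD : Deg1 M) (a : Kb) :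
    ∃ P : Place Kb ↥(F1Bar M), 0 < P.ord (jgen1 M - algebraMap Kb ↥(F1Bar M) a) := by
  have h₁ := hD.1
  have s₁ := Basics.isSeparable_of_isFF hD.1
  have hsum := sum_zeros h₁ s₁ a
  haveI : FiniteDimensional ↥Kb⟮jgen1 M⟯ ↥(F1Bar M) := h₁.finite
  have hpos : (0 : ℤ) < (Module.finrank ↥Kb⟮jgen1 M⟯ ↥(F1Bar M) : ℤ) := by
    exact_mod_cast Module.finrank_pos
  by_contra hcon
  push Not at hcon
  have h0 : ∑ v ∈ zeros h₁ s₁ a, v.ord (jgen1 M - algebraMap Kb ↥(F1Bar M) a) ≤ 0 :=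
    Finset.sum_nonpos fun v _ => hcon v
  omega

/-! ### the fibre hypothesis -/

/-- **helper3's fibre hypothesis `FibreHyp1 M A` is a theorem** on the degree statements of B2
and B1. -/
theorem fibreHyp1_of (hdeg : IgusaDeg M) (hD : Deg1 M) {ℓ : ℕ} (hℓ : ℓ.Prime) (hℓM : ¬ ℓ ∣ M)
    (hA : A.LiesOverPrime ℓ) : FibreHyp1 M A where
  pd := Basics.hasPrincipalDivisors_L hD.1
  riemann := by
    obtain ⟨gL, HL, -⟩ := Basics.exists_genus_L hD.1
    exact ⟨gL, HL⟩
  ex0 := by
    obtain ⟨P, hP⟩ := exists_ord_pos_sub hD 0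
    rw [map_zero, sub_zero] at hP
    exact ⟨P, hP⟩
  ex1 := by
    obtain ⟨P, hP⟩ := exists_ord_pos_sub hD 1
    rw [map_one] at hP
    exact ⟨P, hP⟩
  map0 := by
    intro r hr P hP
    have h := ord_pos_map₁ hdeg hD hℓ hℓM hA hr 0 (P := P)
      (by rw [ZeroMemClass.coe_zero, map_zero, sub_zero]; exact hP)
    rwa [map_zero, map_zero, sub_zero] at h
  map1 := by
    intro r hr P hP
    have h := ord_pos_map₁ hdeg hD hℓ hℓM hA hr 1 (P := P)
      (by rw [OneMemClass.coe_one, map_one]; exact hP)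
    rwa [map_one, map_one] at h

/-! ### (R1) and (R2) -/

open Fermat.Agent.S48.B.Red.Equiv1.PlaceEquiv1 (inertia1_of frobenius1_of)

/-- **(R1) = `Seams.Inertia1 M`** from `IgusaDeg M` (B2) and `Deg1 M` (B1). -/
theorem inertia1 (hdeg : IgusaDeg M) (hD : Deg1 M) : Inertia1 M :=
  inertia1_of M fun _ hℓ hℓM _ hA => fibreHyp1_of hdeg hD hℓ hℓM hA

/-- **(R2) = `Seams.Frobenius1 M`** from `IgusaDeg M` (B2) and `Deg1 M` (B1). -/
theorem frobenius1 (hdeg : IgusaDeg M) (hD : Deg1 M) : Frobenius1 M :=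
  frobenius1_of M fun _ hℓ hℓM _ hA => fibreHyp1_of hdeg hD hℓ hℓM hA

end Fermat.Agent.S48.B.Red.Fibre1

end
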