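/-
PROJECT D (S48), part B, block B3: THE TYPED SEAMS OF THE WILD CASE (residue characteristic `2`, `3`)
(helper11, leader B3).  A separate file so that the blob of `Red/Seams.lean` stays stable.

* `WildK3₁ M A` : **[B-K3]** (B4: helper9 / helper13) contract K3 for `X₁(M)`: character for character
  main's `S18.Wire.K3` with `(modularFunctionFieldBar N, modularFunctionFieldFullC k N, jgen N, jk)`
  replaced by `(F1Bar M, F1C M k, jgen1 M, jC M k)`; the proofs `isFF`, `isSeparable` which main takes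
  from its instances are universally quantified (they are propositions);
* `CuspCount₁ M A` : the comparison of the numbers of cusps (B3, bricks `Cusp1/*`: helper6):
  `j̄` has at most as many poles on `X₁(M)/k` as `j` has on `X₁(M)/ℚ̄`;
* consumer: brick `Wild1` (helper6): `WildK3₁ + CuspCount₁ + IgusaDeg + Hurwitz ⟹ Seams.GenusLeWild1 M`.
-/
import Mathlib
import Fermat.Agent.S18.A.Defs
import Fermat.Agent.S18.A.FibreSep
import Fermat.Agent.S48.B.Red.Seams

set_option autoImplicit false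

noncomputable section

namespace Fermat.Agent.S48.B.Red.SeamsWild

open ModularCurve AlgebraicCurve IntermediateField IsLocalRing
open Fermat.Agent.S48.B.Defs.Model
open Fermat.Agent.S48.B.B1.Seams (jgen1)
open Fermat.Agent.S48.B.Red.Seams
open Fermat.Agent.S18.A Fermat.Agent.S24.FF

local notation "Kb" => AlgebraicClosure ℚ

variable (M : ℕ) [NeZero M]

/-- **[B-K3]** contract K3 for `X₁(M)` at `A`: the lower bound for the different of the fibre over
`j̄ = 0 = 1728` in residue characteristic `2`, `3`. -/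
def WildK3₁ (A : ValuationSubring Kb) : Prop :=
  ∀ [IsAlgClosed (ResidueField A)]
    (hxL : IsFF Kb (jgen1 M)) (hsepL : Algebra.IsSeparable ↥Kb⟮jgen1 M⟯ (F1Bar M))
    (hxk : IsFF (ResidueField A) (jC M (ResidueField A)))
    (hsep : Algebra.IsSeparable ↥(ResidueField A)⟮jC M (ResidueField A)⟯
      (F1C M (ResidueField A))),
    (1728 : ResidueField A) = 0 →
      ((Module.finrank ↥Kb⟮jgen1 M⟯ (F1Bar M) : ℤ) - ((FibreSep.zeros hxL hsepL 0).card : ℤ))
        + ((Module.finrank ↥Kb⟮jgen1 M⟯ (F1Bar M) : ℤ)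
          - ((FibreSep.zeros hxL hsepL 1728).card : ℤ))
      ≤ ∑ Q ∈ FibreSep.zeros hxk hsep 0, (Defs.diffExp hxk hsep Q : ℤ)

/-- **the cusp count** for `X₁(M)` at `A` -/
def CuspCount₁ (A : ValuationSubring Kb) : Prop :=
  ∀ [IsAlgClosed (ResidueField A)]
    (hxL : IsFF Kb (jgen1 M)) (hsepL : Algebra.IsSeparable ↥Kb⟮jgen1 M⟯ (F1Bar M))
    (hxk : IsFF (ResidueField A) (jC M (ResidueField A)))
    (hsep : Algebra.IsSeparable ↥(ResidueField A)⟮jC M (ResidueField A)⟯
      (F1C M (ResidueField A))),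
    (FibreSep.poles hxk hsep).card ≤ (FibreSep.poles hxL hsepL).card

/-- [B-K3] at every `A` over `2`, `3` -/
def WildK3All : Prop :=
  ∀ ℓ : ℕ, ℓ.Prime → ¬ ℓ ∣ M → (ℓ = 2 ∨ ℓ = 3) →
    ∀ A : ValuationSubring Kb, A.LiesOverPrime ℓ → WildK3₁ M A

/-- the cusp count at every `A` over `2`, `3` -/
def CuspCountAll : Prop :=
  ∀ ℓ : ℕ, ℓ.Prime → ¬ ℓ ∣ M → (ℓ = 2 ∨ ℓ = 3) →
    ∀ A : ValuationSubring Kb, A.LiesOverPrime ℓ → CuspCount₁ M A

end Fermat.Agent.S48.B.Red.SeamsWild

end
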