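/-
PROJECT D (S48), part B, block B3, brick W (helper6): THE INEQUALITY OF GENERA IN RESIDUE
CHARACTERISTIC `2` AND `3` FOR `X₁(M)`.

Twin of main's `S37/Wild/GenusLe.genus_le_of_collision` + `S37/GenusAll.genus_le` (case
`1728 = 0`), through the ABSTRACT engine `S18.B.GenusIneqDiff.genus_le_of_collision` (two function
fields, the branch values `0` and `1728` of the characteristic zero side collide on the other side):

  `genusLeWild1 : WildK3All M → CuspCountAll M → IgusaDeg M → Deg1 M → Ram1 M → GenusLeWild1 M`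

* `hT` (the fibres of `j` off `0`, `1728` have `n` points) : from `Ram1` (`ord = 1`) and
  `FibreSep.sum_zeros`;
* `hC` : contract K3 for `X₁(M)` (`SeamsWild.WildK3₁`, B4);
* `hcp` : the cusp count (`SeamsWild.CuspCount₁`, bricks `Cusp1/*`);
* `hn` : `IgusaDeg`; the Hurwitz formulas: main's `S18.A.Hurwitz.hurwitzFormula` on both sides;
* separability on the residue side: main's `S18.B.SeparableFk.isSeparable_intermediateField`.
-/
import Mathlib
import Fermat.Agent.S18.A.Hurwitz
import Fermat.Agent.S18.B.GenusIneqDiff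
import Fermat.Agent.S18.B.SeparableFk
import Fermat.Agent.S18.ResidueBasics
import Fermat.Agent.S48.B.Red.SeamsWild

set_option autoImplicit false
set_option synthInstance.maxHeartbeats 400000
set_option linter.style.haveILetI false

noncomputable section

namespace Fermat.Agent.S48.B.Red.Wild1

open ModularCurve AlgebraicCurve IntermediateField IsLocalRing
open Fermat.Agent.S48.B.Defs.Model
open Fermat.Agent.S48.B.B1.Seams (jgen1 Deg1)
open Fermat.Agent.S48.B.Red.Seams Fermat.Agent.S48.B.Red.SeamsWild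
open Fermat.Agent.S18.A Fermat.Agent.S24.FF

local notation "Kb" => AlgebraicClosure ℚ

variable {M : ℕ} [NeZero M]

/-- `j̄` is transcendental over `k` -/
theorem transcendental_jC (k : Type*) [Field k] : Transcendental k (jC M k) :=
  (transcendental_algebraMap_iff
    (algebraMap (F1C M k) (LaurentSeries k)).injective).mp
    (Fermat.Agent.S28.ThetaAdjoin.transcendental_jqModC k)

/-- the unramified fibres of `j` in characteristic zero have `n` points -/
theorem card_zeros_eq (hRam : Ram1 M) (hxL : IsFF Kb (jgen1 M))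
    (hsepL : Algebra.IsSeparable ↥Kb⟮jgen1 M⟯ (F1Bar M)) (c : Kb) (h0 : c ≠ 0)
    (h1728 : c ≠ 1728) :
    (FibreSep.zeros hxL hsepL c).card = Module.finrank ↥Kb⟮jgen1 M⟯ (F1Bar M) := by
  have h := FibreSep.sum_zeros hxL hsepL c
  have h1 : ∑ v ∈ FibreSep.zeros hxL hsepL c, v.ord (jgen1 M - algebraMap Kb (F1Bar M) c) =
      ∑ _v ∈ FibreSep.zeros hxL hsepL c, (1 : ℤ) :=
    Finset.sum_congr rfl fun v hv =>
      hRam.2.2.1 c h0 h1728 v ((FibreSep.mem_zeros hxL hsepL c v).mp hv)
  rw [h1, Finset.sum_const, nsmul_eq_mul, mul_one] at h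
  exact_mod_cast h

/-- **[B-wild]**: the inequality of genera for `X₁(M)` in residue characteristic `2` and `3`. -/
theorem genusLeWild1 (hK3 : WildK3All M) (hcp : CuspCountAll M) (hIg : IgusaDeg M)
    (hdeg : Deg1 M) (hRam : Ram1 M) : GenusLeWild1 M := by
  intro ℓ hℓ hℓM h23 A hA gL gk HL Hk
  haveI : IsAlgClosed (ResidueField A) :=
    Fermat.Agent.S18.ResidueBasics.isAlgClosed_residueField A
  obtain ⟨hfin, hn⟩ := hIg ℓ hℓ hℓM A hA
  haveI := hfin
  -- the two separating elements
  have hxL : IsFF Kb (jgen1 M) := hdeg.1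
  haveI := hxL.finite
  have hsepL : Algebra.IsSeparable ↥Kb⟮jgen1 M⟯ (F1Bar M) := by
    haveI : CharZero ↥Kb⟮jgen1 M⟯ :=
      charZero_of_injective_algebraMap (algebraMap Kb ↥Kb⟮jgen1 M⟯).injective
    infer_instance
  have hxk : IsFF (ResidueField A) (jC M (ResidueField A)) :=
    ⟨transcendental_jC (ResidueField A), hfin⟩
  have hsepk : Algebra.IsSeparable ↥(ResidueField A)⟮jC M (ResidueField A)⟯
      (F1C M (ResidueField A)) := by
    haveI : Algebra.IsIntegral ↥(ResidueField A)⟮jC M (ResidueField A)⟯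
        (F1C M (ResidueField A)) := Algebra.IsIntegral.of_finite _ _
    exact Fermat.Agent.S18.B.SeparableFk.isSeparable_intermediateField
      (F1C M (ResidueField A)) (jC M (ResidueField A)) (transcendental_jC (ResidueField A))
      (Fermat.Agent.S28.ThetaAdjoin.thetaL_jqModC_ne_zero (ResidueField A))
  -- `1728 = 0` in the residue field
  have h1728 : (1728 : ResidueField A) = 0 := by
    haveI : Fact ℓ.Prime := ⟨hℓ⟩
    haveI := Fermat.Agent.S18.ResidueBasics.charP_residueField A hA
    have h : ((1728 : ℕ) : ResidueField A) = 0 := by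
      rw [CharP.cast_eq_zero_iff (ResidueField A) ℓ]
      rcases h23 with rfl | rfl <;> norm_num
    exact_mod_cast h
  have h1728L : (0 : Kb) ≠ 1728 := by norm_num
  exact Fermat.Agent.S18.B.GenusIneqDiff.genus_le_of_collision hxL hsepL
    (Hurwitz.hurwitzFormula hxL hsepL HL) 0 1728 h1728L
    (fun c h0 h1 => card_zeros_eq hRam hxL hsepL c h0 h1)
    hxk hsepk (Hurwitz.hurwitzFormula hxk hsepk Hk) hn.symm 0
    (hK3 ℓ hℓ hℓM h23 A hA hxL hsepL hxk hsepk h1728)
    (hcp ℓ hℓ hℓM h23 A hA hxL hsepL hxk hsepk)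

end Fermat.Agent.S48.B.Red.Wild1

end
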