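/-
PROJECT D (S48), part B, block B3: **THE END OF B3** (helper11, leader B3).

`HasReduction1All M p` (helper8's `Defs/Reduction`: the output of the geometric half of part B,
`HasReduction1 M p ℓ` at every valuation subring of `ℚ̄` over every prime `ℓ ∤ M p`) from the THREE
inputs which are still seams:

* `hI   : Seams.IgusaDeg M`                       (block B2, helper25 / helper23 / helper12);
* `hfam : Cusp1.Main.CuspFamAll M`, i.e. `Cusp1.Seams.CuspFam1 M A` at every `A` over `2`, `3`
  (helper16's `Cusp1/FromFull/All.cuspFam1_all` gives it from `ActStable M`, the by-product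
  `D' = ⊤` of helper23's `Igusa/U1/Main`);
* `hES  : Glue1.ES1 M`                            (block [B-ES], helper10 / helper8).

Everything else is discharged by the bricks of the owners:
B1 (`B1/Main`, helper7 and team: `Deg1`, `Ram1`, `DiamondExists`, `RepLe`, `SepTay`),
`Bases1` (helper1), `Tame1` (helper4), `Unique1` / `Equiv1` / `Diamond1` (helper3), `Wild1` / `Cusp1`
(helper6, with `Cusp1/PoleSwap` of helper2 and `Cusp1/BaseSwap` of helper1 inside `Cusp1/Main`),
`K3/*` (helper13) on `K3/Gauss1Of*` (helper21), `Inj/*` (helper9), and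
`GaussG` / `DatumG` / `Gauss1` / `Inputs1` / `Fibre1` / `Glue1` (helper11).
-/
import Mathlib
import Fermat.Agent.S48.B.B1.Main
import Fermat.Agent.S48.B.B1.Lmap1Sep
import Fermat.Agent.S48.B.K3.Spine
import Fermat.Agent.S48.B.Inj.Final1
import Fermat.Agent.S48.B.Red.Bases1
import Fermat.Agent.S48.B.Red.Inputs1
import Fermat.Agent.S48.B.Red.Fibre1
import Fermat.Agent.S48.B.Red.Glue1
import Fermat.Agent.S48.B.Red.Wild1
import Fermat.Agent.S48.B.Red.Diamond1.Final
import Fermat.Agent.S48.B.Red.Cusp1.Main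
import Fermat.Agent.S48.B.Red.Cusp1.FromFull.All

set_option autoImplicit false
set_option linter.unusedSectionVars false
set_option linter.style.haveILetI false
set_option synthInstance.maxHeartbeats 400000

noncomputable section

namespace Fermat.Agent.S48.B.Red.Final1

open ModularCurve AlgebraicCurve IsLocalRing
open Fermat.Agent.S48.B.Defs.Model Fermat.Agent.S48.B.Defs.Reduction
open Fermat.Agent.S48.B.Red.Seams Fermat.Agent.S48.B.Red.SeamsWild
open Fermat.Agent.S48.B.Red.Inputs1 (BasesOut)
open Fermat.Agent.S48.B.Red.Cusp1.Main (CuspFamAll)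
open Fermat.Agent.S48.B.Red.Cusp1.FromFull.All (ActStable)
open Fermat.Agent.S48.B.B1.Seams (Deg1 RepLe DiamondExists)

local notation "Kb" => AlgebraicClosure ℚ

variable (M : ℕ) [NeZero M]

/-! ### the inputs which are theorems of block B1 -/

theorem deg1 : Deg1 M := Fermat.Agent.S48.B.B1.Main.deg1 M

theorem ram1 : Ram1 M := Fermat.Agent.S48.B.B1.Main.ram1 M

theorem diamondExists : DiamondExists M := Fermat.Agent.S48.B.B1.Main.diamondExists M

/-! ### block B3 on `IgusaDeg` -/

variable {M}

/-- brick `Bases1` in the shape of `Inputs1` -/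
theorem basesOut (hI : IgusaDeg M) {ℓ : ℕ} (hℓ : ℓ.Prime) (hℓM : ¬ ℓ ∣ M)
    {A : ValuationSubring Kb} (hA : A.LiesOverPrime ℓ) : BasesOut M A :=
  ⟨⟨Bases1.hasRep_of_igusa hI hℓ hℓM hA, Bases1.ob_datumOfRep_igusa hI hℓ hℓM hA⟩⟩

/-- **(R1)** -/
theorem inertia1 (hI : IgusaDeg M) : Inertia1 M := Fibre1.inertia1 hI (deg1 M)

/-- **(R2)** -/
theorem frobenius1 (hI : IgusaDeg M) : Frobenius1 M := Fibre1.frobenius1 hI (deg1 M)

/-- **(R0)** -/
theorem diamondRed1 (hI : IgusaDeg M) : DiamondRed1 M :=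
  Diamond1.Final.diamondRed1 M (diamondExists M) hI (deg1 M)

/-! ### the wild case -/

/-- **[B-K3]** (helper13's `K3/Spine` on helper21's `gauss1_of`) -/
theorem wildK3All (hI : IgusaDeg M) : WildK3All M :=
  Fermat.Agent.S48.B.K3.Spine.wildK3All M (Fermat.Agent.S48.B.B1.Main.repLe M) (deg1 M)
    (Fermat.Agent.S48.B.B1.Lmap1Sep.sepTay_of (Fermat.Agent.S48.B.B1.Main.wpForms M)
      (Fermat.Agent.S48.B.B1.Main.repLe M)) hI

/-- **[B-wild]**: the inequality of genera at `2`, `3` -/
theorem genusLeWild1 (hI : IgusaDeg M) (hfam : CuspFamAll M) : GenusLeWild1 M :=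
  Wild1.genusLeWild1 (wildK3All hI) (Cusp1.Main.cuspCountAll hI hfam) hI (deg1 M) (ram1 M)

/-! ### the end, on `IgusaDeg`, `CuspFamAll` and `ES1` -/

section End

variable (hI : IgusaDeg M) (hfam : CuspFamAll M)

include hI hfam in
/-- **[B-red]**: `ReductionInputs1 A M` at every `A` over every `ℓ ∤ M` -/
theorem redInputs1 : RedInputs1 M :=
  Inputs1.redInputs1 hI (deg1 M) (ram1 M) (genusLeWild1 hI hfam)
    (fun _ hℓ hℓM _ hA => basesOut hI hℓ hℓM hA)

include hI hfam in
/-- **(R4)** -/
theorem inj1 {p : ℕ} (hp : p.Prime) : Glue1.Inj1 M p :=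
  Fermat.Agent.S48.B.Inj.Final1.inj1 hp hI (deg1 M) (ram1 M) (genusLeWild1 hI hfam)
    (fun _ hℓ hℓM _ hA => basesOut hI hℓ hℓM hA)

include hI hfam in
/-- **THE OUTPUT OF THE GEOMETRIC HALF OF PART B**: `HasReduction1 M p ℓ` at every valuation
subring of `ℚ̄` over every prime `ℓ ∤ M p` (`p` prime; no other condition on `p`). -/
theorem hasReduction1All {p : ℕ} (hp : p.Prime) (hES : Glue1.ES1 M) : HasReduction1All M p :=
  Glue1.hasReduction1All_of (inertia1 hI) (frobenius1 hI) (diamondRed1 hI) hES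
    (inj1 hI hfam hp)

end End

/-! ### the same on `ActStable` (helper16's producer of the cusp families) -/

section Stable

/-- the complete families at `2`, `3` from `ActStable M` -/
theorem cuspFamAll (hS : ActStable M) : CuspFamAll M := by
  intro ℓ hℓ hℓM _ A hA
  haveI : Fact ℓ.Prime := ⟨hℓ⟩
  exact Cusp1.FromFull.All.cuspFam1_all M hS ℓ hℓM A hA

theorem redInputs1_of_actStable (hI : IgusaDeg M) (hS : ActStable M) : RedInputs1 M :=
  redInputs1 hI (cuspFamAll hS)

theorem hasReduction1All_of_actStable (hI : IgusaDeg M) (hS : ActStable M) {p : ℕ}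
    (hp : p.Prime) (hES : Glue1.ES1 M) : HasReduction1All M p :=
  hasReduction1All hI (cuspFamAll hS) hp hES

end Stable

end Fermat.Agent.S48.B.Red.Final1

end
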